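/-
S55 sprint, block (IV) second inequality (helper1).
INTERFACE between the intrinsic number field statements and any model of the completions:
a `CompletionData F` attaches to every finite place `v` of the number field `F` a field `Fv v` with a
valuation subring `𝒪v v` (complete DVR with finite residue field = helper6's bundle) and an embedding
`emb v : F →+* Fv v` such that the unit ball induces `v` and `𝓞 F` is dense in `𝒪v v`.
-/
import Mathlib
import Fermat.Agent.S55lib.SecondIneq.Core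

set_option autoImplicit false

namespace Fermat.Agent.S55lib.SecondIneq

open IsDedekindDomain HeightOneSpectrum NumberField IsLocalRing

universe u

/-- A family of completions of the number field `F` at its finite places. -/
structure CompletionData (F : Type*) [Field F] [NumberField F] where
  /-- the local field at `v` -/
  Fv : HeightOneSpectrum (𝓞 F) → Type u
  [instField : ∀ v, Field (Fv v)]
  /-- its ring of integers -/
  𝒪v : ∀ v, ValuationSubring (Fv v)
  [instDVR : ∀ v, IsDiscreteValuationRing (𝒪v v)]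
  [instComplete : ∀ v, IsAdicComplete (maximalIdeal (𝒪v v)) (𝒪v v)]
  [instFinite : ∀ v, Finite (ResidueField (𝒪v v))]
  /-- the embedding of the global field -/
  emb : ∀ v, F →+* Fv v
  emb_mem_iff : ∀ v (x : F), emb v x ∈ 𝒪v v ↔ v.valuation F x ≤ 1
  dense : ∀ v (y : 𝒪v v) (n : ℕ), ∃ (x : 𝓞 F) (z : 𝒪v v),
    z ∈ maximalIdeal (𝒪v v) ^ n ∧ (y : Fv v) = emb v (x : F) + (z : Fv v)

attribute [instance] CompletionData.instField CompletionData.instDVR CompletionData.instComplete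
  CompletionData.instFinite

namespace CompletionData

variable {F : Type*} [Field F] [NumberField F] (D : CompletionData.{u} F)

/-- the localisation maps on units -/
def loc (v : HeightOneSpectrum (𝓞 F)) : Fˣ →* (D.Fv v)ˣ := Units.map (D.emb v : F →* D.Fv v)

@[simp] theorem coe_loc (v : HeightOneSpectrum (𝓞 F)) (a : Fˣ) :
    ((D.loc v a : (D.Fv v)ˣ) : D.Fv v) = D.emb v (a : F) := rfl

/-- the local units -/
noncomputable def U (v : HeightOneSpectrum (𝓞 F)) : Subgroup (D.Fv v)ˣ := (D.𝒪v v).unitGroup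

theorem emb_valuation_le_one_iff (v : HeightOneSpectrum (𝓞 F)) (x : F) :
    (D.𝒪v v).valuation (D.emb v x) ≤ 1 ↔ v.valuation F x ≤ 1 := by
  rw [ValuationSubring.valuation_le_one_iff, D.emb_mem_iff]

theorem emb_valuation_eq_one_iff (v : HeightOneSpectrum (𝓞 F)) (x : F) :
    (D.𝒪v v).valuation (D.emb v x) = 1 ↔ v.valuation F x = 1 := by
  by_cases hx : x = 0
  · subst hx; simp
  have h1 := D.emb_valuation_le_one_iff v x
  have h2 := D.emb_valuation_le_one_iff v x⁻¹
  rw [map_inv₀, map_inv₀, map_inv₀] at h2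
  have hne : v.valuation F x ≠ 0 := (Valuation.ne_zero_iff _).mpr hx
  have hne' : (D.𝒪v v).valuation (D.emb v x) ≠ 0 :=
    (Valuation.ne_zero_iff _).mpr ((map_ne_zero _).mpr hx)
  rw [inv_le_one₀ (zero_lt_iff.mpr hne'), inv_le_one₀ (zero_lt_iff.mpr hne)] at h2
  constructor
  · intro h
    exact le_antisymm (h1.mp h.le) (h2.mp h.ge)
  · intro h
    exact le_antisymm (h1.mpr h.le) (h2.mpr h.ge)

theorem emb_valuation_lt_one_iff (v : HeightOneSpectrum (𝓞 F)) (x : F) :
    (D.𝒪v v).valuation (D.emb v x) < 1 ↔ v.valuation F x < 1 := by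
  rw [lt_iff_le_and_ne, lt_iff_le_and_ne, D.emb_valuation_le_one_iff, Ne, Ne,
    D.emb_valuation_eq_one_iff]

theorem loc_mem_U_iff (v : HeightOneSpectrum (𝓞 F)) (a : Fˣ) :
    D.loc v a ∈ D.U v ↔ v.valuation F (a : F) = 1 := by
  rw [U, ValuationSubring.mem_unitGroup_iff, coe_loc, D.emb_valuation_eq_one_iff]

/-- a global element is a unit at almost all places -/
theorem finite_loc_not_mem_U (a : Fˣ) : {v | D.loc v a ∉ D.U v}.Finite := by
  have h := HeightOneSpectrum.Support.finite (𝓞 F) (a : F)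
  have h' := HeightOneSpectrum.Support.finite (𝓞 F) ((a⁻¹ : Fˣ) : F)
  refine (h.union h').subset ?_
  intro v hv
  simp only [Set.mem_ofPred_eq, loc_mem_U_iff] at hv
  simp only [Set.mem_union, HeightOneSpectrum.Support, Set.mem_ofPred_eq]
  by_contra hcon
  push Not at hcon
  apply hv
  refine le_antisymm hcon.1 ?_
  have h2 := hcon.2
  rw [Units.val_inv_eq_inv_val, map_inv₀] at h2
  have hne : v.valuation F (a : F) ≠ 0 := (Valuation.ne_zero_iff _).mpr a.ne_zero
  rwa [inv_le_one₀ (zero_lt_iff.mpr hne)] at h2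

/-! ### integers -/

theorem emb_integer_mem (v : HeightOneSpectrum (𝓞 F)) (x : 𝓞 F) : D.emb v (x : F) ∈ D.𝒪v v := by
  rw [D.emb_mem_iff]; exact v.valuation_le_one x

/-- the embedding on rings of integers -/
def embInt (v : HeightOneSpectrum (𝓞 F)) : 𝓞 F →+* D.𝒪v v :=
  ((D.emb v).comp (algebraMap (𝓞 F) F)).codRestrict (D.𝒪v v) (D.emb_integer_mem v)

@[simp] theorem coe_embInt (v : HeightOneSpectrum (𝓞 F)) (x : 𝓞 F) :
    ((D.embInt v x : D.𝒪v v) : D.Fv v) = D.emb v (x : F) := rfl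

theorem embInt_mem_maximalIdeal_iff (v : HeightOneSpectrum (𝓞 F)) (x : 𝓞 F) :
    D.embInt v x ∈ maximalIdeal (D.𝒪v v) ↔ x ∈ v.asIdeal := by
  rw [ValuationSubring.valuation_lt_one_iff, coe_embInt, D.emb_valuation_lt_one_iff,
    v.valuation_lt_one_iff_mem]

/-- a uniformizer of `v` in `F` stays a uniformizer in the completion -/
theorem irreducible_emb_uniformizer (v : HeightOneSpectrum (𝓞 F)) (π : F)
    (hπ : v.valuation F π = WithZero.exp (-1 : ℤ)) :
    ∃ h : D.emb v π ∈ D.𝒪v v, Irreducible (⟨D.emb v π, h⟩ : D.𝒪v v) := by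
  have hπ1 : v.valuation F π < 1 := by
    rw [hπ, ← WithZero.exp_zero, WithZero.exp_lt_exp]; norm_num
  have hmem : D.emb v π ∈ D.𝒪v v := (D.emb_mem_iff v π).mpr hπ1.le
  refine ⟨hmem, ?_⟩
  set ϖ' : D.𝒪v v := ⟨D.emb v π, hmem⟩ with hϖ'
  obtain ⟨ϖ, hϖ⟩ := IsDiscreteValuationRing.exists_irreducible (D.𝒪v v)
  have hm : maximalIdeal (D.𝒪v v) = Ideal.span {ϖ} := hϖ.maximalIdeal_eq
  -- approximate ϖ by a global integer
  obtain ⟨x, z, hz, hxz⟩ := D.dense v ϖ 2
  have hxz' : D.embInt v x = ϖ - z := by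
    apply Subtype.ext
    show D.emb v (x : F) = (ϖ : D.Fv v) - (z : D.Fv v)
    rw [hxz]; ring
  have hϖm : ϖ ∈ maximalIdeal (D.𝒪v v) := by rw [hm]; exact Ideal.mem_span_singleton_self _
  have hzm : z ∈ maximalIdeal (D.𝒪v v) := Ideal.pow_le_self (by norm_num) hz
  have hxm : D.embInt v x ∈ maximalIdeal (D.𝒪v v) := by
    rw [hxz']; exact Ideal.sub_mem _ hϖm hzm
  have hxP : x ∈ v.asIdeal := (D.embInt_mem_maximalIdeal_iff v x).mp hxm
  -- x / π is v-integral
  have hxπ : v.valuation F ((x : F) / π) ≤ 1 := by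
    have h1 : v.valuation F (x : F) ≤ WithZero.exp (-1 : ℤ) := by
      rw [v.valuation_of_algebraMap]
      have := (v.intValuation_le_pow_iff_mem x 1).mpr (by simpa using hxP)
      simpa using this
    rw [map_div₀, hπ]
    exact div_le_one_of_le₀ h1 zero_le
  have hcm : D.emb v ((x : F) / π) ∈ D.𝒪v v := (D.emb_mem_iff v _).mpr hxπ
  have hπ0 : π ≠ 0 := by
    intro h; rw [h, map_zero] at hπ; exact WithZero.exp_ne_zero.symm hπ
  have hfac : D.embInt v x = ϖ' * ⟨_, hcm⟩ := by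
    apply Subtype.ext
    show D.emb v (x : F) = D.emb v π * D.emb v ((x : F) / π)
    rw [← map_mul]
    congr 1
    field_simp
  -- ϖ' ∈ 𝔪
  have hϖ'm : ϖ' ∈ maximalIdeal (D.𝒪v v) := by
    rw [ValuationSubring.valuation_lt_one_iff]
    exact (D.emb_valuation_lt_one_iff v π).mpr hπ1
  -- ϖ' ∉ 𝔪²
  have hϖ'2 : ϖ' ∉ maximalIdeal (D.𝒪v v) ^ 2 := by
    intro h2
    have h3 : D.embInt v x ∈ maximalIdeal (D.𝒪v v) ^ 2 := by
      rw [hfac]; exact Ideal.mul_mem_right _ _ h2
    have h4 : ϖ ∈ maximalIdeal (D.𝒪v v) ^ 2 := by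
      have : ϖ = D.embInt v x + z := by rw [hxz']; ring
      rw [this]; exact Ideal.add_mem _ h3 hz
    rw [hm, Ideal.span_singleton_pow, Ideal.mem_span_singleton] at h4
    have : ϖ ^ 2 ∣ ϖ ^ 1 := by simpa using h4
    exact absurd ((pow_dvd_pow_iff hϖ.ne_zero hϖ.not_isUnit).mp this) (by norm_num)
  -- hence ϖ' is associated to ϖ
  rw [hm, Ideal.mem_span_singleton] at hϖ'm
  obtain ⟨c, hc⟩ := hϖ'm
  have hcu : IsUnit c := by
    by_contra hnu
    apply hϖ'2
    have hcm' : c ∈ maximalIdeal (D.𝒪v v) := hnu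
    rw [hm, Ideal.mem_span_singleton] at hcm'
    obtain ⟨d, hd⟩ := hcm'
    rw [hm, Ideal.span_singleton_pow, Ideal.mem_span_singleton, hc, hd]
    exact ⟨d, by ring⟩
  have : Associated ϖ ϖ' := ⟨hcu.unit, by rw [hc]; rfl⟩
  exact this.irreducible hϖ

theorem embInt_mem_pow_iff (v : HeightOneSpectrum (𝓞 F)) (x : 𝓞 F) (n : ℕ) :
    D.embInt v x ∈ maximalIdeal (D.𝒪v v) ^ n ↔ x ∈ v.asIdeal ^ n := by
  obtain ⟨π, hπ⟩ := v.valuation_exists_uniformizer F
  obtain ⟨hmem, hirr⟩ := D.irreducible_emb_uniformizer v π hπ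
  have hm : maximalIdeal (D.𝒪v v) = Ideal.span {(⟨D.emb v π, hmem⟩ : D.𝒪v v)} := hirr.maximalIdeal_eq
  have hπ0 : π ≠ 0 := by
    intro h; rw [h, map_zero] at hπ; exact WithZero.exp_ne_zero.symm hπ
  have hval : v.valuation F ((x : F) / π ^ n) ≤ 1 ↔ x ∈ v.asIdeal ^ n := by
    rw [← v.intValuation_le_pow_iff_mem, ← v.valuation_of_algebraMap (K := F), map_div₀, map_pow, hπ,
      ← WithZero.exp_nsmul, smul_neg, nsmul_one]
    have hpos : (0 : WithZero (Multiplicative ℤ)) < WithZero.exp (-(n : ℤ)) :=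
      zero_lt_iff.mpr WithZero.exp_ne_zero
    rw [div_le_one₀ hpos]
  rw [← hval, ← D.emb_mem_iff, hm, Ideal.span_singleton_pow, Ideal.mem_span_singleton]
  have hπn : D.emb v π ^ n ≠ 0 := pow_ne_zero _ ((map_ne_zero _).mpr hπ0)
  constructor
  · rintro ⟨c, hc⟩
    have h1 : D.emb v (x : F) = D.emb v π ^ n * (c : D.Fv v) := by
      have := congrArg (Subtype.val : D.𝒪v v → D.Fv v) hc
      simpa using this
    have : D.emb v ((x : F) / π ^ n) = (c : D.Fv v) := by
      rw [map_div₀, map_pow, h1, mul_div_assoc, mul_comm, div_mul_cancel₀ _ hπn]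
    rw [this]; exact c.2
  · intro h
    refine ⟨⟨_, h⟩, Subtype.ext ?_⟩
    show D.emb v (x : F) = (D.emb v π) ^ n * D.emb v ((x : F) / π ^ n)
    rw [map_div₀, map_pow, mul_div_cancel₀ _ hπn]

/-- `𝓞 F → 𝒪v / 𝔪 ^ n` is surjective -/
theorem embInt_quot_surjective (v : HeightOneSpectrum (𝓞 F)) (n : ℕ) :
    Function.Surjective ((Ideal.Quotient.mk (maximalIdeal (D.𝒪v v) ^ n)).comp (D.embInt v)) := by
  intro y
  obtain ⟨y, rfl⟩ := Ideal.Quotient.mk_surjective y
  obtain ⟨x, z, hz, hxz⟩ := D.dense v y n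
  refine ⟨x, ?_⟩
  rw [RingHom.comp_apply, Ideal.Quotient.eq]
  have : D.embInt v x - y = -z := by
    apply Subtype.ext
    show D.emb v (x : F) - (y : D.Fv v) = -(z : D.Fv v)
    rw [hxz]; ring
  rw [this]
  exact (Ideal.neg_mem_iff _).mpr hz

theorem embInt_quot_ker (v : HeightOneSpectrum (𝓞 F)) (n : ℕ) :
    RingHom.ker ((Ideal.Quotient.mk (maximalIdeal (D.𝒪v v) ^ n)).comp (D.embInt v)) =
      v.asIdeal ^ n := by
  ext x
  rw [RingHom.mem_ker, RingHom.comp_apply, Ideal.Quotient.eq_zero_iff_mem, embInt_mem_pow_iff]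

/-- `𝓞 F / P ^ n ≃ 𝒪v / 𝔪 ^ n` -/
noncomputable def quotPowEquiv (v : HeightOneSpectrum (𝓞 F)) (n : ℕ) :
    (𝓞 F ⧸ v.asIdeal ^ n) ≃+* (D.𝒪v v ⧸ maximalIdeal (D.𝒪v v) ^ n) :=
  (Ideal.quotEquivOfEq (D.embInt_quot_ker v n).symm).trans
    (RingHom.quotientKerEquivOfSurjective (D.embInt_quot_surjective v n))

theorem card_quot_pow (v : HeightOneSpectrum (𝓞 F)) (n : ℕ) :
    Nat.card (D.𝒪v v ⧸ maximalIdeal (D.𝒪v v) ^ n) = Nat.card (𝓞 F ⧸ v.asIdeal ^ n) :=
  (Nat.card_congr (D.quotPowEquiv v n).toEquiv).symm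

end CompletionData

end Fermat.Agent.S55lib.SecondIneq
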