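/-
S55 sprint, block (IV) second inequality (helper1).
Finiteness of the class group in idelic form: there is a finite set `S₀` of places such that
for every finite `S ⊇ S₀` the ideles are `F^× · (S-ideles)`  (hypothesis `h4` of the abstract count).
-/
import Mathlib
import Fermat.Agent.S55lib.LocalH.Ord
import Fermat.Agent.S55lib.SecondIneq.CompletionData

set_option autoImplicit false

namespace Fermat.Agent.S55lib.SecondIneq

open IsDedekindDomain HeightOneSpectrum NumberField IsLocalRing nonZeroDivisors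
open Fermat.Agent.S55lib.LocalH

section Count

variable {F : Type*} [Field F] [NumberField F]

open scoped Classical in
/-- the valuation of a nonzero element in terms of the multiplicity of `v` in its principal
fractional ideal -/
theorem valuation_eq_exp_neg_count (v : HeightOneSpectrum (𝓞 F)) (c : F) (hc : c ≠ 0) :
    v.valuation F c =
      WithZero.exp (-(FractionalIdeal.count F v (FractionalIdeal.spanSingleton (𝓞 F)⁰ c))) := by
  obtain ⟨x, y, hy, rfl⟩ := IsFractionRing.div_surjective (𝓞 F) c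
  have hy0 : y ≠ 0 := nonZeroDivisors.ne_zero hy
  have hx0 : x ≠ 0 := by
    rintro rfl
    simp at hc
  have hI : FractionalIdeal.spanSingleton (𝓞 F)⁰ (algebraMap (𝓞 F) F x / algebraMap (𝓞 F) F y) =
      FractionalIdeal.spanSingleton (𝓞 F)⁰ (algebraMap (𝓞 F) F y)⁻¹ *
        ((Ideal.span {x} : Ideal (𝓞 F)) : FractionalIdeal (𝓞 F)⁰ F) := by
    rw [FractionalIdeal.coeIdeal_span_singleton, FractionalIdeal.spanSingleton_mul_spanSingleton,
      div_eq_mul_inv, mul_comm]
  have hne : FractionalIdeal.spanSingleton (𝓞 F)⁰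
      (algebraMap (𝓞 F) F x / algebraMap (𝓞 F) F y) ≠ 0 := by
    rw [Ne, FractionalIdeal.spanSingleton_eq_zero_iff]; exact hc
  rw [FractionalIdeal.count_well_defined F v hne hI, map_div₀, v.valuation_of_algebraMap,
    v.valuation_of_algebraMap, v.intValuation_if_neg hx0, v.intValuation_if_neg hy0,
    ← WithZero.exp_sub]
  congr 1
  ring

end Count

namespace CompletionData

variable {F : Type*} [Field F] [NumberField F] (D : CompletionData F)

/-- the valuation of a global unit in terms of its order in the completion -/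
theorem valuation_eq_exp_neg_ordInt (v : HeightOneSpectrum (𝓞 F)) (c : Fˣ) :
    v.valuation F (c : F) = WithZero.exp (-(ordInt (D.𝒪v v) (D.loc v c))) := by
  obtain ⟨π, hπ⟩ := v.valuation_exists_uniformizer F
  obtain ⟨hmem, hirr⟩ := D.irreducible_emb_uniformizer v π hπ
  have hπ0 : π ≠ 0 := by
    intro h; rw [h, map_zero] at hπ; exact WithZero.exp_ne_zero.symm hπ
  obtain ⟨m, w, hw⟩ := exists_unit_mul_zpow hirr (D.loc v c)
  have hord : ordInt (D.𝒪v v) (D.loc v c) = m := ordInt_eq' hirr hw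
  rw [hord]
  -- `c / π ^ m` is a local unit
  have h1 : D.emb v ((c : F) / π ^ m) = ((w : D.𝒪v v) : D.Fv v) := by
    rw [map_div₀, map_zpow₀]
    rw [coe_loc] at hw
    rw [hw]
    have : D.emb v π ^ m ≠ 0 := zpow_ne_zero _ ((map_ne_zero _).mpr hπ0)
    show _ * (D.emb v π) ^ m / _ = _
    rw [mul_div_assoc, div_self this, mul_one]
  have h2 : (D.𝒪v v).valuation (D.emb v ((c : F) / π ^ m)) = 1 := by
    rw [h1]
    exact (ValuationSubring.valuation_eq_one_iff _ _).mp w.isUnit
  have h3 := (D.emb_valuation_eq_one_iff v _).mp h2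
  rw [map_div₀, map_zpow₀, hπ, div_eq_one_iff_eq] at h3
  · rw [h3, ← WithZero.exp_zsmul]
    congr 1
    simp
  · exact zpow_ne_zero _ WithZero.exp_ne_zero

open scoped Classical in
/-- **finiteness of the class group, idelic form** -/
theorem exists_finset_idele_le :
    ∃ S₀ : Finset (HeightOneSpectrum (𝓞 F)), ∀ S : Finset (HeightOneSpectrum (𝓞 F)), S₀ ⊆ S →
      idele D.U ≤ principal D.loc ⊔ ideleS D.U S := by
  -- representatives of the ideal classes
  have hrep : ∀ κ : ClassGroup (𝓞 F), ∃ I : (FractionalIdeal (𝓞 F)⁰ F)ˣ, ClassGroup.mk F I = κ :=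
    fun κ => ClassGroup.induction F (P := fun κ => ∃ I, ClassGroup.mk F I = κ) (fun I => ⟨I, rfl⟩) κ
  choose R hR using hrep
  have hfin : ∀ κ, {v : HeightOneSpectrum (𝓞 F) |
      FractionalIdeal.count F v (R κ : FractionalIdeal (𝓞 F)⁰ F) ≠ 0}.Finite := fun κ =>
    Filter.eventually_cofinite.mp (FractionalIdeal.finite_factors (R κ : FractionalIdeal (𝓞 F)⁰ F))
  refine ⟨Finset.univ.biUnion fun κ => (hfin κ).toFinset, fun S hS y hy => ?_⟩
  -- the divisor of the idele `y`
  have hyfin : {v | ordInt (D.𝒪v v) (y v) ≠ 0}.Finite := by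
    refine (mem_idele.mp hy).subset ?_
    intro v hv
    simp only [Set.mem_ofPred_eq] at hv ⊢
    rwa [U, mem_unitGroup_iff_ordInt]
  set exps : HeightOneSpectrum (𝓞 F) →₀ ℤ :=
    Finsupp.mk hyfin.toFinset (fun v => ordInt (D.𝒪v v) (y v)) (fun v => by simp) with hexps
  set Iy : FractionalIdeal (𝓞 F)⁰ F :=
    exps.prod fun v k => (v.asIdeal : FractionalIdeal (𝓞 F)⁰ F) ^ k with hIy
  have hIy0 : Iy ≠ 0 := by
    rw [hIy, Finsupp.prod, Finset.prod_ne_zero_iff]
    intro v _
    exact zpow_ne_zero _ (FractionalIdeal.coeIdeal_ne_zero.mpr v.ne_bot)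
  have hcount : ∀ v, FractionalIdeal.count F v Iy = ordInt (D.𝒪v v) (y v) := fun v =>
    FractionalIdeal.count_finsuppProd F v exps
  set Iu : (FractionalIdeal (𝓞 F)⁰ F)ˣ := Units.mk0 Iy hIy0 with hIu
  set κ := ClassGroup.mk F Iu with hκ
  have hprinc : ClassGroup.mk F (Iu / R κ) = 1 := by
    rw [map_div, hR κ, div_self']
  rw [ClassGroup.mk_eq_one_iff, FractionalIdeal.isPrincipal_iff] at hprinc
  obtain ⟨c, hc⟩ := hprinc
  have hc0 : c ≠ 0 := by
    rintro rfl
    rw [FractionalIdeal.spanSingleton_zero] at hc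
    exact (Iu / R κ).ne_zero hc
  have hmul : Iy = (R κ : FractionalIdeal (𝓞 F)⁰ F) * FractionalIdeal.spanSingleton (𝓞 F)⁰ c := by
    rw [← hc]
    have : Iu = R κ * (Iu / R κ) := by simp
    exact congrArg Units.val this
  have hcne : FractionalIdeal.spanSingleton (𝓞 F)⁰ c ≠ 0 := by
    rw [Ne, FractionalIdeal.spanSingleton_eq_zero_iff]; exact hc0
  have hcountmul : ∀ v, ordInt (D.𝒪v v) (y v) =
      FractionalIdeal.count F v (R κ : FractionalIdeal (𝓞 F)⁰ F) +
        FractionalIdeal.count F v (FractionalIdeal.spanSingleton (𝓞 F)⁰ c) := by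
    intro v
    rw [← hcount v, hmul, FractionalIdeal.count_mul F v (R κ).ne_zero hcne]
  -- the global element
  set cu : Fˣ := Units.mk0 c hc0 with hcu
  rw [Subgroup.mem_sup]
  refine ⟨MonoidHom.pi D.loc cu, ⟨cu, rfl⟩, y / MonoidHom.pi D.loc cu, ?_, by simp⟩
  intro v hvS
  have hvR : FractionalIdeal.count F v (R κ : FractionalIdeal (𝓞 F)⁰ F) = 0 := by
    by_contra hne
    apply hvS
    apply hS
    rw [Finset.mem_biUnion]
    exact ⟨κ, Finset.mem_univ _, (hfin κ).mem_toFinset.mpr hne⟩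
  have h1 := hcountmul v
  rw [hvR, zero_add] at h1
  have h2 := valuation_eq_exp_neg_count v c hc0
  have h3 := D.valuation_eq_exp_neg_ordInt v cu
  rw [hcu, Units.val_mk0, h2, WithZero.exp_inj, neg_inj, ← h1] at h3
  -- hence the quotient is a unit
  show (y / MonoidHom.pi D.loc cu) v ∈ D.U v
  rw [U, mem_unitGroup_iff_ordInt, Pi.div_apply, MonoidHom.pi_apply, div_eq_mul_inv, ordInt_mul]
  have h4 : ordInt (D.𝒪v v) ((D.loc v cu)⁻¹) = -ordInt (D.𝒪v v) (D.loc v cu) := by
    have := ordInt_mul (D.𝒪v v) (D.loc v cu) ((D.loc v cu)⁻¹)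
    rw [mul_inv_cancel] at this
    have h0 : ordInt (D.𝒪v v) (1 : (D.Fv v)ˣ) = 0 :=
      (mem_unitGroup_iff_ordInt (D.𝒪v v) 1).mp (Subgroup.one_mem _)
    rw [h0] at this
    omega
  rw [h4, h3]
  ring

end CompletionData

end Fermat.Agent.S55lib.SecondIneq
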