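/-
S55 sprint, block (IV) second inequality (helper1).
ABSTRACT CORE of the algebraic proof of the second inequality (Artin–Tate / Tate in Cassels–Fröhlich):
a family of "local groups" `Kv v` with unit subgroups `U v`, a global group `Kx` mapping to all of them,
ideles = restricted product.  From the local/global inputs `h1 … h9` the index of
`(principal ideles) ⊔ (ideles that are local norms everywhere)` in the ideles divides `p`.
-/
import Mathlib
import Fermat.Agent.S55lib.SecondIneq.IndexLemma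

set_option autoImplicit false

namespace Fermat.Agent.S55lib.SecondIneq

open scoped Classical

variable {Kx : Type*} [CommGroup Kx] {ι : Type*} {Kv : ι → Type*} [∀ v, CommGroup (Kv v)]

/-- The ideles: restricted product of the `Kv v` with respect to the `U v`,
as a subgroup of the full product. -/
def idele (U : ∀ v, Subgroup (Kv v)) : Subgroup (∀ v, Kv v) where
  carrier := {x | {v | x v ∉ U v}.Finite}
  one_mem' := by simp
  mul_mem' := by
    intro x y hx hy
    refine (hx.union hy).subset ?_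
    intro v hv
    simp only [Set.mem_ofPred_eq, Pi.mul_apply] at hv
    by_contra h
    simp only [Set.mem_union, Set.mem_ofPred_eq, not_or, not_not] at h
    exact hv ((U v).mul_mem h.1 h.2)
  inv_mem' := by
    intro x hx
    refine hx.subset ?_
    intro v hv
    simp only [Set.mem_ofPred_eq, Pi.inv_apply] at hv ⊢
    exact fun h => hv ((U v).inv_mem h)

theorem mem_idele {U : ∀ v, Subgroup (Kv v)} {x : ∀ v, Kv v} :
    x ∈ idele U ↔ {v | x v ∉ U v}.Finite := Iff.rfl

/-- Ideles that are units outside the finite set `S`. -/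
def ideleS (U : ∀ v, Subgroup (Kv v)) (S : Finset ι) : Subgroup (∀ v, Kv v) where
  carrier := {x | ∀ v, v ∉ S → x v ∈ U v}
  one_mem' := fun v _ => (U v).one_mem
  mul_mem' := fun hx hy v hv => (U v).mul_mem (hx v hv) (hy v hv)
  inv_mem' := fun hx v hv => (U v).inv_mem (hx v hv)

theorem mem_ideleS {U : ∀ v, Subgroup (Kv v)} {S : Finset ι} {x : ∀ v, Kv v} :
    x ∈ ideleS U S ↔ ∀ v, v ∉ S → x v ∈ U v := Iff.rfl

theorem ideleS_le_idele (U : ∀ v, Subgroup (Kv v)) (S : Finset ι) : ideleS U S ≤ idele U := by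
  intro x hx
  refine S.finite_toSet.subset ?_
  intro v hv
  by_contra h
  exact hv (hx v h)

theorem ideleS_mono (U : ∀ v, Subgroup (Kv v)) {S S' : Finset ι} (h : S ⊆ S') :
    ideleS U S ≤ ideleS U S' := fun _ hx v hv => hx v (fun hvS => hv (h hvS))

/-- Ideles satisfying a local condition `N v` at every place. -/
def localCond (U N : ∀ v, Subgroup (Kv v)) : Subgroup (∀ v, Kv v) :=
  idele U ⊓ Subgroup.pi Set.univ N

theorem mem_localCond {U N : ∀ v, Subgroup (Kv v)} {x : ∀ v, Kv v} :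
    x ∈ localCond U N ↔ x ∈ idele U ∧ ∀ v, x v ∈ N v := by
  simp [localCond, Subgroup.mem_pi]

/-- The principal ideles. -/
def principal (loc : ∀ v, Kx →* Kv v) : Subgroup (∀ v, Kv v) := (MonoidHom.pi loc).range

theorem mem_principal {loc : ∀ v, Kx →* Kv v} {x : ∀ v, Kv v} :
    x ∈ principal loc ↔ ∃ a : Kx, ∀ v, loc v a = x v := by
  simp only [principal, MonoidHom.mem_range, funext_iff, MonoidHom.pi_apply]

/-- `n`-th powers in a commutative group. -/
def powSubgroup (G : Type*) [CommGroup G] (n : ℕ) : Subgroup G := (powMonoidHom n : G →* G).range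

theorem mem_powSubgroup {G : Type*} [CommGroup G] {n : ℕ} {x : G} :
    x ∈ powSubgroup G n ↔ ∃ y : G, y ^ n = x := by
  simp [powSubgroup, MonoidHom.mem_range]

/-- `p`-th powers of a subgroup, intrinsically and relatively. -/
theorem powSubgroup_subtype_index {G : Type*} [CommGroup G] (E : Subgroup G) (p : ℕ) :
    (powSubgroup E p).index = (E.map (powMonoidHom p)).relIndex E := by
  rw [Subgroup.relIndex]
  congr 1
  ext x
  rw [mem_powSubgroup, Subgroup.mem_subgroupOf, Subgroup.mem_map]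
  constructor
  · rintro ⟨y, rfl⟩
    exact ⟨y, y.2, rfl⟩
  · rintro ⟨y, hy, hyx⟩
    exact ⟨⟨y, hy⟩, Subtype.ext hyx⟩

/-- The `S`-units of the global group. -/
def unitsS (U : ∀ v, Subgroup (Kv v)) (loc : ∀ v, Kx →* Kv v) (S : Finset ι) : Subgroup Kx where
  carrier := {a | ∀ v, v ∉ S → loc v a ∈ U v}
  one_mem' := fun v _ => by simp
  mul_mem' := fun hx hy v hv => by
    rw [map_mul]; exact (U v).mul_mem (hx v hv) (hy v hv)
  inv_mem' := fun hx v hv => by
    rw [map_inv]; exact (U v).inv_mem (hx v hv)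

theorem mem_unitsS {U : ∀ v, Subgroup (Kv v)} {loc : ∀ v, Kx →* Kv v} {S : Finset ι} {a : Kx} :
    a ∈ unitsS U loc S ↔ ∀ v, v ∉ S → loc v a ∈ U v := Iff.rfl


/-! ### The index of a subgroup of `ideleS` cut out by finitely many local conditions -/

/-- Elements of `ideleS U S'` that lie in `H v` at the places `v ∈ S`. -/
def condS (U : ∀ v, Subgroup (Kv v)) (S' S : Finset ι) (H : ∀ v, Subgroup (Kv v)) :
    Subgroup (∀ v, Kv v) where
  carrier := {x | x ∈ ideleS U S' ∧ ∀ v, v ∈ S → x v ∈ H v}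
  one_mem' := ⟨Subgroup.one_mem _, fun v _ => (H v).one_mem⟩
  mul_mem' := fun hx hy =>
    ⟨Subgroup.mul_mem _ hx.1 hy.1, fun v hv => (H v).mul_mem (hx.2 v hv) (hy.2 v hv)⟩
  inv_mem' := fun hx => ⟨Subgroup.inv_mem _ hx.1, fun v hv => (H v).inv_mem (hx.2 v hv)⟩

theorem mem_condS {U : ∀ v, Subgroup (Kv v)} {S' S : Finset ι} {H : ∀ v, Subgroup (Kv v)}
    {x : ∀ v, Kv v} :
    x ∈ condS U S' S H ↔ x ∈ ideleS U S' ∧ ∀ v, v ∈ S → x v ∈ H v := Iff.rfl

theorem condS_le (U : ∀ v, Subgroup (Kv v)) (S' S : Finset ι) (H : ∀ v, Subgroup (Kv v)) :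
    condS U S' S H ≤ ideleS U S' := fun _ hx => hx.1

/-- The evaluation map `ideleS U S' → ∏_{v ∈ S} Kv v ⧸ H v`. -/
noncomputable def evalS (U : ∀ v, Subgroup (Kv v)) (S' S : Finset ι) (H : ∀ v, Subgroup (Kv v)) :
    (ideleS U S') →* (∀ v : S, Kv v ⧸ H v) where
  toFun x := fun v => QuotientGroup.mk ((x : ∀ v, Kv v) v)
  map_one' := by funext v; simp
  map_mul' := by intro x y; funext v; simp

theorem evalS_surjective (U : ∀ v, Subgroup (Kv v)) {S' S : Finset ι} (hSS' : S ⊆ S')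
    (H : ∀ v, Subgroup (Kv v)) : Function.Surjective (evalS U S' S H) := by
  intro y
  choose z hz using fun v : S => QuotientGroup.mk_surjective (y v)
  refine ⟨⟨fun v => if h : v ∈ S then z ⟨v, h⟩ else 1, ?_⟩, ?_⟩
  · intro v hv
    have : v ∉ S := fun h => hv (hSS' h)
    simp [this]
  · funext v
    simp [evalS, hz]

theorem evalS_ker (U : ∀ v, Subgroup (Kv v)) (S' S : Finset ι) (H : ∀ v, Subgroup (Kv v)) :
    (evalS U S' S H).ker = (condS U S' S H).subgroupOf (ideleS U S') := by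
  ext x
  rw [MonoidHom.mem_ker, Subgroup.mem_subgroupOf, mem_condS]
  constructor
  · intro h
    refine ⟨x.2, fun v hv => ?_⟩
    have := congrFun h ⟨v, hv⟩
    simpa [evalS] using this
  · intro h
    funext v
    simpa [evalS] using h.2 v v.2

theorem relIndex_condS (U : ∀ v, Subgroup (Kv v)) {S' S : Finset ι} (hSS' : S ⊆ S')
    (H : ∀ v, Subgroup (Kv v)) :
    (condS U S' S H).relIndex (ideleS U S') = ∏ v ∈ S, (H v).index := by
  rw [Subgroup.relIndex, ← evalS_ker, Subgroup.index_ker,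
    MonoidHom.range_eq_top.mpr (evalS_surjective U hSS' H)]
  rw [Nat.card_congr (Subgroup.topEquiv (G := ∀ v : S, Kv v ⧸ H v)).toEquiv, Nat.card_pi]
  rw [← Finset.prod_coe_sort S (fun v => (H v).index)]
  exact Finset.prod_congr rfl fun v _ => (Subgroup.index_eq_card (H v)).symm


/-! ### The abstract count -/

theorem principal_le_idele {U : ∀ v, Subgroup (Kv v)} {loc : ∀ v, Kx →* Kv v}
    (hloc : ∀ a : Kx, {v | loc v a ∉ U v}.Finite) : principal loc ≤ idele U := by
  rintro x ⟨a, rfl⟩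
  exact hloc a

theorem map_unitsS_eq (U : ∀ v, Subgroup (Kv v)) (loc : ∀ v, Kx →* Kv v) (S : Finset ι) :
    (unitsS U loc S).map (MonoidHom.pi loc) = ideleS U S ⊓ principal loc := by
  ext x
  constructor
  · rintro ⟨a, ha, rfl⟩
    exact ⟨fun v hv => ha v hv, ⟨a, rfl⟩⟩
  · rintro ⟨hx, ⟨a, rfl⟩⟩
    exact ⟨a, fun v hv => hx v hv, rfl⟩

/-- **Abstract core of the second inequality**, exact form: the index of
`K^× · {x ∈ J_{S ∪ T} | x_v ∈ K_v^p ∀ v ∈ S}` in the ideles is `p`. -/
theorem core_index_eq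
    (U : ∀ v, Subgroup (Kv v)) (loc : ∀ v, Kx →* Kv v)
    (hloc : ∀ a : Kx, {v | loc v a ∉ U v}.Finite)
    (hinj : Function.Injective (MonoidHom.pi loc))
    (p s : ℕ) (hp : 0 < p) (hs : 1 ≤ s)
    (S T : Finset ι)
    (h4 : idele U ≤ principal loc ⊔ ideleS U S)
    (h5 : ∏ v ∈ S, (powSubgroup (Kv v) p).index = p ^ (2 * s))
    (h6 : ((unitsS U loc (S ∪ T)).map (powMonoidHom p)).relIndex (unitsS U loc (S ∪ T))
      = p ^ (2 * s - 1))
    (h7 : ∀ a : Kx, (∀ v ∈ S, loc v a ∈ powSubgroup (Kv v) p) →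
      (∀ v, v ∉ S → v ∉ T → loc v a ∈ U v) → a ∈ powSubgroup Kx p)
    (h9 : ∀ v, ∀ x : Kv v, x ^ p ∈ U v → x ∈ U v) :
    (condS U (S ∪ T) S (fun v => powSubgroup (Kv v) p) ⊔ principal loc).relIndex (idele U) = p := by
  set A : Subgroup (∀ v, Kv v) := ideleS U (S ∪ T) with hA
  set B : Subgroup (∀ v, Kv v) := condS U (S ∪ T) S (fun v => powSubgroup (Kv v) p) with hB
  set P : Subgroup (∀ v, Kv v) := principal loc with hP
  have hBA : B ≤ A := condS_le _ _ _ _
  have hPI : P ≤ idele U := principal_le_idele hloc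
  have hAI : A ≤ idele U := ideleS_le_idele U _
  -- A ⊔ P is everything
  have hAP : A ⊔ P = idele U := by
    apply le_antisymm (sup_le hAI hPI)
    refine h4.trans ?_
    rw [sup_comm]
    exact sup_le_sup_right (ideleS_mono U Finset.subset_union_left) _
  -- the index of B in A
  have hAB : B.relIndex A = p ^ (2 * s) := by
    rw [hB, hA, relIndex_condS U Finset.subset_union_left, h5]
  -- the unit index
  have hAPi : A ⊓ P = (unitsS U loc (S ∪ T)).map (MonoidHom.pi loc) := (map_unitsS_eq U loc _).symm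
  have hBPi : B ⊓ P = ((unitsS U loc (S ∪ T)).map (powMonoidHom p)).map (MonoidHom.pi loc) := by
    ext x
    constructor
    · rintro ⟨hx, ⟨a, rfl⟩⟩
      have haW : a ∈ unitsS U loc (S ∪ T) := fun v hv => hx.1 v hv
      have hpow : a ∈ powSubgroup Kx p := by
        refine h7 a (fun v hv => hx.2 v hv) (fun v hvS hvT => hx.1 v ?_)
        simp [hvS, hvT]
      obtain ⟨c, rfl⟩ := mem_powSubgroup.mp hpow
      refine ⟨c ^ p, ⟨c, ?_, rfl⟩, rfl⟩
      intro v hv
      apply h9 v
      rw [← map_pow]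
      exact haW v hv
    · rintro ⟨a, ⟨c, hc, rfl⟩, rfl⟩
      refine ⟨⟨?_, ?_⟩, ⟨_, rfl⟩⟩
      · intro v hv
        have := hc v hv
        simp only [powMonoidHom_apply, MonoidHom.pi_apply, map_pow]
        exact Subgroup.pow_mem _ this _
      · intro v _
        simp only [powMonoidHom_apply, MonoidHom.pi_apply, map_pow]
        exact mem_powSubgroup.mpr ⟨_, rfl⟩
  have hunit : (B ⊓ P).relIndex (A ⊓ P) = p ^ (2 * s - 1) := by
    rw [hAPi, hBPi, Subgroup.relIndex_map_map_of_injective _ _ hinj, h6]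
  -- the index lemma
  have hidx := relIndex_sup_mul_relIndex_inf A B P hBA
  rw [hAP, hunit, hAB] at hidx
  have h2s : 2 * s = (2 * s - 1) + 1 := by omega
  have hne : p ^ (2 * s - 1) ≠ 0 := pow_ne_zero _ hp.ne'
  have : (B ⊔ P).relIndex (idele U) * p ^ (2 * s - 1) = p * p ^ (2 * s - 1) := by
    rw [hidx, ← pow_succ']
    congr 1
  exact Nat.eq_of_mul_eq_mul_right (Nat.pos_of_ne_zero hne) this

/-- **Abstract core of the second inequality.** -/
theorem core_index_dvd
    (U N : ∀ v, Subgroup (Kv v)) (loc : ∀ v, Kx →* Kv v)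
    (hloc : ∀ a : Kx, {v | loc v a ∉ U v}.Finite)
    (hinj : Function.Injective (MonoidHom.pi loc))
    (p s : ℕ) (hp : 0 < p) (hs : 1 ≤ s)
    (S T : Finset ι)
    (h1 : ∀ v ∈ S, powSubgroup (Kv v) p ≤ N v)
    (h2 : ∀ v ∈ T, N v = ⊤)
    (h3 : ∀ v, v ∉ S → v ∉ T → U v ≤ N v)
    (h4 : idele U ≤ principal loc ⊔ ideleS U S)
    (h5 : ∏ v ∈ S, (powSubgroup (Kv v) p).index = p ^ (2 * s))
    (h6 : ((unitsS U loc (S ∪ T)).map (powMonoidHom p)).relIndex (unitsS U loc (S ∪ T))
      = p ^ (2 * s - 1))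
    (h7 : ∀ a : Kx, (∀ v ∈ S, loc v a ∈ powSubgroup (Kv v) p) →
      (∀ v, v ∉ S → v ∉ T → loc v a ∈ U v) → a ∈ powSubgroup Kx p)
    (h9 : ∀ v, ∀ x : Kv v, x ^ p ∈ U v → x ∈ U v) :
    (principal loc ⊔ localCond U N).relIndex (idele U) ∣ p := by
  have hBPp := core_index_eq U loc hloc hinj p s hp hs S T h4 h5 h6 h7 h9
  -- B consists of local norms
  have hBN : condS U (S ∪ T) S (fun v => powSubgroup (Kv v) p) ≤ localCond U N := by
    intro x hx
    rw [mem_localCond]
    refine ⟨ideleS_le_idele U _ (condS_le _ _ _ _ hx), fun v => ?_⟩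
    by_cases hvS : v ∈ S
    · exact h1 v hvS (hx.2 v hvS)
    · by_cases hvT : v ∈ T
      · rw [h2 v hvT]; trivial
      · refine h3 v hvS hvT (hx.1 v ?_)
        simp [hvS, hvT]
  rw [← hBPp]
  apply Subgroup.relIndex_dvd_of_le_left
  rw [sup_comm]
  exact sup_le_sup_left hBN _

end Fermat.Agent.S55lib.SecondIneq
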