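/-
S55 sprint, block (IV) second inequality / existence mod p (helper1).
GENERAL index count: for a finite set `S` (local conditions `H v`, `v ∈ S`) and an auxiliary set `T`
(no condition), `E = {x ∈ J_{S ∪ T} | x_v ∈ H v ∀ v ∈ S}`:
`(J : K^× E) · (E_{S∪T} : E_{S∪T} ∩ E) = ∏_{v ∈ S} (K_v : H v)`.
-/
import Mathlib
import Fermat.Agent.S55lib.SecondIneq.Core

set_option autoImplicit false

namespace Fermat.Agent.S55lib.SecondIneq

open scoped Classical

variable {Kx : Type*} [CommGroup Kx] {ι : Type*} {Kv : ι → Type*} [∀ v, CommGroup (Kv v)]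

/-- global units in `S'` satisfying the local conditions `H` on `S` -/
def unitsCond (U : ∀ v, Subgroup (Kv v)) (loc : ∀ v, Kx →* Kv v) (S' S : Finset ι)
    (H : ∀ v, Subgroup (Kv v)) : Subgroup Kx where
  carrier := {a | a ∈ unitsS U loc S' ∧ ∀ v ∈ S, loc v a ∈ H v}
  one_mem' := ⟨Subgroup.one_mem _, fun v _ => by rw [map_one]; exact (H v).one_mem⟩
  mul_mem' := fun hx hy => ⟨Subgroup.mul_mem _ hx.1 hy.1, fun v hv => by
    rw [map_mul]; exact (H v).mul_mem (hx.2 v hv) (hy.2 v hv)⟩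
  inv_mem' := fun hx => ⟨Subgroup.inv_mem _ hx.1, fun v hv => by
    rw [map_inv]; exact (H v).inv_mem (hx.2 v hv)⟩

theorem mem_unitsCond {U : ∀ v, Subgroup (Kv v)} {loc : ∀ v, Kx →* Kv v} {S' S : Finset ι}
    {H : ∀ v, Subgroup (Kv v)} {a : Kx} :
    a ∈ unitsCond U loc S' S H ↔ a ∈ unitsS U loc S' ∧ ∀ v ∈ S, loc v a ∈ H v := Iff.rfl

theorem map_unitsCond_eq (U : ∀ v, Subgroup (Kv v)) (loc : ∀ v, Kx →* Kv v) (S' S : Finset ι)
    (H : ∀ v, Subgroup (Kv v)) :
    (unitsCond U loc S' S H).map (MonoidHom.pi loc) = condS U S' S H ⊓ principal loc := by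
  ext x
  constructor
  · rintro ⟨a, ha, rfl⟩
    exact ⟨⟨fun v hv => ha.1 v hv, fun v hv => ha.2 v hv⟩, ⟨a, rfl⟩⟩
  · rintro ⟨hx, ⟨a, rfl⟩⟩
    exact ⟨a, ⟨fun v hv => hx.1 v hv, fun v hv => hx.2 v hv⟩, rfl⟩

/-- **general index count** -/
theorem index_condS_sup_principal
    (U : ∀ v, Subgroup (Kv v)) (loc : ∀ v, Kx →* Kv v)
    (hloc : ∀ a : Kx, {v | loc v a ∉ U v}.Finite)
    (hinj : Function.Injective (MonoidHom.pi loc))
    (S S' : Finset ι) (hSS' : S ⊆ S')
    (h4 : idele U ≤ principal loc ⊔ ideleS U S')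
    (H : ∀ v, Subgroup (Kv v)) :
    (condS U S' S H ⊔ principal loc).relIndex (idele U) *
      (unitsCond U loc S' S H).relIndex (unitsS U loc S') = ∏ v ∈ S, (H v).index := by
  set A : Subgroup (∀ v, Kv v) := ideleS U S' with hA
  set B : Subgroup (∀ v, Kv v) := condS U S' S H with hB
  set P : Subgroup (∀ v, Kv v) := principal loc with hP
  have hBA : B ≤ A := condS_le _ _ _ _
  have hPI : P ≤ idele U := principal_le_idele hloc
  have hAI : A ≤ idele U := ideleS_le_idele U _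
  have hAP : A ⊔ P = idele U := by
    apply le_antisymm (sup_le hAI hPI)
    rw [sup_comm]
    exact h4
  have hAB : B.relIndex A = ∏ v ∈ S, (H v).index := relIndex_condS U hSS' H
  have hAPi : A ⊓ P = (unitsS U loc S').map (MonoidHom.pi loc) := (map_unitsS_eq U loc _).symm
  have hBPi : B ⊓ P = (unitsCond U loc S' S H).map (MonoidHom.pi loc) :=
    (map_unitsCond_eq U loc S' S H).symm
  have hunit : (B ⊓ P).relIndex (A ⊓ P) =
      (unitsCond U loc S' S H).relIndex (unitsS U loc S') := by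
    rw [hAPi, hBPi, Subgroup.relIndex_map_map_of_injective _ _ hinj]
  have hidx := relIndex_sup_mul_relIndex_inf A B P hBA
  rw [hAP, hunit, hAB] at hidx
  exact hidx

end Fermat.Agent.S55lib.SecondIneq
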