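/-
S55 sprint, block (IV) second inequality (helper1).
Linear algebra behind the choice of the auxiliary primes `T`:
if a set `Φ` of functionals on a finite-dimensional space `V` separates every `b ∉ span {a}` from `a`
by a functional killing `a`, then `dim V - 1` of them have common kernel `span {a}` and are
jointly surjective.
-/
import Mathlib

set_option autoImplicit false

namespace Fermat.Agent.S55lib.SecondIneq

open Module Submodule

variable {k : Type*} [Field k] {V : Type*} [AddCommGroup V] [Module k V] [FiniteDimensional k V]

theorem exists_functionals_of_separating (a : V) (ha : a ≠ 0) (Φ : Set (Module.Dual k V))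
    (hΦ : ∀ b : V, b ∉ Submodule.span k {a} → ∃ φ ∈ Φ, φ a = 0 ∧ φ b ≠ 0) :
    ∃ (b : Set (Module.Dual k V)) (_ : Fintype b), b ⊆ Φ ∧ (∀ φ ∈ b, φ a = 0) ∧
      Fintype.card b + 1 = finrank k V ∧
      (∀ x : V, (∀ φ ∈ b, φ x = 0) → x ∈ Submodule.span k {a}) ∧
      Function.Surjective (fun (x : V) (φ : b) => (φ : Module.Dual k V) x) := by
  classical
  set Φ₀ : Set (Module.Dual k V) := {φ | φ ∈ Φ ∧ φ a = 0} with hΦ₀
  obtain ⟨b, hbΦ₀, hspan, hli⟩ := exists_linearIndependent k Φ₀
  have hbfin : b.Finite := hli.setFinite
  let _inst : Fintype b := hbfin.fintype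
  -- common kernel of `b` = common kernel of `Φ₀` = span {a}
  have hker : ∀ x : V, (∀ φ ∈ b, φ x = 0) → x ∈ Submodule.span k {a} := by
    intro x hx
    by_contra hxa
    obtain ⟨φ, hφΦ, hφa, hφx⟩ := hΦ x hxa
    have hφmem : φ ∈ Submodule.span k Φ₀ := Submodule.subset_span ⟨hφΦ, hφa⟩
    rw [← hspan] at hφmem
    -- evaluation at x vanishes on span b
    have : ∀ ψ ∈ Submodule.span k b, ψ x = 0 := by
      intro ψ hψ
      induction hψ using Submodule.span_induction with
      | mem ψ hψ => exact hx ψ hψ
      | zero => simp
      | add ψ₁ ψ₂ _ _ h₁ h₂ => simp [h₁, h₂]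
      | smul c ψ _ h => simp [h]
    exact hφx (this φ hφmem)
  have hba : ∀ φ ∈ b, φ a = 0 := fun φ hφ => (hbΦ₀ hφ).2
  -- the joint map
  let F : V →ₗ[k] (b → k) := LinearMap.pi fun φ => (φ : Module.Dual k V)
  have hFker : LinearMap.ker F = Submodule.span k {a} := by
    apply le_antisymm
    · intro x hx
      apply hker x
      intro φ hφ
      have := congrFun (LinearMap.mem_ker.mp hx) ⟨φ, hφ⟩
      simpa [F] using this
    · rw [Submodule.span_singleton_le_iff_mem, LinearMap.mem_ker]
      funext φ
      simpa [F] using hba φ φ.2
  have hkerdim : finrank k (LinearMap.ker F) = 1 := by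
    rw [hFker]; exact finrank_span_singleton ha
  -- rank of F ≤ card b, and range F has dimension finrank V - 1
  have hrange := LinearMap.finrank_range_add_finrank_ker F
  rw [hkerdim] at hrange
  -- linear independence gives card b ≤ dim of span b ... we show card b = finrank (range F)
  -- Use: the dual map; simpler: card b = finrank (span b), and span b has coannihilator = ker F.
  have hcard : Fintype.card b = finrank k (Submodule.span k b) := by
    have h := finrank_span_eq_card hli
    rw [Subtype.range_coe_subtype, Set.ofPred_mem_eq] at h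
    exact h.symm
  have hco : (Submodule.span k b).dualCoannihilator = LinearMap.ker F := by
    ext x
    rw [Submodule.mem_dualCoannihilator, LinearMap.mem_ker]
    constructor
    · intro h
      funext φ
      simpa [F] using h φ (Submodule.subset_span φ.2)
    · intro h ψ hψ
      induction hψ using Submodule.span_induction with
      | mem ψ hψ =>
        have := congrFun h ⟨ψ, hψ⟩
        simpa [F] using this
      | zero => simp
      | add ψ₁ ψ₂ _ _ h₁ h₂ => simp [h₁, h₂]
      | smul c ψ _ h' => simp [h']
  have hdim := Subspace.finrank_add_finrank_dualCoannihilator_eq (Submodule.span k b)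
  rw [hco, hkerdim, ← hcard] at hdim
  refine ⟨b, inferInstance, fun φ hφ => (hbΦ₀ hφ).1, hba, hdim, hker, ?_⟩
  -- surjectivity by dimension count
  have hr : finrank k (LinearMap.range F) = finrank k (b → k) := by
    rw [Module.finrank_fintype_fun_eq_card]
    omega
  have htop : LinearMap.range F = ⊤ := Submodule.eq_top_of_finrank_eq hr
  intro y
  have : y ∈ LinearMap.range F := by rw [htop]; trivial
  obtain ⟨x, hx⟩ := this
  exact ⟨x, by rw [← hx]; rfl⟩

end Fermat.Agent.S55lib.SecondIneq
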