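/-
S55 sprint, block (IV) second inequality (helper1).
ABSTRACT choice of the auxiliary places: characters `χ v : W → C v` into groups of order `p`
which separate every `b ∉ ⟨a⟩ W^p` from `a`; then `s - 1` of them kill `a` and are jointly surjective,
where `p ^ s = (W : W^p)`.
-/
import Mathlib
import Fermat.Agent.S55lib.SecondIneq.Core
import Fermat.Agent.S55lib.SecondIneq.ChooseFunctionals

set_option autoImplicit false

namespace Fermat.Agent.S55lib.SecondIneq

open scoped Classical
open Module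

/-- vector space version of the choice of the auxiliary places -/
theorem exists_aux_functionals {p : ℕ} [hp : Fact p.Prime] {V : Type*} [AddCommGroup V]
    [Module (ZMod p) V] [Finite V] (s : ℕ) (hcard : Nat.card V = p ^ s) {Ω : Type*}
    (φ : Ω → Module.Dual (ZMod p) V) (a : V) (ha : a ≠ 0)
    (hsep : ∀ b : V, b ∉ Submodule.span (ZMod p) {a} → ∃ v, φ v a = 0 ∧ φ v b ≠ 0) :
    ∃ T : Finset Ω, T.card + 1 = s ∧ (∀ v ∈ T, φ v a = 0) ∧
      ∀ t : Ω → ZMod p, ∃ w : V, ∀ v ∈ T, φ v w = t v := by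
  have hp1 : 1 < p := hp.out.one_lt
  have hfr : finrank (ZMod p) V = s := by
    have h := Module.natCard_eq_pow_finrank (K := ZMod p) (V := V)
    rw [hcard, Nat.card_zmod] at h
    exact (Nat.pow_right_injective hp1 h).symm
  have hΦ : ∀ b : V, b ∉ Submodule.span (ZMod p) {a} →
      ∃ ψ ∈ Set.range φ, ψ a = 0 ∧ ψ b ≠ 0 := by
    intro b hb
    obtain ⟨v, h1, h2⟩ := hsep b hb
    exact ⟨φ v, ⟨v, rfl⟩, h1, h2⟩
  obtain ⟨B, hBfin, hBΦ, hBa, hBcard, -, hBsurj⟩ :=
    exists_functionals_of_separating a ha (Set.range φ) hΦ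
  choose vof hvof using fun ψ : B => hBΦ ψ.2
  have hvinj : Function.Injective vof := by
    intro ψ₁ ψ₂ h
    apply Subtype.ext
    rw [← hvof ψ₁, ← hvof ψ₂, h]
  refine ⟨Finset.univ.image vof, ?_, ?_, ?_⟩
  · rw [Finset.card_image_of_injective _ hvinj, Finset.card_univ, ← hfr, ← hBcard]
  · intro v hv
    obtain ⟨ψ, -, rfl⟩ := Finset.mem_image.mp hv
    have h1 := hBa ψ ψ.2
    rwa [← hvof ψ] at h1
  · intro t
    obtain ⟨x, hx⟩ := hBsurj (fun ψ : B => t (vof ψ))
    refine ⟨x, fun v hv => ?_⟩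
    obtain ⟨ψ, -, rfl⟩ := Finset.mem_image.mp hv
    have h1 := congrFun hx ψ
    simp only at h1
    rwa [← hvof ψ] at h1

theorem exists_mulEquiv_zmod_of_card (G : Type*) [Group G] (p : ℕ) [Fact p.Prime]
    (h : Nat.card G = p) : Nonempty (G ≃* Multiplicative (ZMod p)) := by
  have hc := isCyclic_of_prime_card h
  have e := zmodCyclicMulEquiv hc
  rw [h] at e
  exact ⟨e.symm⟩

section

variable {W : Type*} [CommGroup W]

theorem quot_powSubgroup_pow (p : ℕ) (x : W ⧸ powSubgroup W p) : x ^ p = 1 := by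
  induction x using QuotientGroup.induction_on with
  | H y =>
    rw [← QuotientGroup.mk_pow, QuotientGroup.eq_one_iff]
    exact mem_powSubgroup.mpr ⟨y, rfl⟩

/-- `W / W^p`, written additively, as a `ZMod p`-module -/
@[instance_reducible] noncomputable def quotPowModule (p : ℕ) (W : Type*) [CommGroup W] :
    Module (ZMod p) (Additive (W ⧸ powSubgroup W p)) :=
  AddCommGroup.zmodModule (n := p) (G := Additive (W ⧸ powSubgroup W p)) (fun x => by
    have := quot_powSubgroup_pow p x.toMul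
    exact congrArg Additive.ofMul this)

attribute [local instance] quotPowModule

variable {Ω : Type*} {C : Ω → Type*} [∀ v, CommGroup (C v)]

theorem exists_aux_places (p : ℕ) [hp : Fact p.Prime] (s : ℕ)
    (hidx : (powSubgroup W p).index = p ^ s)
    (hC : ∀ v, Nat.card (C v) = p)
    (χ : ∀ v, W →* C v)
    (a : W) (ha : a ∉ powSubgroup W p)
    (hsep : ∀ b : W, (¬ ∃ (n : ℕ) (c : W), b = a ^ n * c ^ p) → ∃ v, χ v a = 1 ∧ χ v b ≠ 1) :
    ∃ T : Finset Ω, T.card + 1 = s ∧ (∀ v ∈ T, χ v a = 1) ∧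
      ∀ t : ∀ v, C v, ∃ w : W, ∀ v ∈ T, χ v w = t v := by
  have hp1 : 1 < p := hp.out.one_lt
  have hfinQ : Finite (W ⧸ powSubgroup W p) := by
    have : (powSubgroup W p).index ≠ 0 := by rw [hidx]; exact pow_ne_zero _ hp.out.ne_zero
    haveI := Subgroup.finiteIndex_iff.mpr this
    exact Subgroup.finite_quotient_of_finiteIndex
  have hfinQ' : Finite (Additive (W ⧸ powSubgroup W p)) := hfinQ
  have hcardQ : Nat.card (Additive (W ⧸ powSubgroup W p)) = p ^ s := by
    rw [← hidx, Subgroup.index_eq_card]; rfl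
  -- identify the targets with `ZMod p`
  have e : ∀ v, C v ≃* Multiplicative (ZMod p) := fun v =>
    (exists_mulEquiv_zmod_of_card (C v) p (hC v)).some
  have hCpow : ∀ v, ∀ x : C v, x ^ p = 1 := by
    intro v x
    have := pow_card_eq_one' (G := C v) (x := x)
    rwa [hC v] at this
  have hker : ∀ v, powSubgroup W p ≤ (χ v).ker := by
    intro v y hy
    obtain ⟨z, rfl⟩ := mem_powSubgroup.mp hy
    rw [MonoidHom.mem_ker, map_pow, hCpow]
  let χbar : ∀ v, (W ⧸ powSubgroup W p) →* C v := fun v =>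
    QuotientGroup.lift (powSubgroup W p) (χ v) (hker v)
  let φ : Ω → Module.Dual (ZMod p) (Additive (W ⧸ powSubgroup W p)) := fun v =>
    AddMonoidHom.toZModLinearMap p
      (MonoidHom.toAdditiveLeft ((e v).toMonoidHom.comp (χbar v)))
  have hφ : ∀ v (y : W), φ v (Additive.ofMul (QuotientGroup.mk y : W ⧸ powSubgroup W p)) =
      Multiplicative.toAdd (e v (χ v y)) := by
    intro v y; rfl
  set abar : Additive (W ⧸ powSubgroup W p) := Additive.ofMul (QuotientGroup.mk a) with habar
  have habar0 : abar ≠ 0 := by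
    intro h
    apply ha
    have : (QuotientGroup.mk a : W ⧸ powSubgroup W p) = 1 := congrArg Additive.toMul h
    exact (QuotientGroup.eq_one_iff a).mp this
  have hmk : ∀ b : Additive (W ⧸ powSubgroup W p), ∃ y : W,
      Additive.ofMul (QuotientGroup.mk y : W ⧸ powSubgroup W p) = b := by
    intro b
    obtain ⟨y, hy⟩ := QuotientGroup.mk_surjective (Additive.toMul b)
    exact ⟨y, by rw [hy]; rfl⟩
  have hsep' : ∀ b : Additive (W ⧸ powSubgroup W p), b ∉ Submodule.span (ZMod p) {abar} →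
      ∃ v, φ v abar = 0 ∧ φ v b ≠ 0 := by
    intro b hb
    obtain ⟨y, rfl⟩ := hmk b
    have hy : ¬ ∃ (n : ℕ) (c : W), y = a ^ n * c ^ p := by
      rintro ⟨n, c, rfl⟩
      apply hb
      have : Additive.ofMul (QuotientGroup.mk (a ^ n * c ^ p) : W ⧸ powSubgroup W p) =
          (n : ZMod p) • abar := by
        rw [Nat.cast_smul_eq_nsmul, habar, ← ofMul_pow, ← QuotientGroup.mk_pow]
        congr 1
        rw [QuotientGroup.mk_mul, mul_eq_left, QuotientGroup.eq_one_iff]
        exact mem_powSubgroup.mpr ⟨c, rfl⟩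
      rw [this]
      exact Submodule.smul_mem _ _ (Submodule.mem_span_singleton_self _)
    obtain ⟨v, hva, hvy⟩ := hsep y hy
    refine ⟨v, ?_, ?_⟩
    · rw [habar, hφ, hva, map_one]; rfl
    · rw [hφ]
      intro h0
      apply hvy
      have h1 : e v (χ v y) = 1 := congrArg Multiplicative.ofAdd h0
      exact (e v).injective (h1.trans (map_one (e v)).symm)
  obtain ⟨T, hTcard, hTa, hTsurj⟩ := exists_aux_functionals s hcardQ φ abar habar0 hsep'
  refine ⟨T, hTcard, ?_, ?_⟩
  · intro v hv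
    have h1 := hTa v hv
    rw [habar, hφ] at h1
    have h2 : e v (χ v a) = 1 := congrArg Multiplicative.ofAdd h1
    exact (e v).injective (h2.trans (map_one (e v)).symm)
  · intro t
    obtain ⟨x, hx⟩ := hTsurj (fun v => Multiplicative.toAdd (e v (t v)))
    obtain ⟨w, rfl⟩ := hmk x
    refine ⟨w, fun v hv => ?_⟩
    have h1 := hx v hv
    rw [hφ] at h1
    have h2 : e v (χ v w) = e v (t v) := congrArg Multiplicative.ofAdd h1
    exact (e v).injective h2

end

end Fermat.Agent.S55lib.SecondIneq
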