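/-
S55 sprint, block (IV) existence mod p (helper1).
COUNTING: `W`, `V` finite vector spaces of the same cardinality over a finite field, and a map
`a ↦ φ a ≠ 0` from the nonzero vectors of `W` to the functionals on `V` which is injective on lines
(equal kernels ⇒ proportional).  Then every hyperplane of `V` is `ker (φ a)` for some `a`.
-/
import Mathlib

set_option autoImplicit false

namespace Fermat.Agent.S55lib.SecondIneq

open scoped LinearAlgebra.Projectivization Classical

variable {k : Type*} [Field k] [Finite k] {W V : Type*} [AddCommGroup W] [Module k W] [Finite W]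
  [AddCommGroup V] [Module k V] [Finite V]

omit [Finite k] in
theorem natCard_dual_eq : Nat.card (Module.Dual k V) = Nat.card V := by
  haveI : Module.Finite k V := Module.Finite.of_finite
  let b := Module.Free.chooseBasis k V
  exact (Nat.card_congr b.toDualEquiv.toEquiv).symm

theorem exists_ker_eq_of_injective_on_lines (hcard : Nat.card W = Nat.card V)
    (φ : {a : W // a ≠ 0} → Module.Dual k V) (hφ0 : ∀ a, φ a ≠ 0)
    (hinj : ∀ a b, LinearMap.ker (φ a) = LinearMap.ker (φ b) → ∃ c : k, b.1 = c • a.1)
    (ψ : Module.Dual k V) (hψ : ψ ≠ 0) :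
    ∃ a, LinearMap.ker (φ a) = LinearMap.ker ψ := by
  haveI : Fintype k := Fintype.ofFinite k
  haveI : Fintype {a : W // a ≠ 0} := Fintype.ofFinite _
  haveI : Finite (Module.Dual k V) := by
    apply Nat.finite_of_card_ne_zero
    rw [natCard_dual_eq]; exact Nat.card_pos.ne'
  haveI : Finite (ℙ k (Module.Dual k V)) :=
    (Projectivization.finite_iff_of_finite k (Module.Dual k V)).mpr inferInstance
  haveI : Fintype (ℙ k (Module.Dual k V)) := Fintype.ofFinite _
  set g : {a : W // a ≠ 0} → ℙ k (Module.Dual k V) := fun a => Projectivization.mk k (φ a) (hφ0 a)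
    with hg
  have hq : 2 ≤ Nat.card k := by
    have := Finite.one_lt_card (α := k)
    omega
  -- fibres have at most `q - 1` elements
  have hfib : ∀ y ∈ Finset.image g Finset.univ,
      (Finset.univ.filter fun a => g a = y).card ≤ Nat.card k - 1 := by
    intro y hy
    obtain ⟨a, -, rfl⟩ := Finset.mem_image.mp hy
    have hsub : (Finset.univ.filter fun b => g b = g a) ⊆
        (Finset.univ : Finset kˣ).image fun c : kˣ =>
          if h : (c : k) • a.1 ≠ 0 then (⟨(c : k) • a.1, h⟩ : {a : W // a ≠ 0}) else a := by
      intro b hb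
      rw [Finset.mem_filter] at hb
      have hb' := hb.2
      rw [hg] at hb'
      simp only at hb'
      rw [Projectivization.mk_eq_mk_iff] at hb'
      obtain ⟨u, hu⟩ := hb'
      have hker : LinearMap.ker (φ a) = LinearMap.ker (φ b) := by
        ext x
        simp only [LinearMap.mem_ker]
        rw [← hu]
        simp [Units.smul_def]
      obtain ⟨c, hc⟩ := hinj a b hker
      have hc0 : c ≠ 0 := by
        rintro rfl
        rw [zero_smul] at hc
        exact b.2 hc
      rw [Finset.mem_image]
      refine ⟨Units.mk0 c hc0, Finset.mem_univ _, ?_⟩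
      have : ((Units.mk0 c hc0 : kˣ) : k) • a.1 ≠ 0 := by
        rw [Units.val_mk0, ← hc]; exact b.2
      rw [dif_pos this]
      exact Subtype.ext (by simp only [Units.val_mk0]; exact hc.symm)
    calc (Finset.univ.filter fun b => g b = g a).card
        ≤ ((Finset.univ : Finset kˣ).image _).card := Finset.card_le_card hsub
      _ ≤ (Finset.univ : Finset kˣ).card := Finset.card_image_le
      _ = Nat.card k - 1 := by
        rw [Finset.card_univ, Fintype.card_units, Nat.card_eq_fintype_card]
  have h1 := Finset.card_le_mul_card_image (f := g) Finset.univ (Nat.card k - 1) hfib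
  -- cardinalities
  have hX : (Finset.univ : Finset {a : W // a ≠ 0}).card = Nat.card W - 1 := by
    rw [Finset.card_univ, ← Nat.card_eq_fintype_card]
    have : Nat.card {a : W // a ≠ 0} = Nat.card W - Nat.card {a : W // a = 0} := by
      have := Nat.card_congr (Equiv.sumCompl fun a : W => a = 0)
      rw [Nat.card_sum] at this
      have h' : Nat.card {a : W // ¬ a = 0} = Nat.card {a : W // a ≠ 0} := rfl
      omega
    rw [this]
    congr 1
    rw [Nat.card_eq_one_iff_unique]
    exact ⟨⟨fun x y => Subtype.ext (x.2.trans y.2.symm)⟩, ⟨⟨0, rfl⟩⟩⟩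
  have hY := Projectivization.card k (Module.Dual k V)
  rw [natCard_dual_eq] at hY
  have hsub : (Finset.image g Finset.univ).card ≤ Nat.card (ℙ k (Module.Dual k V)) := by
    rw [Nat.card_eq_fintype_card, ← Finset.card_univ]
    exact Finset.card_le_card (Finset.subset_univ _)
  have hq1 : 0 < Nat.card k - 1 := by omega
  have hge : Nat.card (ℙ k (Module.Dual k V)) ≤ (Finset.image g Finset.univ).card := by
    rw [hX, hcard, hY, mul_comm] at h1
    exact Nat.le_of_mul_le_mul_left h1 hq1
  have hsurj : Finset.image g Finset.univ = Finset.univ := by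
    apply Finset.eq_univ_of_card
    rw [← Nat.card_eq_fintype_card]
    exact le_antisymm hsub hge
  have hmem : Projectivization.mk k ψ hψ ∈ Finset.image g Finset.univ := by
    rw [hsurj]; exact Finset.mem_univ _
  obtain ⟨a, -, ha⟩ := Finset.mem_image.mp hmem
  refine ⟨a, ?_⟩
  rw [hg] at ha
  simp only at ha
  rw [Projectivization.mk_eq_mk_iff] at ha
  obtain ⟨u, hu⟩ := ha
  ext x
  simp only [LinearMap.mem_ker]
  rw [← hu]
  simp [Units.smul_def]

end Fermat.Agent.S55lib.SecondIneq
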