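/-
S55 sprint, block (IV) existence mod p (helper1).
Elementary abelian `p`-groups as `ZMod p`-vector spaces: subgroups of index `p` are kernels of
nonzero functionals; separation of an element from a subgroup by a subgroup of index `p`;
the counting lemma of `HyperplaneCount.lean` in group form.
-/
import Mathlib
import Fermat.Agent.S55lib.SecondIneq.ChooseT
import Fermat.Agent.S55lib.SecondIneq.HyperplaneCount

set_option autoImplicit false

namespace Fermat.Agent.S55lib.SecondIneq

open scoped Classical

section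

variable (p : ℕ) [hp : Fact p.Prime] (G : Type*) [CommGroup G] [hG : Fact (∀ x : G, x ^ p = 1)]

/-- a commutative group killed by `p`, written additively, is a `ZMod p`-module -/
@[instance_reducible] noncomputable def powOneModule : Module (ZMod p) (Additive G) :=
  AddCommGroup.zmodModule (n := p) (G := Additive G) (fun x => by
    have := hG.out x.toMul
    exact congrArg Additive.ofMul this)

attribute [local instance] powOneModule

variable {p G}

/-- the functional attached to a homomorphism to `ZMod p` -/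
noncomputable def dualOfHom (f : G →* Multiplicative (ZMod p)) : Module.Dual (ZMod p) (Additive G) :=
  AddMonoidHom.toZModLinearMap p (MonoidHom.toAdditiveLeft f)

theorem dualOfHom_apply (f : G →* Multiplicative (ZMod p)) (x : G) :
    dualOfHom f (Additive.ofMul x) = Multiplicative.toAdd (f x) := rfl

/-- the homomorphism attached to a functional -/
noncomputable def homOfDual (φ : Module.Dual (ZMod p) (Additive G)) : G →* Multiplicative (ZMod p) :=
  MonoidHom.toAdditiveLeft.symm φ.toAddMonoidHom

theorem homOfDual_apply (φ : Module.Dual (ZMod p) (Additive G)) (x : G) :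
    homOfDual φ x = Multiplicative.ofAdd (φ (Additive.ofMul x)) := rfl

theorem index_ker_homOfDual (φ : Module.Dual (ZMod p) (Additive G)) (hφ : φ ≠ 0) :
    (homOfDual φ).ker.index = p := by
  rw [Subgroup.index_ker]
  have hne : (homOfDual φ).range ≠ ⊥ := by
    intro h
    apply hφ
    ext x
    have hx : homOfDual φ (Additive.toMul x) ∈ (homOfDual φ).range := ⟨_, rfl⟩
    rw [h, Subgroup.mem_bot, homOfDual_apply] at hx
    exact congrArg Multiplicative.toAdd hx
  have hcard : Nat.card (Multiplicative (ZMod p)) = p := by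
    rw [Nat.card_eq_fintype_card, Fintype.card_multiplicative, ZMod.card]
  haveI : Fact (Nat.card (Multiplicative (ZMod p))).Prime := ⟨by rw [hcard]; exact hp.out⟩
  have := Subgroup.eq_bot_or_eq_top_of_prime_card (homOfDual φ).range
  rcases this with h | h
  · exact absurd h hne
  · rw [h, Nat.card_congr (Subgroup.topEquiv).toEquiv, hcard]

/-- subgroups of index `p` are kernels of nonzero functionals -/
theorem exists_dual_of_index_eq (H : Subgroup G) (hH : H.index = p) :
    ∃ φ : Module.Dual (ZMod p) (Additive G), φ ≠ 0 ∧ ∀ x : G, φ (Additive.ofMul x) = 0 ↔ x ∈ H := by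
  have hcard : Nat.card (G ⧸ H) = p := by rw [← Subgroup.index_eq_card]; exact hH
  obtain ⟨e⟩ := exists_mulEquiv_zmod_of_card (G ⧸ H) p hcard
  set f : G →* Multiplicative (ZMod p) := e.toMonoidHom.comp (QuotientGroup.mk' H) with hf
  have hfx : ∀ x : G, dualOfHom f (Additive.ofMul x) = 0 ↔ x ∈ H := by
    intro x
    rw [dualOfHom_apply, hf]
    simp only [MonoidHom.coe_comp, MulEquiv.coe_toMonoidHom, Function.comp_apply,
      QuotientGroup.mk'_apply]
    constructor
    · intro h
      have h1 : e (QuotientGroup.mk x) = 1 := congrArg Multiplicative.ofAdd h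
      rw [e.map_eq_one_iff] at h1
      exact (QuotientGroup.eq_one_iff x).mp h1
    · intro h
      rw [(QuotientGroup.eq_one_iff x).mpr h, map_one]; rfl
  refine ⟨dualOfHom f, ?_, hfx⟩
  intro h0
  have htop : H = ⊤ := by
    rw [eq_top_iff]
    intro x _
    rw [← hfx, h0]; rfl
  rw [htop, Subgroup.index_top] at hH
  exact hp.out.one_lt.ne hH

/-- an element outside a subgroup is avoided by a subgroup of index `p` containing it -/
theorem exists_index_eq_of_not_mem (D : Subgroup G) (c : G) (hc : c ∉ D) :
    ∃ H : Subgroup G, D ≤ H ∧ H.index = p ∧ c ∉ H := by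
  set Dm : Submodule (ZMod p) (Additive G) :=
    AddSubgroup.toZModSubmodule p (Subgroup.toAddSubgroup D) with hDm
  have hcD : Additive.ofMul c ∉ Dm := by
    intro h
    exact hc h
  obtain ⟨f, hfc, hfD⟩ := Submodule.exists_dual_map_eq_bot_of_notMem hcD inferInstance
  have hf0 : f ≠ 0 := by
    rintro rfl
    exact hfc rfl
  refine ⟨(homOfDual f).ker, ?_, index_ker_homOfDual f hf0, ?_⟩
  · intro x hx
    rw [MonoidHom.mem_ker, homOfDual_apply]
    have : f (Additive.ofMul x) ∈ Dm.map f := ⟨Additive.ofMul x, hx, rfl⟩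
    rw [hfD, Submodule.mem_bot] at this
    rw [this]; rfl
  · intro h
    rw [MonoidHom.mem_ker, homOfDual_apply] at h
    exact hfc (congrArg Multiplicative.toAdd h)

/-- **counting lemma, group form**: a map from the nontrivial elements of `Wg` to the subgroups of
index `p` of `G` which is injective on cyclic subgroups hits every subgroup of index `p`, when
`|Wg| = |G|`. -/
theorem exists_eq_of_injective_on_cyclic [Finite G] {Wg : Type*} [CommGroup Wg] [Finite Wg]
    [hW : Fact (∀ w : Wg, w ^ p = 1)] (hcard : Nat.card Wg = Nat.card G)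
    (Ψ : Wg → Subgroup G) (hΨidx : ∀ w, w ≠ 1 → (Ψ w).index = p)
    (hΨinj : ∀ w w', w ≠ 1 → w' ≠ 1 → Ψ w = Ψ w' → w' ∈ Subgroup.zpowers w)
    (H : Subgroup G) (hH : H.index = p) : ∃ w, w ≠ 1 ∧ Ψ w = H := by
  have hne : ∀ a : {a : Additive Wg // a ≠ 0}, Additive.toMul a.1 ≠ 1 := fun a h => a.2 h
  choose φ hφ0 hφ using fun a : {a : Additive Wg // a ≠ 0} =>
    exists_dual_of_index_eq (Ψ (Additive.toMul a.1)) (hΨidx _ (hne a))
  obtain ⟨ψ, hψ0, hψ⟩ := exists_dual_of_index_eq H hH
  have hΨker : ∀ a b, LinearMap.ker (φ a) = LinearMap.ker (φ b) →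
      Ψ (Additive.toMul a.1) = Ψ (Additive.toMul b.1) := by
    intro a b h
    ext x
    rw [← hφ a x, ← hφ b x, ← LinearMap.mem_ker, ← LinearMap.mem_ker, h]
  have hinj : ∀ a b, LinearMap.ker (φ a) = LinearMap.ker (φ b) → ∃ c : ZMod p, b.1 = c • a.1 := by
    intro a b h
    have hmem := hΨinj _ _ (hne a) (hne b) (hΨker a b h)
    obtain ⟨n, hn⟩ := Subgroup.mem_zpowers_iff.mp hmem
    refine ⟨(n : ZMod p), ?_⟩
    rw [Int.cast_smul_eq_zsmul]
    have : b.1 = Additive.ofMul (Additive.toMul a.1 ^ n) := by rw [hn]; rfl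
    rw [this, ofMul_zpow]; rfl
  have hcard' : Nat.card (Additive Wg) = Nat.card (Additive G) := hcard
  haveI : Finite (Additive Wg) := inferInstanceAs (Finite Wg)
  haveI : Finite (Additive G) := inferInstanceAs (Finite G)
  obtain ⟨a, ha⟩ := exists_ker_eq_of_injective_on_lines hcard' φ hφ0 hinj ψ hψ0
  refine ⟨Additive.toMul a.1, hne a, ?_⟩
  ext x
  rw [← hφ a x, ← hψ x, ← LinearMap.mem_ker, ← LinearMap.mem_ker, ha]

end

end Fermat.Agent.S55lib.SecondIneq
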