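/-
S55 sprint, block (IV) second inequality, glue to the Layers model (helper1).
**Units are norms in unramified Kummer extensions.**
Abstract form (helper3's normed local fields `K ⊂ L`, `Gal(L/K) = ⟨σ⟩` of prime order `p`, `‖p‖ = 1`,
`β ∈ L` a unit with `σ β = ζ β`): `L/K` is unramified and every unit of `K` is `∏_{i<p} σ^i y`, `‖y‖ = 1`.
Ambient form: `E' ⊂ ℚ̄_q` finite over `ℚ_q`, `τ ∈ G_q` stabilising `E'` with `τ ^ p = 1` on `E'`
(helper2's `fixK/sigK` plumbing).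
-/
import Mathlib
import Fermat.Agent.S55lib.FirstIneq.LocalCyclic
import Fermat.Agent.S55lib.LocalUnr.UnramifiedCrit
import Fermat.Agent.S55lib.LocalUnr.UnrRoots

set_option autoImplicit false

namespace Fermat.Agent.S55lib.SecondIneq

open Fermat.Agent.S55lib Fermat.Agent.S55lib.LocalUnr
open scoped NormedField Valued

section Abstract

variable {K L : Type*} [NontriviallyNormedField K] [IsUltrametricDist K] [ProperSpace K]
  [NontriviallyNormedField L] [IsUltrametricDist L] [ProperSpace L] [NormedAlgebra K L]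
  [FiniteDimensional K L] [IsGalois K L]

omit [IsUltrametricDist K] [ProperSpace K] [IsUltrametricDist L] [ProperSpace L]
  [FiniteDimensional K L] [IsGalois K L] in
theorem pow_apply_of_apply_eq_mul (σ : L ≃ₐ[K] L) {β ζ : L} (hσβ : σ β = ζ * β) (hσζ : σ ζ = ζ)
    (i : ℕ) : (σ ^ i) β = ζ ^ i * β := by
  induction i with
  | zero => simp
  | succ i ih =>
    rw [pow_succ', AlgEquiv.mul_apply, ih, map_mul, map_pow, hσζ, hσβ, pow_succ]
    ring

/-- a cyclic Kummer extension generated by a unit, of degree prime to the residue characteristic,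
is unramified -/
theorem isUnramified_of_kummer (p : ℕ) [hp : Fact p.Prime] (hp1 : ‖((p : ℕ) : L)‖ = 1)
    (σ : L ≃ₐ[K] L) (hσ : ∀ ρ : L ≃ₐ[K] L, ρ ∈ Subgroup.zpowers σ) (hord : orderOf σ = p)
    {β ζ : L} (hβ1 : ‖β‖ = 1) (hζ : IsPrimitiveRoot ζ p) (hσβ : σ β = ζ * β) (hσζ : σ ζ = ζ) :
    IsUnramified K L := by
  apply isUnramified_of_injective
  rw [injective_iff_map_eq_one]
  intro ρ hρ
  by_contra hρ1
  have hfin : IsOfFinOrder σ := by
    rw [← orderOf_pos_iff, hord]; exact hp.out.pos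
  have hmem := hσ ρ
  rw [← hfin.mem_powers_iff_mem_zpowers] at hmem
  obtain ⟨i, rfl⟩ := hmem
  have hi : ¬ p ∣ i := by
    intro hdvd
    apply hρ1
    rw [← hord] at hdvd
    exact orderOf_dvd_iff_pow_eq_one.mp hdvd
  have hβint : β ∈ 𝒪[L] := by
    rw [Valued.integer.mem_iff]
    exact hβ1.le
  have h1 := resGal_apply (K := K) (L := L) (σ ^ i) ⟨β, hβint⟩
  rw [hρ] at h1
  have h2 : IsLocalRing.residue 𝒪[L] ((σ ^ i) • (⟨β, hβint⟩ : 𝒪[L]) - ⟨β, hβint⟩) = 0 := by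
    rw [map_sub, ← h1]
    simp
  rw [IsLocalRing.residue_eq_zero_iff, mem_maximalIdeal_iff] at h2
  have h3 : (((σ ^ i) • (⟨β, hβint⟩ : 𝒪[L]) - ⟨β, hβint⟩ : 𝒪[L]) : L) = (ζ ^ i - 1) * β := by
    have : (((σ ^ i) • (⟨β, hβint⟩ : 𝒪[L]) - ⟨β, hβint⟩ : 𝒪[L]) : L) = (σ ^ i) β - β := rfl
    rw [this, pow_apply_of_apply_eq_mul σ hσβ hσζ]
    ring
  -- `‖ζ ^ i - 1‖ = 1`
  obtain ⟨n, rfl⟩ : ∃ n, p = n + 1 := ⟨p - 1, by have := hp.out.pos; omega⟩
  have hn : ‖((n : L) + 1)‖ = 1 := by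
    have : ((n : L) + 1) = ((n + 1 : ℕ) : L) := by push_cast; rfl
    rw [this]; exact hp1
  have hne : ζ ^ i ≠ ζ ^ 0 := by
    rw [pow_zero]
    intro h
    exact hi ((hζ.pow_eq_one_iff_dvd i).mp h)
  have h4 := norm_pow_sub_pow_eq_one hn hζ hne
  rw [pow_zero] at h4
  have h5 : ‖(((σ ^ i) • (⟨β, hβint⟩ : 𝒪[L]) - ⟨β, hβint⟩ : 𝒪[L]) : L)‖ = 1 := by
    rw [h3, norm_mul, h4, hβ1, mul_one]
  have h2' : ‖(((σ ^ i) • (⟨β, hβint⟩ : 𝒪[L]) - ⟨β, hβint⟩ : 𝒪[L]) : L)‖ < 1 := h2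
  rw [h5] at h2'
  exact lt_irrefl _ h2'

/-- in such an extension every unit of the base is a norm of a unit, in the cyclic-product form -/
theorem exists_prod_pow_eq_of_kummer (p : ℕ) [hp : Fact p.Prime] (hp1 : ‖((p : ℕ) : L)‖ = 1)
    (σ : L ≃ₐ[K] L) (hσ : ∀ ρ : L ≃ₐ[K] L, ρ ∈ Subgroup.zpowers σ) (hord : orderOf σ = p)
    {β ζ : L} (hβ1 : ‖β‖ = 1) (hζ : IsPrimitiveRoot ζ p) (hσβ : σ β = ζ * β) (hσζ : σ ζ = ζ)
    (u : K) (hu : ‖u‖ = 1) :
    ∃ y : L, ‖y‖ = 1 ∧ ∏ i ∈ Finset.range p, (σ ^ i) y = algebraMap K L u := by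
  classical
  have hunr := isUnramified_of_kummer p hp1 σ hσ hord hβ1 hζ hσβ hσζ
  obtain ⟨y, hy1, hy⟩ := hunr.exists_norm_eq u hu
  refine ⟨y, hy1, ?_⟩
  rw [← hy, Algebra.norm_eq_prod_automorphisms]
  have hinj : Set.InjOn (fun i : ℕ => σ ^ i) (Finset.range p : Set ℕ) := by
    intro i hi j hj hij
    have hi' : i < orderOf σ := by rw [hord]; exact Finset.mem_range.mp hi
    have hj' : j < orderOf σ := by rw [hord]; exact Finset.mem_range.mp hj
    exact pow_injOn_Iio_orderOf hi' hj' hij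
  have himg : (Finset.range p).image (fun i : ℕ => σ ^ i) = Finset.univ := by
    apply Finset.eq_univ_of_card
    rw [Finset.card_image_of_injOn hinj, Finset.card_range, ← Nat.card_eq_fintype_card,
      ← orderOf_eq_card_of_forall_mem_zpowers hσ, hord]
  rw [← himg, Finset.prod_image hinj]

end Abstract

section Ambient

open Fermat.Agent.S55lib.FirstIneq IntermediateField

variable (q : ℕ) [Fact q.Prime]

theorem norm_natCast_eq_one_of_ne (p : ℕ) [hp : Fact p.Prime] (hqp : q ≠ p) :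
    ‖((p : ℕ) : PadicAlgCl q)‖ = 1 := by
  have h1 : ((p : ℕ) : PadicAlgCl q) = (((p : ℕ) : ℚ_[q]) : PadicAlgCl q) := by
    push_cast; rfl
  rw [h1, PadicAlgCl.norm_extends, Padic.norm_natCast_eq_one_iff,
    Nat.coprime_primes Fact.out hp.out]
  exact hqp

variable (E' : IntermediateField ℚ_[q] (PadicAlgCl q)) [FiniteDimensional ℚ_[q] E']
  (τ : GalQq q) (hst : ∀ x ∈ E', τ x ∈ E')

noncomputable instance properSpace_fixK : ProperSpace (fixK q E' τ hst) :=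
  properSpace_of_finiteDimensional (K₀ := ℚ_[q]) (Ω := E') (fixK q E' τ hst)

theorem coe_sigK_pow_apply (i : ℕ) (x : E') :
    ((((sigK q E' τ hst) ^ i) x : E') : PadicAlgCl q) = (τ ^ i) x := by
  induction i generalizing x with
  | zero => rfl
  | succ i ih =>
    rw [pow_succ, pow_succ, AlgEquiv.mul_apply, AlgEquiv.mul_apply, ih]
    rfl

theorem mem_fixK_of_apply_eq {u : PadicAlgCl q} (hu : u ∈ E') (hτu : τ u = u) :
    (⟨u, hu⟩ : E') ∈ fixK q E' τ hst := by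
  unfold fixK
  rw [mem_fixedField_iff]
  have hle : Subgroup.zpowers (resAut q E' τ hst) ≤
      MulAction.stabilizer (E' ≃ₐ[ℚ_[q]] E') (⟨u, hu⟩ : E') := by
    rw [Subgroup.zpowers_le, MulAction.mem_stabilizer_iff]
    exact Subtype.ext hτu
  intro g hg
  exact MulAction.mem_stabilizer_iff.mp (hle hg)

include hst in
/-- **units are norms in unramified Kummer extensions, ambient form** -/
theorem exists_norm_one_prod_eq (p : ℕ) [hp : Fact p.Prime] (hqp : q ≠ p)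
    (hpow : ∀ x ∈ E', (τ ^ p) x = x)
    {β ζ' : PadicAlgCl q} (hβ : β ∈ E') (hβ1 : ‖β‖ = 1) (hζ' : IsPrimitiveRoot ζ' p)
    (hζ'E : ζ' ∈ E') (hτβ : τ β = ζ' * β) (hτζ : τ ζ' = ζ')
    {u : PadicAlgCl q} (hu : u ∈ E') (hτu : τ u = u) (hu1 : ‖u‖ = 1) :
    ∃ y : PadicAlgCl q, y ∈ E' ∧ ‖y‖ = 1 ∧ ∏ i ∈ Finset.range p, (τ ^ i) y = u := by
  have hne : ∃ x ∈ E', τ x ≠ x := by
    refine ⟨β, hβ, ?_⟩
    rw [hτβ]
    intro h
    have hβ0 : β ≠ 0 := by
      intro h0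
      rw [h0, norm_zero] at hβ1
      exact zero_ne_one hβ1
    have h1 : ζ' = 1 := by
      have := mul_right_cancel₀ hβ0 (h.trans (one_mul β).symm)
      exact this
    exact hζ'.ne_one hp.out.one_lt h1
  have hζL : IsPrimitiveRoot (⟨ζ', hζ'E⟩ : E') p :=
    IsPrimitiveRoot.of_map_of_injective (f := E'.val) hζ' Subtype.val_injective
  have hp1 : ‖((p : ℕ) : E')‖ = 1 := norm_natCast_eq_one_of_ne q p hqp
  obtain ⟨y, hy1, hy⟩ := exists_prod_pow_eq_of_kummer (K := fixK q E' τ hst) (L := E') p hp1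
    (sigK q E' τ hst) (sigK_generates q E' τ hst) (orderOf_sigK q E' τ hst p hpow hne)
    (β := ⟨β, hβ⟩) (ζ := ⟨ζ', hζ'E⟩) hβ1 hζL (Subtype.ext hτβ) (Subtype.ext hτζ)
    ⟨⟨u, hu⟩, mem_fixK_of_apply_eq q E' τ hst hu hτu⟩ hu1
  refine ⟨y, y.2, hy1, ?_⟩
  have h1 := congrArg (fun z : E' => (z : PadicAlgCl q)) hy
  have h2 : ((∏ i ∈ Finset.range p, ((sigK q E' τ hst) ^ i) y : E') : PadicAlgCl q) =
      ∏ i ∈ Finset.range p, (τ ^ i) (y : PadicAlgCl q) := by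
    rw [← E'.coe_val, map_prod]
    exact Finset.prod_congr rfl fun i _ => coe_sigK_pow_apply q E' τ hst i y
  rw [← h2]
  exact h1

end Ambient

end Fermat.Agent.S55lib.SecondIneq
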