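/-
S55 sprint, block (IV) second inequality, glue to the Layers model (helper1).
LOCAL ANALYSIS OF A KUMMER EXTENSION `M = F(α)`, `α ^ p = a`, `σ α = ζ α`, in the Layers model.
`KumCond p a κ z` (`κ : Emb q F`, `z` a value at `κ`): `a` is a `p`-th power in `F_κ = ℚ_q(κ F)`
(split), or `z` is a `p`-th power in `F_κ`, or `q ≠ p`, `a ∈ U · F_κ^p` and `z ∈ U · F_κ^p`
(unramified).  It is `G_q`-invariant and implies `IsLocNorm σ p ι z` for every `ι` above `κ`.
-/
import Mathlib
import Fermat.Agent.S55lib.SecondIneq.IdeleNorm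
import Fermat.Agent.S55lib.SecondIneq.LocUnr
import Fermat.Agent.S55lib.Places.Completion

set_option autoImplicit false
set_option linter.unusedSectionVars false

namespace Fermat.Agent.S55lib.SecondIneq

open Fermat.Agent.S55lib Fermat.Agent.S55lib.Places

variable {q : ℕ} [Fact q.Prime]

section Cond

variable {F : Type*} [Field F] [Algebra ℚ F]

/-- the local condition at `κ` on a value `z` -/
def KumCond (p : ℕ) (a : F) (κ : Emb q F) (z : (PadicAlgCl q)ˣ) : Prop :=
  (∃ c ∈ localField q F κ, c ^ p = κ a) ∨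
  (∃ t ∈ localField q F κ, t ^ p = (z : PadicAlgCl q)) ∨
  (q ≠ p ∧ (∃ c₀ ∈ localField q F κ, ‖κ a‖ = ‖c₀‖ ^ p) ∧
    ∃ u ∈ localField q F κ, ∃ t ∈ localField q F κ, ‖u‖ = 1 ∧ (z : PadicAlgCl q) = u * t ^ p)

/-- `G_q`-invariance -/
theorem KumCond.smul {p : ℕ} {a : F} {κ : Emb q F} {z : (PadicAlgCl q)ˣ} (h : KumCond p a κ z)
    (d : GalQq q) : KumCond p a (d • κ) (galU d z) := by
  rcases h with ⟨c, hc, hca⟩ | ⟨t, ht, htz⟩ | ⟨hqp, ⟨c₀, hc₀, hc₀a⟩, u, hu, t, ht, hu1, hz⟩
  · left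
    refine ⟨d c, localField_smul d κ c hc, ?_⟩
    rw [← map_pow, hca]; rfl
  · right; left
    refine ⟨d t, localField_smul d κ t ht, ?_⟩
    rw [← map_pow, htz]; rfl
  · right; right
    refine ⟨hqp, ⟨d c₀, localField_smul d κ c₀ hc₀, ?_⟩, d u, localField_smul d κ u hu, d t,
      localField_smul d κ t ht, ?_, ?_⟩
    · rw [Emb.smul_apply, Places.norm_algEquiv, Places.norm_algEquiv]; exact hc₀a
    · rw [Places.norm_algEquiv]; exact hu1
    · rw [coe_galU, hz, map_mul, map_pow]

end Cond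

section Kummer

variable {F M : Type*} [Field F] [NumberField F] [Field M] [NumberField M] [Algebra F M]
  [IsScalarTower ℚ F M] [Normal F M]

/-- if `ι α` lies in the local field of `F`, the place is split -/
theorem localField_eq_of_gen_mem {α : M} (hgen : IntermediateField.adjoin F {α} = ⊤) (ι : Emb q M)
    (h : ι α ∈ localField q F (resF F ι)) : localField q M ι = localField q F (resF F ι) := by
  apply le_antisymm _ (localField_resF_le ι)
  unfold localField
  rw [IntermediateField.adjoin_le_iff]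
  rintro _ ⟨x, rfl⟩
  have hx : x ∈ IntermediateField.adjoin F {α} := by rw [hgen]; trivial
  show ι x ∈ IntermediateField.adjoin ℚ_[q] (Set.range (resF F ι))
  induction hx using IntermediateField.adjoin_induction with
  | mem x hx =>
    rw [Set.mem_singleton_iff] at hx
    subst hx
    exact h
  | algebraMap c => exact IntermediateField.subset_adjoin _ _ ⟨c, rfl⟩
  | add x y _ _ hx hy => rw [map_add]; exact add_mem hx hy
  | inv x _ hx => rw [map_inv₀]; exact inv_mem hx
  | mul x y _ _ hx hy => rw [map_mul]; exact mul_mem hx hy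

variable (p : ℕ) [hp : Fact p.Prime] (σ : M ≃ₐ[F] M)
  (hσ : ∀ γ : M ≃ₐ[F] M, γ ∈ Subgroup.zpowers σ) (hord : orderOf σ = p)
  {ζ : F} (hζ : IsPrimitiveRoot ζ p) {a : F} (ha : a ≠ 0) {α : M}
  (hα : α ^ p = algebraMap F M a) (hσα : σ α = algebraMap F M ζ * α)
  (hgen : IntermediateField.adjoin F {α} = ⊤)

include hζ ha hα hgen in
/-- split case -/
theorem split_of_pow_eq (ι : Emb q M) {c : PadicAlgCl q} (hc : c ∈ localField q F (resF F ι))
    (hca : c ^ p = (resF F ι) a) : localField q M ι = localField q F (resF F ι) := by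
  apply localField_eq_of_gen_mem hgen
  have hκa : (resF F ι) a ≠ 0 := (map_ne_zero _).mpr ha
  have hc0 : c ≠ 0 := by
    rintro rfl
    rw [zero_pow hp.out.ne_zero] at hca
    exact hκa hca.symm
  have hια : ι α ^ p = (resF F ι) a := by
    rw [← map_pow, hα]; rfl
  have h1 : (ι α / c) ^ p = 1 := by
    rw [div_pow, hια, hca]
    exact div_self hκa
  have hζ' : IsPrimitiveRoot ((resF F ι) ζ) p :=
    hζ.map_of_injective (resF F ι).injective
  haveI : NeZero p := ⟨hp.out.ne_zero⟩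
  obtain ⟨i, -, hi⟩ := hζ'.eq_pow_of_pow_eq_one h1
  have h2 : ι α = (resF F ι) ζ ^ i * c := by
    rw [hi, div_mul_cancel₀ _ hc0]
  rw [h2]
  exact mul_mem (pow_mem (map_mem_localField (resF F ι) ζ) i) hc

/-! ### the non-split case: consequences of `τ • ι = ι ∘ σ` -/

theorem smul_resF_eq_of_smul_eq {ι : Emb q M} {τ : GalQq q} (hτ : τ • ι = compA ι σ) :
    τ • resF F ι = resF F ι := by
  have h := congrArg (resF F) hτ
  rw [resF_compA] at h
  exact h

theorem apply_eq_of_mem_localField_resF {ι : Emb q M} {τ : GalQq q} (hτ : τ • ι = compA ι σ)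
    {e : PadicAlgCl q} (he : e ∈ localField q F (resF F ι)) (i : ℕ) : (τ ^ i) e = e := by
  have h1 := (Emb.smul_eq_self_iff τ (resF F ι)).mp (smul_resF_eq_of_smul_eq σ hτ)
  have h2 : τ ^ i ∈ (localField q F (resF F ι)).fixingSubgroup := Subgroup.pow_mem _ h1 i
  rw [IntermediateField.mem_fixingSubgroup_iff] at h2
  exact h2 e he

theorem apply_mem_localField_of_smul_eq {ι : Emb q M} {τ : GalQq q} (hτ : τ • ι = compA ι σ)
    {x : PadicAlgCl q} (hx : x ∈ localField q M ι) : τ x ∈ localField q M ι := by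
  have h := localField_smul τ ι x hx
  rwa [hτ, localField_compA] at h

include hord in
theorem pow_apply_eq_of_smul_eq {ι : Emb q M} {τ : GalQq q} (hτ : τ • ι = compA ι σ)
    {x : PadicAlgCl q} (hx : x ∈ localField q M ι) : (τ ^ p) x = x := by
  have h1 : (τ ^ p) • ι = ι := by
    rw [pow_smul_eq_compA_pow σ ι τ hτ p, ← hord, pow_orderOf_eq_one, compA_one]
  have h2 := (Emb.smul_eq_self_iff (τ ^ p) ι).mp h1
  rw [IntermediateField.mem_fixingSubgroup_iff] at h2
  exact h2 x hx

include hσα in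
theorem apply_gen_of_smul_eq {ι : Emb q M} {τ : GalQq q} (hτ : τ • ι = compA ι σ) :
    τ (ι α) = (resF F ι) ζ * ι α := by
  have h := congrArg (fun κ : Emb q M => κ α) hτ
  simp only [Emb.smul_apply, compA_apply] at h
  rw [h, hσα, map_mul]
  rfl

/-- the power case -/
theorem isLocNorm_of_pow (hp0 : p ≠ 0) {ι : Emb q M} {τ : GalQq q} (hτ : τ • ι = compA ι σ)
    {z : (PadicAlgCl q)ˣ} {t : PadicAlgCl q} (ht : t ∈ localField q F (resF F ι))
    (htz : t ^ p = (z : PadicAlgCl q)) : IsLocNorm σ p ι z := by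
  have ht0 : t ≠ 0 := by
    rintro rfl
    rw [zero_pow hp0] at htz
    exact z.ne_zero htz.symm
  refine Or.inr ⟨τ, Units.mk0 t ht0, hτ, localField_resF_le ι ht, ?_, ?_⟩
  · apply Units.ext
    rw [Units.coe_prod]
    simp only [coe_galU, Units.val_mk0]
    rw [Finset.prod_congr rfl fun i _ => apply_eq_of_mem_localField_resF σ hτ ht i,
      Finset.prod_const, Finset.card_range, htz]
  · intro hz
    rw [← htz, norm_pow] at hz
    exact (pow_eq_one_iff_of_nonneg (norm_nonneg t) hp0).mp hz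

include hσ hord hζ ha hα hσα in
/-- the unramified case -/
theorem isLocNorm_of_unr (hqp : q ≠ p) {ι : Emb q M} {τ : GalQq q} (hτ : τ • ι = compA ι σ)
    {z : (PadicAlgCl q)ˣ} {c₀ u t : PadicAlgCl q} (hc₀ : c₀ ∈ localField q F (resF F ι))
    (hc₀a : ‖(resF F ι) a‖ = ‖c₀‖ ^ p) (hu : u ∈ localField q F (resF F ι))
    (ht : t ∈ localField q F (resF F ι)) (hu1 : ‖u‖ = 1) (hz : (z : PadicAlgCl q) = u * t ^ p) :
    IsLocNorm σ p ι z := by
  have hp0 : p ≠ 0 := hp.out.ne_zero
  have hκa : (resF F ι) a ≠ 0 := (map_ne_zero _).mpr ha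
  have hc₀0 : c₀ ≠ 0 := by
    rintro rfl
    rw [norm_zero, zero_pow hp0, norm_eq_zero] at hc₀a
    exact hκa hc₀a
  have ht0 : t ≠ 0 := by
    rintro rfl
    rw [zero_pow hp0, mul_zero] at hz
    exact z.ne_zero hz
  have hια : ι α ^ p = (resF F ι) a := by
    rw [← map_pow, hα]; rfl
  -- the unit `β`
  set β : PadicAlgCl q := ι α / c₀ with hβdef
  have hβE : β ∈ localField q M ι :=
    div_mem (map_mem_localField ι α) (localField_resF_le ι hc₀)
  have hβ1 : ‖β‖ = 1 := by
    have h1 : ‖β‖ ^ p = 1 := by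
      rw [hβdef, norm_div, div_pow, ← norm_pow, hια, hc₀a]
      exact div_self (pow_ne_zero _ (norm_ne_zero_iff.mpr hc₀0))
    exact (pow_eq_one_iff_of_nonneg (norm_nonneg β) hp0).mp h1
  have hζ' : IsPrimitiveRoot ((resF F ι) ζ) p := hζ.map_of_injective (resF F ι).injective
  have hζE : (resF F ι) ζ ∈ localField q F (resF F ι) := map_mem_localField (resF F ι) ζ
  have hτβ : τ β = (resF F ι) ζ * β := by
    rw [hβdef, map_div₀, apply_gen_of_smul_eq σ hσα hτ]
    have := apply_eq_of_mem_localField_resF σ hτ hc₀ 1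
    rw [pow_one] at this
    rw [this, mul_div_assoc]
  have hτζ : τ ((resF F ι) ζ) = (resF F ι) ζ := by
    have := apply_eq_of_mem_localField_resF σ hτ hζE 1
    rwa [pow_one] at this
  have hτu : τ u = u := by
    have := apply_eq_of_mem_localField_resF σ hτ hu 1
    rwa [pow_one] at this
  obtain ⟨y₁, hy₁E, hy₁1, hy₁⟩ := exists_norm_one_prod_eq q (localField q M ι) τ
    (fun x hx => apply_mem_localField_of_smul_eq σ hτ hx) p hqp
    (fun x hx => pow_apply_eq_of_smul_eq p σ hord hτ hx) hβE hβ1 hζ'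
    (localField_resF_le ι hζE) hτβ hτζ (localField_resF_le ι hu) hτu hu1
  have hy₁0 : y₁ ≠ 0 := by
    rintro rfl
    rw [norm_zero] at hy₁1
    exact zero_ne_one hy₁1
  refine Or.inr ⟨τ, Units.mk0 (y₁ * t) (mul_ne_zero hy₁0 ht0), hτ,
    mul_mem hy₁E (localField_resF_le ι ht), ?_, ?_⟩
  · apply Units.ext
    rw [Units.coe_prod]
    simp only [coe_galU, Units.val_mk0, map_mul]
    rw [Finset.prod_mul_distrib, hy₁,
      Finset.prod_congr rfl fun i _ => apply_eq_of_mem_localField_resF σ hτ ht i,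
      Finset.prod_const, Finset.card_range, hz]
  · intro hz1
    rw [hz, norm_mul, hu1, one_mul, norm_pow] at hz1
    have ht1 : ‖t‖ = 1 := (pow_eq_one_iff_of_nonneg (norm_nonneg t) hp0).mp hz1
    rw [Units.val_mk0, norm_mul, hy₁1, ht1, one_mul]

include hσ hord hζ ha hα hσα hgen in
/-- **the local condition implies the local norm property** -/
theorem isLocNorm_of_kumCond (ι : Emb q M) {z : (PadicAlgCl q)ˣ}
    (h : KumCond p a (resF F ι) z) : IsLocNorm σ p ι z := by
  rcases h with ⟨c, hc, hca⟩ | hrest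
  · exact Or.inl (split_of_pow_eq p hζ ha hα hgen ι hc hca)
  rcases split_or_exists_smul_eq p σ hσ hord hp.out ι with hsplit | ⟨τ, hτ⟩
  · exact Or.inl hsplit
  rcases hrest with ⟨t, ht, htz⟩ | ⟨hqp, ⟨c₀, hc₀, hc₀a⟩, u, hu, t, ht, hu1, hz⟩
  · exact isLocNorm_of_pow p σ hp.out.ne_zero hτ ht htz
  · exact isLocNorm_of_unr p σ hσ hord hζ ha hα hσα hqp hτ hc₀ hc₀a hu ht hu1 hz

end Kummer

end Fermat.Agent.S55lib.SecondIneq
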