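/-
S55 sprint, block (IV) second inequality (helper1).
Kummer theory: for `L = K(α)`, `α ^ p = a`, `μ_p ⊂ K`, with `Gal(L/K) = ⟨σ⟩`, `σ α = ζ α`:
`K^× ∩ L^{×p} = ⟨a⟩ · K^{×p}`.
-/
import Mathlib
import Fermat.Agent.S55lib.SecondIneq.Core

set_option autoImplicit false

namespace Fermat.Agent.S55lib.SecondIneq

variable {K L : Type*} [Field K] [Field L] [Algebra K L]

theorem kummer_inter (p : ℕ) (hp : 0 < p) {ζ : K} (hζ : IsPrimitiveRoot ζ p)
    (σ : L ≃ₐ[K] L) (hfix : ∀ x : L, σ x = x → ∃ c : K, algebraMap K L c = x)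
    {α : L} (hα0 : α ≠ 0) (hσα : σ α = algebraMap K L ζ * α) {a : K}
    (haα : α ^ p = algebraMap K L a) (b : K) (hb0 : b ≠ 0) (β : L) (hβ : β ^ p = algebraMap K L b) :
    ∃ (n : ℕ) (c : K), c ≠ 0 ∧ b = a ^ n * c ^ p := by
  haveI : NeZero p := ⟨hp.ne'⟩
  have hβ0 : β ≠ 0 := by
    rintro rfl
    rw [zero_pow hp.ne'] at hβ
    exact hb0 ((map_eq_zero _).mp hβ.symm)
  -- `σ β / β` is a `p`-th root of unity
  have h1 : (σ β / β) ^ p = 1 := by
    rw [div_pow, ← map_pow, hβ, AlgEquiv.commutes, div_self]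
    rw [← hβ]; exact pow_ne_zero _ hβ0
  have hζL : IsPrimitiveRoot (algebraMap K L ζ) p := hζ.map_of_injective (algebraMap K L).injective
  obtain ⟨k, -, hk⟩ := hζL.eq_pow_of_pow_eq_one h1
  -- `γ = β / α ^ k` is fixed
  have hσβ : σ β = algebraMap K L ζ ^ k * β := by
    rw [hk, div_mul_cancel₀ _ hβ0]
  have hγ : σ (β / α ^ k) = β / α ^ k := by
    rw [map_div₀, map_pow, hσα, hσβ, mul_pow]
    have hζ0 : algebraMap K L ζ ^ k ≠ 0 := pow_ne_zero _ (hζL.ne_zero hp.ne')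
    have hαk : α ^ k ≠ 0 := pow_ne_zero _ hα0
    field_simp
  obtain ⟨c, hc⟩ := hfix _ hγ
  have hc0 : c ≠ 0 := by
    rintro rfl
    rw [map_zero] at hc
    exact (div_ne_zero hβ0 (pow_ne_zero _ hα0)) hc.symm
  refine ⟨k, c, hc0, ?_⟩
  apply (algebraMap K L).injective
  rw [map_mul, map_pow, map_pow, ← haα, hc, div_pow, ← hβ, ← pow_mul, ← pow_mul, mul_comm p k]
  have : (α ^ (k * p)) ≠ 0 := pow_ne_zero _ hα0
  field_simp

/-- unit form, as needed by the abstract count -/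
theorem kummer_inter_units (p : ℕ) (hp : 0 < p) {ζ : K} (hζ : IsPrimitiveRoot ζ p)
    (σ : L ≃ₐ[K] L) (hfix : ∀ x : L, σ x = x → ∃ c : K, algebraMap K L c = x)
    {α : Lˣ} (hσα : σ (α : L) = algebraMap K L ζ * (α : L)) {a : Kˣ}
    (haα : α ^ p = Units.map (algebraMap K L : K →* L) a) (b : Kˣ)
    (hb : Units.map (algebraMap K L : K →* L) b ∈ powSubgroup Lˣ p) :
    ∃ (n : ℕ) (c : Kˣ), b = a ^ n * c ^ p := by
  obtain ⟨β, hβ⟩ := mem_powSubgroup.mp hb
  have haα' : (α : L) ^ p = algebraMap K L (a : K) := by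
    have := congrArg (Units.val) haα
    simpa using this
  have hβ' : (β : L) ^ p = algebraMap K L (b : K) := by
    have := congrArg (Units.val) hβ
    simpa using this
  obtain ⟨n, c, hc0, hc⟩ := kummer_inter p hp hζ σ hfix α.ne_zero hσα haα' (b : K) b.ne_zero
    (β : L) hβ'
  exact ⟨n, Units.mk0 c hc0, Units.ext (by simpa using hc)⟩

end Fermat.Agent.S55lib.SecondIneq
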