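/-
S55 sprint, block (IV) second inequality (helper1).
LOCAL `p`-th powers, ring level: `R` a local domain, complete for its maximal ideal `𝔪`, with
`(p) = 𝔪 ^ e`.  For `m ≥ e + 1` the `p`-th power map is a bijection
`1 + 𝔪 ^ m → 1 + 𝔪 ^ (m + e)`.
(The successive approximation lemma generalises helper6's `LocalH/Approx.lean` to two filtrations.)
-/
import Mathlib

set_option autoImplicit false

namespace Fermat.Agent.S55lib.SecondIneq

section Approx

variable {R : Type*} [CommRing R] (I : Ideal R)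

theorem smodEq_pow_iff' {n : ℕ} {x y : R} :
    x ≡ y [SMOD (I ^ n • ⊤ : Submodule R R)] ↔ x - y ∈ I ^ n := by
  rw [SModEq.sub_mem, smul_eq_mul, Ideal.mul_top]

variable [IsAdicComplete I R]

/-- the sequence of approximants -/
private noncomputable def approxSeq (W V : ℕ → Subgroup Rˣ) (Φ : Rˣ →* Rˣ)
    (happrox : ∀ k, ∀ u ∈ V k, ∃ y ∈ W k, u / Φ y ∈ V (k + 1))
    (u₀ : Rˣ) (h₀ : u₀ ∈ V 0) : (k : ℕ) → {u : Rˣ // u ∈ V k}
  | 0 => ⟨u₀, h₀⟩
  | k + 1 =>
    let uk := approxSeq W V Φ happrox u₀ h₀ k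
    ⟨uk.1 / Φ (happrox k uk.1 uk.2).choose, (happrox k uk.1 uk.2).choose_spec.2⟩

/-- successive approximation with a source filtration `W` and a target filtration `V` -/
theorem exists_preimage_of_approx_two
    (hunit : ∀ x : R, x - 1 ∈ I → IsUnit x)
    (W V : ℕ → Subgroup Rˣ) (hW : ∀ k, W (k + 1) ≤ W k)
    (hW1 : ∀ k, ∀ w ∈ W k, ((w : Rˣ) : R) - 1 ∈ I ^ (k + 1))
    (hV1 : ∀ k, ∀ w ∈ V k, ((w : Rˣ) : R) - 1 ∈ I ^ (k + 1))
    (hclosed : ∀ z : Rˣ, (∀ k, ∃ w ∈ W 0, ((z : Rˣ) : R) - w ∈ I ^ k) → z ∈ W 0)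
    (Φ : Rˣ →* Rˣ)
    (hΦ : ∀ k (x y : Rˣ), (x : R) - y ∈ I ^ k → ((Φ x : Rˣ) : R) - Φ y ∈ I ^ k)
    (happrox : ∀ k, ∀ u ∈ V k, ∃ y ∈ W k, u / Φ y ∈ V (k + 1)) :
    ∀ u ∈ V 0, ∃ P ∈ W 0, Φ P = u := by
  intro u₀ h₀
  set us := approxSeq W V Φ happrox u₀ h₀ with hus
  set ys : ℕ → Rˣ := fun k => (happrox k (us k).1 (us k).2).choose with hys
  have hys_mem : ∀ k, ys k ∈ W k := fun k => (happrox k (us k).1 (us k).2).choose_spec.1
  have hus_succ : ∀ k, (us (k + 1)).1 = (us k).1 / Φ (ys k) := fun k => rfl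
  have hus_zero : (us 0).1 = u₀ := rfl
  have hWmono : ∀ k, W k ≤ W 0 := by
    intro k
    induction k with
    | zero => exact le_rfl
    | succ k ih => exact (hW k).trans ih
  set P : ℕ → Rˣ := fun k => ∏ i ∈ Finset.range k, ys i with hP
  have hP_succ : ∀ k, P (k + 1) = P k * ys k := fun k => Finset.prod_range_succ _ _
  have hP_mem : ∀ k, P k ∈ W 0 := fun k =>
    Subgroup.prod_mem _ fun i _ => hWmono i (hys_mem i)
  have hΦP : ∀ k, Φ (P k) * (us k).1 = u₀ := by
    intro k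
    induction k with
    | zero => simp [hP, hus_zero]
    | succ k ih =>
      rw [hP_succ, map_mul, hus_succ, ← ih]
      rw [mul_assoc, mul_div_cancel]
  have hstep : ∀ k, ((P (k + 1) : Rˣ) : R) - P k ∈ I ^ (k + 1) := by
    intro k
    rw [hP_succ]
    have : ((P k * ys k : Rˣ) : R) - P k = (P k : R) * ((ys k : R) - 1) := by
      rw [Units.val_mul]; ring
    rw [this]
    exact Ideal.mul_mem_left _ _ (hW1 k _ (hys_mem k))
  have hcauchy : ∀ m n, m ≤ n → ((P m : Rˣ) : R) - P n ∈ I ^ m := by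
    intro m n hmn
    induction n, hmn using Nat.le_induction with
    | base => simp
    | succ n hmn ih =>
      have h1 : ((P m : Rˣ) : R) - P (n + 1) = ((P m : R) - P n) - ((P (n + 1) : R) - P n) := by ring
      rw [h1]
      refine Ideal.sub_mem _ ih ?_
      exact Ideal.pow_le_pow_right (by omega) (hstep n)
  obtain ⟨P', hP'⟩ := IsPrecomplete.prec (I := I) (M := R) inferInstance
    (f := fun k => ((P k : Rˣ) : R))
    (fun {m n} hmn => (smodEq_pow_iff' I).mpr (hcauchy m n hmn))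
  have hP'k : ∀ k, ((P k : Rˣ) : R) - P' ∈ I ^ k := fun k => (smodEq_pow_iff' I).mp (hP' k)
  have hP'1 : P' - 1 ∈ I := by
    have h1 : ((P 1 : Rˣ) : R) - P' ∈ I := by simpa using hP'k 1
    have h2 : ((P 1 : Rˣ) : R) - 1 ∈ I := by
      have : P 1 = ys 0 := by simp [hP]
      rw [this]
      simpa using hW1 0 _ (hys_mem 0)
    have : P' - 1 = (((P 1 : Rˣ) : R) - 1) - (((P 1 : Rˣ) : R) - P') := by ring
    rw [this]
    exact Ideal.sub_mem _ h2 h1
  obtain ⟨Pu, hPu⟩ := hunit P' hP'1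
  have hPuk : ∀ k, ((Pu : Rˣ) : R) - P k ∈ I ^ k := by
    intro k
    rw [hPu]
    have : P' - (P k : R) = -(((P k : Rˣ) : R) - P') := by ring
    rw [this]
    exact Ideal.neg_mem_iff _ |>.mpr (hP'k k)
  refine ⟨Pu, hclosed Pu fun k => ⟨P k, hP_mem k, hPuk k⟩, ?_⟩
  apply Units.ext
  rw [IsHausdorff.eq_iff_smodEq (I := I)]
  intro k
  rw [smodEq_pow_iff']
  have h1 : ((Φ Pu : Rˣ) : R) - Φ (P k) ∈ I ^ k := hΦ k _ _ (hPuk k)
  have h2 : ((Φ (P k) : Rˣ) : R) - u₀ ∈ I ^ k := by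
    have hu : (u₀ : R) = (Φ (P k) : R) * ((us k).1 : R) := by
      rw [← Units.val_mul, hΦP]
    rw [hu]
    have : ((Φ (P k) : Rˣ) : R) - (Φ (P k) : R) * ((us k).1 : R) =
        -((Φ (P k) : R) * (((us k).1 : R) - 1)) := by ring
    rw [this]
    refine (Ideal.neg_mem_iff _).mpr (Ideal.mul_mem_left _ _ ?_)
    exact Ideal.pow_le_pow_right (Nat.le_succ k) (hV1 k _ (us k).2)
  have : ((Φ Pu : Rˣ) : R) - u₀ = (((Φ Pu : Rˣ) : R) - Φ (P k)) + (((Φ (P k) : Rˣ) : R) - u₀) := by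
    ring
  rw [this]
  exact Ideal.add_mem _ h1 h2

end Approx

section PrincipalUnits

variable {R : Type*} [CommRing R] (I : Ideal R)

/-- units congruent to `1` modulo `I ^ n` -/
def princUnits (n : ℕ) : Subgroup Rˣ where
  carrier := {u | ((u : Rˣ) : R) - 1 ∈ I ^ n}
  one_mem' := by simp
  mul_mem' := by
    intro a b ha hb
    simp only [Set.mem_ofPred_eq] at ha hb ⊢
    have : ((a * b : Rˣ) : R) - 1 = (a : R) * ((b : R) - 1) + ((a : R) - 1) := by
      rw [Units.val_mul]; ring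
    rw [this]
    exact Ideal.add_mem _ (Ideal.mul_mem_left _ _ hb) ha
  inv_mem' := by
    intro a ha
    simp only [Set.mem_ofPred_eq] at ha ⊢
    have : ((a⁻¹ : Rˣ) : R) - 1 = -(((a⁻¹ : Rˣ) : R) * ((a : R) - 1)) := by
      have h : ((a⁻¹ : Rˣ) : R) * (a : R) = 1 := by rw [← Units.val_mul]; simp
      linear_combination h
    rw [this]
    exact (Ideal.neg_mem_iff _).mpr (Ideal.mul_mem_left _ _ ha)

theorem mem_princUnits {n : ℕ} {u : Rˣ} : u ∈ princUnits I n ↔ ((u : Rˣ) : R) - 1 ∈ I ^ n := Iff.rfl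

theorem princUnits_anti {m n : ℕ} (h : m ≤ n) : princUnits I n ≤ princUnits I m :=
  fun _ hu => Ideal.pow_le_pow_right h hu

theorem princUnits_zero : princUnits I 0 = ⊤ := by
  ext u; simp [mem_princUnits]

/-- `(1 + t) ^ n = 1 + n t + c t ^ 2` -/
theorem one_add_pow_expansion (t : R) (n : ℕ) : ∃ c : R, (1 + t) ^ n = 1 + n * t + c * t ^ 2 := by
  obtain ⟨c, hc⟩ := Polynomial.powAddExpansion (1 : R) t n
  exact ⟨c, by rw [hc]; simp⟩

variable {I} {p e : ℕ} (hp : Ideal.span {(p : R)} = I ^ e)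
include hp

theorem natCast_mul_mem_pow {t : R} {m : ℕ} (ht : t ∈ I ^ m) : (p : R) * t ∈ I ^ (m + e) := by
  rw [add_comm, pow_add, ← hp]
  exact Ideal.mem_span_singleton_mul.mpr ⟨t, ht, rfl⟩

theorem exists_natCast_mul_eq {a : R} {m : ℕ} (ha : a ∈ I ^ (m + e)) :
    ∃ t ∈ I ^ m, (p : R) * t = a := by
  rw [add_comm, pow_add, ← hp] at ha
  exact Ideal.mem_span_singleton_mul.mp ha

/-- the `p`-th power maps `1 + I ^ m` into `1 + I ^ (m + e)` when `e ≤ m` -/
theorem pow_mem_princUnits {m : ℕ} (hm : e ≤ m) {u : Rˣ} (hu : u ∈ princUnits I m) :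
    u ^ p ∈ princUnits I (m + e) := by
  rw [mem_princUnits] at hu ⊢
  obtain ⟨c, hc⟩ := one_add_pow_expansion ((u : R) - 1) p
  have h1 : ((u ^ p : Rˣ) : R) - 1 = p * ((u : R) - 1) + c * ((u : R) - 1) ^ 2 := by
    rw [Units.val_pow_eq_pow_val]
    have : (u : R) = 1 + ((u : R) - 1) := by ring
    conv_lhs => rw [this, hc]
    ring
  rw [h1]
  refine Ideal.add_mem _ (natCast_mul_mem_pow hp hu) (Ideal.mul_mem_left _ _ ?_)
  have : ((u : R) - 1) ^ 2 ∈ I ^ (m * 2) := by
    rw [pow_mul]; exact Ideal.pow_mem_pow hu 2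
  exact Ideal.pow_le_pow_right (by omega) this

/-- one approximation step -/
theorem exists_approx_step (hunit : ∀ x : R, x - 1 ∈ I → IsUnit x) {m : ℕ} (hm : e + 1 ≤ m)
    (k : ℕ) {u : Rˣ} (hu : u ∈ princUnits I (m + e + k)) :
    ∃ y ∈ princUnits I (m + k), u / y ^ p ∈ princUnits I (m + e + (k + 1)) := by
  rw [mem_princUnits] at hu
  have hu' : (u : R) - 1 ∈ I ^ ((m + k) + e) := by
    have : m + e + k = (m + k) + e := by omega
    rwa [this] at hu
  obtain ⟨t, ht, hpt⟩ := exists_natCast_mul_eq hp hu'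
  have htI : t ∈ I := Ideal.pow_le_self (by omega) ht
  obtain ⟨y, hy⟩ := hunit (1 + t) (by simpa using htI)
  have hyt : (y : R) - 1 = t := by rw [hy]; ring
  refine ⟨y, by rw [mem_princUnits, hyt]; exact ht, ?_⟩
  rw [mem_princUnits]
  obtain ⟨c, hc⟩ := one_add_pow_expansion t p
  have h1 : ((u / y ^ p : Rˣ) : R) - 1 = (((y ^ p)⁻¹ : Rˣ) : R) * ((u : R) - (y : R) ^ p) := by
    have h : (((y ^ p)⁻¹ : Rˣ) : R) * ((y : R) ^ p) = 1 := by
      rw [← Units.val_pow_eq_pow_val, ← Units.val_mul]; simp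
    rw [div_eq_mul_inv, Units.val_mul]
    linear_combination h
  have h2 : (u : R) - (y : R) ^ p = -(c * t ^ 2) := by
    rw [hy, hc]
    linear_combination -hpt
  rw [h1, h2]
  refine Ideal.mul_mem_left _ _ ((Ideal.neg_mem_iff _).mpr (Ideal.mul_mem_left _ _ ?_))
  have : t ^ 2 ∈ I ^ ((m + k) * 2) := by
    rw [pow_mul]; exact Ideal.pow_mem_pow ht 2
  exact Ideal.pow_le_pow_right (by omega) this

/-- **surjectivity**: every element of `1 + I ^ (m + e)` is a `p`-th power of an element of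
`1 + I ^ m`, for `m ≥ e + 1`. -/
theorem exists_pow_eq_of_mem_princUnits [IsAdicComplete I R]
    (hunit : ∀ x : R, x - 1 ∈ I → IsUnit x) {m : ℕ} (hm : e + 1 ≤ m)
    {u : Rˣ} (hu : u ∈ princUnits I (m + e)) : ∃ x ∈ princUnits I m, x ^ p = u := by
  have := exists_preimage_of_approx_two I hunit (fun k => princUnits I (m + k))
    (fun k => princUnits I (m + e + k)) (fun k => princUnits_anti I (by omega))
    (fun k w hw => Ideal.pow_le_pow_right (by omega) hw)
    (fun k w hw => Ideal.pow_le_pow_right (by omega) hw)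
    (fun z hz => by
      obtain ⟨w, hw, hzw⟩ := hz m
      rw [mem_princUnits] at hw ⊢
      have : (z : R) - 1 = ((z : R) - w) + ((w : R) - 1) := by ring
      rw [this]
      exact Ideal.add_mem _ hzw hw)
    (powMonoidHom p)
    (fun k x y hxy => by
      simp only [powMonoidHom_apply, Units.val_pow_eq_pow_val]
      obtain ⟨c, hc⟩ := sub_dvd_pow_sub_pow (x : R) (y : R) p
      rw [hc]
      exact Ideal.mul_mem_right _ _ hxy)
    (fun k u hu => by
      obtain ⟨y, hy, hy'⟩ := exists_approx_step hp hunit hm k hu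
      exact ⟨y, hy, hy'⟩)
    u hu
  obtain ⟨x, hx, hxu⟩ := this
  exact ⟨x, hx, hxu⟩

omit hp in
/-- **injectivity**: no nontrivial `p`-torsion in `1 + I ^ (e + 1)`. -/
theorem eq_one_of_pow_eq_one [IsDomain R] (hpe : (p : R) ∉ I ^ (e + 1))
    {x : Rˣ} (hx : x ∈ princUnits I (e + 1)) (hxp : x ^ p = 1) : x = 1 := by
  rw [mem_princUnits] at hx
  obtain ⟨c, hc⟩ := one_add_pow_expansion ((x : R) - 1) p
  have h1 : ((x : R) - 1) * (p + c * ((x : R) - 1)) = 0 := by
    have hx1 : (x : R) ^ p = 1 := by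
      rw [← Units.val_pow_eq_pow_val, hxp]; rfl
    have : (x : R) = 1 + ((x : R) - 1) := by ring
    rw [this] at hx1
    linear_combination hx1 - hc
  rcases mul_eq_zero.mp h1 with h | h
  · apply Units.ext
    simpa [sub_eq_zero] using h
  · exfalso
    apply hpe
    have : (p : R) = -(c * ((x : R) - 1)) := by linear_combination h
    rw [this]
    exact (Ideal.neg_mem_iff _).mpr (Ideal.mul_mem_left _ _ hx)

end PrincipalUnits

section Index

variable {R : Type*} [CommRing R] {ϖ : R}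

theorem exists_eq_mul_of_mem_princUnits {m : ℕ} {u : Rˣ} (hu : u ∈ princUnits (Ideal.span {ϖ}) m) :
    ∃ s : R, s * ϖ ^ m = (u : R) - 1 := by
  rw [mem_princUnits, Ideal.span_singleton_pow] at hu
  exact Ideal.mem_span_singleton'.mp hu

/-- `(u - 1) / ϖ ^ m` for a principal unit of level `m` -/
noncomputable def princQuot {m : ℕ} (u : princUnits (Ideal.span {ϖ}) m) : R :=
  (exists_eq_mul_of_mem_princUnits u.2).choose

theorem princQuot_spec {m : ℕ} (u : princUnits (Ideal.span {ϖ}) m) :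
    princQuot u * ϖ ^ m = ((u : Rˣ) : R) - 1 :=
  (exists_eq_mul_of_mem_princUnits u.2).choose_spec

variable [IsDomain R] (hϖ : ϖ ≠ 0)

include hϖ in
theorem princQuot_mul {m : ℕ} (u v : princUnits (Ideal.span {ϖ}) m) :
    princQuot (u * v) = princQuot u + princQuot v + ϖ ^ m * princQuot u * princQuot v := by
  have h1 := princQuot_spec u
  have h2 := princQuot_spec v
  have h3 := princQuot_spec (u * v)
  have hne : ϖ ^ m ≠ 0 := pow_ne_zero _ hϖ
  apply mul_right_cancel₀ hne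
  rw [h3]
  simp only [Subgroup.coe_mul, Units.val_mul]
  linear_combination (-(1 + princQuot u * ϖ ^ m)) * h2 - (((v : Rˣ) : R)) * h1

/-- the homomorphism `1 + (ϖ ^ m) → R / (ϖ ^ e)`, `u ↦ (u - 1) / ϖ ^ m`, for `e ≤ m` -/
noncomputable def princHom {m e : ℕ} (hme : e ≤ m) :
    princUnits (Ideal.span {ϖ}) m →* Multiplicative (R ⧸ (Ideal.span {ϖ}) ^ e) where
  toFun u := Multiplicative.ofAdd (Ideal.Quotient.mk _ (princQuot u))
  map_one' := by
    have h := princQuot_spec (1 : princUnits (Ideal.span {ϖ}) m)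
    simp only [OneMemClass.coe_one, Units.val_one, sub_self, mul_eq_zero] at h
    rcases h with h | h
    · rw [h]; simp
    · exact absurd h (pow_ne_zero _ hϖ)
  map_mul' := by
    intro u v
    rw [← ofAdd_add, ← map_add, princQuot_mul hϖ]
    congr 1
    rw [Ideal.Quotient.eq]
    have : princQuot u + princQuot v + ϖ ^ m * princQuot u * princQuot v -
        (princQuot u + princQuot v) = ϖ ^ m * (princQuot u * princQuot v) := by ring
    rw [this, Ideal.span_singleton_pow]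
    refine Ideal.mul_mem_right _ _ ?_
    rw [Ideal.mem_span_singleton]
    exact pow_dvd_pow _ hme

theorem princHom_apply {m e : ℕ} (hme : e ≤ m) (u : princUnits (Ideal.span {ϖ}) m) :
    princHom hϖ hme u = Multiplicative.ofAdd (Ideal.Quotient.mk _ (princQuot u)) := rfl

theorem princHom_ker {m e : ℕ} (hme : e ≤ m) :
    (princHom hϖ hme).ker =
      (princUnits (Ideal.span {ϖ}) (m + e)).subgroupOf (princUnits (Ideal.span {ϖ}) m) := by
  ext u
  rw [MonoidHom.mem_ker, princHom_apply, Subgroup.mem_subgroupOf, mem_princUnits,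
    ← princQuot_spec u]
  have h0 : Multiplicative.ofAdd (Ideal.Quotient.mk (Ideal.span {ϖ} ^ e) (princQuot u)) = 1 ↔
      princQuot u ∈ Ideal.span {ϖ} ^ e := by
    rw [← Ideal.Quotient.eq_zero_iff_mem]; rfl
  rw [h0, Ideal.span_singleton_pow, Ideal.span_singleton_pow, Ideal.mem_span_singleton,
    Ideal.mem_span_singleton, pow_add, mul_comm (princQuot u)]
  exact (mul_dvd_mul_iff_left (pow_ne_zero _ hϖ)).symm

theorem princHom_surjective (hunit : ∀ x : R, x - 1 ∈ Ideal.span {ϖ} → IsUnit x) {m e : ℕ}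
    (hme : e ≤ m) (hm : 1 ≤ m) : Function.Surjective (princHom hϖ hme) := by
  intro y
  obtain ⟨s, hs⟩ := Ideal.Quotient.mk_surjective (Multiplicative.toAdd y)
  have hmem : ϖ ^ m * s ∈ Ideal.span {ϖ} := by
    rw [Ideal.mem_span_singleton]
    exact Dvd.dvd.mul_right (dvd_pow_self _ (by omega)) _
  obtain ⟨u, hu⟩ := hunit (1 + ϖ ^ m * s) (by simpa using hmem)
  have humem : u ∈ princUnits (Ideal.span {ϖ}) m := by
    rw [mem_princUnits, hu, Ideal.span_singleton_pow, Ideal.mem_span_singleton]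
    simp
  refine ⟨⟨u, humem⟩, ?_⟩
  rw [princHom_apply]
  have h1 := princQuot_spec (⟨u, humem⟩ : princUnits (Ideal.span {ϖ}) m)
  simp only [hu] at h1
  have h2 : princQuot (⟨u, humem⟩ : princUnits (Ideal.span {ϖ}) m) = s := by
    apply mul_right_cancel₀ (pow_ne_zero m hϖ)
    rw [h1]; ring
  rw [h2, hs]; rfl

include hϖ in
/-- `(1 + (ϖ ^ m) : 1 + (ϖ ^ (m + e))) = |R / (ϖ ^ e)|` for `e ≤ m`, `1 ≤ m`. -/
theorem relIndex_princUnits (hunit : ∀ x : R, x - 1 ∈ Ideal.span {ϖ} → IsUnit x) {m e : ℕ}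
    (hme : e ≤ m) (hm : 1 ≤ m) :
    (princUnits (Ideal.span {ϖ}) (m + e)).relIndex (princUnits (Ideal.span {ϖ}) m) =
      Nat.card (R ⧸ (Ideal.span {ϖ}) ^ e) := by
  rw [Subgroup.relIndex, ← princHom_ker hϖ hme, Subgroup.index_ker,
    MonoidHom.range_eq_top.mpr (princHom_surjective hϖ hunit hme hm)]
  rw [Nat.card_congr (Subgroup.topEquiv (G := Multiplicative (R ⧸ Ideal.span {ϖ} ^ e))).toEquiv]
  rfl

end Index

end Fermat.Agent.S55lib.SecondIneq
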