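/-
S55 sprint, block (IV) second inequality (helper1).
The index of the `n`-th powers in a commutative group and in a subgroup of finite index
(special case of helper6's Herbrand index calculus `LocalH/Herbrand.lean`).
-/
import Mathlib
import Fermat.Agent.S55lib.LocalH.Herbrand
import Fermat.Agent.S55lib.SecondIneq.Core

set_option autoImplicit false

namespace Fermat.Agent.S55lib.SecondIneq

open Fermat.Agent.S55lib.LocalH

variable {G : Type*} [CommGroup G]

/-- `|G[n]| · (B : Bⁿ) = (G : Gⁿ) · |B[n]|` for a subgroup `B` of finite index. -/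
theorem card_torsion_mul_relIndex_pow (n : ℕ) (B : Subgroup G) (hB : B.index ≠ 0) :
    Nat.card (powMonoidHom n : G →* G).ker * (B.map (powMonoidHom n)).relIndex B =
      (powSubgroup G n).index * Nat.card ↥(B ⊓ (powMonoidHom n : G →* G).ker) := by
  have h := hIdx_mul_of_index_ne_zero (f := (powMonoidHom n : G →* G)) (g := (1 : G →* G)) (B := B)
    (fun x => by simp) (fun x => by simp) (fun b hb => B.pow_mem hb n) (fun b _ => B.one_mem) hB
  have h1 : hIdx (powMonoidHom n : G →* G) (1 : G →* G) =
      Nat.card (powMonoidHom n : G →* G).ker := by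
    unfold hIdx
    rw [MonoidHom.range_one, Subgroup.relIndex_bot_left]
  have h2 : hIdxSub (1 : G →* G) (powMonoidHom n : G →* G) B =
      (B.map (powMonoidHom n)).relIndex B := by
    unfold hIdxSub
    rw [MonoidHom.ker_one, inf_top_eq]
  have h3 : hIdx (1 : G →* G) (powMonoidHom n : G →* G) = (powSubgroup G n).index := by
    unfold hIdx
    rw [MonoidHom.ker_one, Subgroup.relIndex_top_right]
    rfl
  have h4 : hIdxSub (powMonoidHom n : G →* G) (1 : G →* G) B =
      Nat.card ↥(B ⊓ (powMonoidHom n : G →* G).ker) := by
    unfold hIdxSub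
    have : B.map (1 : G →* G) = ⊥ := by
      ext x
      simp only [Subgroup.mem_map, MonoidHom.one_apply, Subgroup.mem_bot]
      constructor
      · rintro ⟨_, _, rfl⟩; rfl
      · rintro rfl; exact ⟨1, B.one_mem, rfl⟩
    rw [this, Subgroup.relIndex_bot_left]
  rw [h1, h2, h3, h4] at h
  exact h

end Fermat.Agent.S55lib.SecondIneq
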