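/-
S55 sprint, block (IV) second inequality (helper1).
LOCAL `p`-th power index, ring level: for a complete discrete valuation ring `R` with finite
residue field and a natural number `p` with `(p : R) ≠ 0`:
`(Rˣ : (Rˣ)^p) = |μ_p(R)| · |R / pR|`.
-/
import Mathlib
import Fermat.Agent.S55lib.SecondIneq.LocalPow
import Fermat.Agent.S55lib.SecondIneq.PowIndex

set_option autoImplicit false

namespace Fermat.Agent.S55lib.SecondIneq

open IsLocalRing

section

variable {R : Type*} [CommRing R] [IsDomain R]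

/-- principal units have finite index when the quotient ring is finite -/
theorem princUnits_index_ne_zero (I : Ideal R) (m : ℕ) [Finite (R ⧸ I ^ m)] :
    (princUnits I m).index ≠ 0 := by
  have hker : (princUnits I m) = (Units.map ((Ideal.Quotient.mk (I ^ m)) : R →* R ⧸ I ^ m)).ker := by
    ext u
    rw [MonoidHom.mem_ker, mem_princUnits, Units.ext_iff, Units.coe_map]
    simp only [MonoidHom.coe_coe, Units.val_one]
    rw [← map_one (Ideal.Quotient.mk (I ^ m)), Ideal.Quotient.eq]
  rw [hker, Subgroup.index_ker]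
  exact Nat.card_pos.ne'

/-- general form, for an ideal `I = (ϖ)` -/
theorem index_pow_units_of_span (I : Ideal R) [IsAdicComplete I R] {ϖ : R} (hϖ : ϖ ≠ 0)
    (hI : I = Ideal.span {ϖ}) (hunit : ∀ x : R, x - 1 ∈ I → IsUnit x) [Finite (R ⧸ I)]
    (p e : ℕ) (hp : Ideal.span {(p : R)} = I ^ e) (hpe : (p : R) ∉ I ^ (e + 1)) :
    (powSubgroup Rˣ p).index =
      Nat.card (powMonoidHom p : Rˣ →* Rˣ).ker * Nat.card (R ⧸ Ideal.span {(p : R)}) := by
  subst hI
  set I := Ideal.span {ϖ} with hIdef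
  have hfin : ∀ n, Finite (R ⧸ I ^ n) := fun n =>
    Ideal.finite_quotient_pow ⟨{ϖ}, by simp [hIdef]⟩ n
  set B := princUnits I (e + 1) with hB
  have hBidx : B.index ≠ 0 := princUnits_index_ne_zero I (e + 1)
  have h := card_torsion_mul_relIndex_pow p B hBidx
  have hmap : B.map (powMonoidHom p) = princUnits I (e + 1 + e) := by
    apply le_antisymm
    · rintro _ ⟨u, hu, rfl⟩
      exact pow_mem_princUnits hp (by omega) hu
    · intro u hu
      obtain ⟨x, hx, hxu⟩ := exists_pow_eq_of_mem_princUnits hp hunit (le_refl _) hu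
      exact ⟨x, hx, hxu⟩
  have hrel : (B.map (powMonoidHom p)).relIndex B = Nat.card (R ⧸ Ideal.span {(p : R)}) := by
    rw [hmap, hB, relIndex_princUnits hϖ hunit (by omega) (by omega), hp]
  have htor : Nat.card ↥(B ⊓ (powMonoidHom p : Rˣ →* Rˣ).ker) = 1 := by
    have : B ⊓ (powMonoidHom p : Rˣ →* Rˣ).ker = ⊥ := by
      rw [eq_bot_iff]
      rintro x ⟨hx1, hx2⟩
      rw [Subgroup.mem_bot]
      exact eq_one_of_pow_eq_one hpe hx1 (by simpa using hx2)
    rw [this]
    exact Subgroup.card_bot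
  rw [hrel, htor, mul_one] at h
  exact h.symm

theorem isUnit_of_sub_one_mem_maximalIdeal {R : Type*} [CommRing R] [IsLocalRing R] (x : R)
    (hx : x - 1 ∈ maximalIdeal R) : IsUnit x := by
  apply isUnit_of_mem_nonunits_one_sub_self
  have : 1 - x = -(x - 1) := by ring
  rw [this]
  exact (Ideal.neg_mem_iff _).mpr hx

/-- in a DVR, `(p) = 𝔪 ^ e` for some `e` when `p ≠ 0` -/
theorem exists_span_natCast_eq_pow [IsDiscreteValuationRing R] (p : ℕ) (hp0 : (p : R) ≠ 0) :
    ∃ e : ℕ, Ideal.span {(p : R)} = maximalIdeal R ^ e ∧ (p : R) ∉ maximalIdeal R ^ (e + 1) := by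
  obtain ⟨ϖ, hϖ⟩ := IsDiscreteValuationRing.exists_irreducible R
  have hI : maximalIdeal R = Ideal.span {ϖ} := hϖ.maximalIdeal_eq
  obtain ⟨e, u, hpu⟩ := IsDiscreteValuationRing.eq_unit_mul_pow_irreducible hp0 hϖ
  refine ⟨e, ?_, ?_⟩
  · rw [hI, Ideal.span_singleton_pow, hpu]
    exact Ideal.span_singleton_eq_span_singleton.mpr
      (Associated.symm ⟨u, by rw [mul_comm]⟩)
  · rw [hI, Ideal.span_singleton_pow, Ideal.mem_span_singleton, hpu]
    intro hdvd
    rw [pow_succ, mul_comm (u : R)] at hdvd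
    have h1 : ϖ ∣ (u : R) := (mul_dvd_mul_iff_left (pow_ne_zero e hϖ.ne_zero)).mp hdvd
    exact hϖ.not_isUnit (isUnit_of_dvd_unit h1 u.isUnit)

variable [IsDiscreteValuationRing R] [IsAdicComplete (maximalIdeal R) R]

/-- principal units of high level are `p`-th powers -/
theorem exists_princUnits_le_pow (p : ℕ) (hp0 : (p : R) ≠ 0) :
    ∃ N : ℕ, ∀ u ∈ princUnits (maximalIdeal R) N, ∃ x : Rˣ, x ^ p = u := by
  obtain ⟨e, hspan, -⟩ := exists_span_natCast_eq_pow p hp0
  refine ⟨e + 1 + e, fun u hu => ?_⟩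
  obtain ⟨x, -, hx⟩ := exists_pow_eq_of_mem_princUnits hspan
    isUnit_of_sub_one_mem_maximalIdeal (le_refl _) hu
  exact ⟨x, hx⟩

variable [Finite (ResidueField R)]

/-- **The index of the `p`-th powers in the units of a complete DVR with finite residue field.** -/
theorem index_pow_units (p : ℕ) (hp0 : (p : R) ≠ 0) :
    (powSubgroup Rˣ p).index =
      Nat.card (powMonoidHom p : Rˣ →* Rˣ).ker * Nat.card (R ⧸ Ideal.span {(p : R)}) := by
  obtain ⟨ϖ, hϖ⟩ := IsDiscreteValuationRing.exists_irreducible R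
  have hI : maximalIdeal R = Ideal.span {ϖ} := hϖ.maximalIdeal_eq
  obtain ⟨e, hspan, hpe⟩ := exists_span_natCast_eq_pow p hp0
  haveI : Finite (R ⧸ maximalIdeal R) := inferInstanceAs (Finite (ResidueField R))
  exact index_pow_units_of_span (maximalIdeal R) hϖ.ne_zero hI
    isUnit_of_sub_one_mem_maximalIdeal p e hspan hpe

end

end Fermat.Agent.S55lib.SecondIneq
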