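/-
S55 sprint, block (IV) second inequality (helper1).
LOCAL `p`-th power index, field level: `F` a field with a valuation subring `𝒪` which is a complete
DVR with finite residue field (helper6's bundle), `p` a natural number with `(p : F) ≠ 0`:
`(Fˣ : (Fˣ)^p) = p · |μ_p(F)| · |𝒪 / p𝒪|`, and `(U : U ∩ (Fˣ)^p) = |μ_p(F)| · |𝒪 / p𝒪|`.
-/
import Mathlib
import Fermat.Agent.S55lib.LocalH.Ord
import Fermat.Agent.S55lib.SecondIneq.LocalUnitsPow

set_option autoImplicit false

namespace Fermat.Agent.S55lib.SecondIneq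

open Fermat.Agent.S55lib.LocalH

section Group

variable {G : Type*} [CommGroup G]

/-- a subgroup `E` closed under extraction of `p`-th roots: `(E : E ∩ G^p) = (E : E^p)` -/
theorem relIndex_powSubgroup_of_saturated (E : Subgroup G) (p : ℕ)
    (hsat : ∀ x : G, x ^ p ∈ E → x ∈ E) :
    (powSubgroup G p).relIndex E = (powSubgroup E p).index := by
  rw [powSubgroup_subtype_index, ← Subgroup.inf_relIndex_right (powSubgroup G p) E]
  congr 1
  ext x
  rw [Subgroup.mem_inf, mem_powSubgroup, Subgroup.mem_map]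
  constructor
  · rintro ⟨⟨y, rfl⟩, hx⟩
    exact ⟨y, hsat y hx, rfl⟩
  · rintro ⟨y, hy, rfl⟩
    exact ⟨⟨y, rfl⟩, E.pow_mem hy p⟩

/-- a group with a surjective "valuation" onto `ℤ`: `(G : G^p) = (ker : ker ∩ G^p) · p` -/
theorem index_powSubgroup_of_ord (ord : G →* Multiplicative ℤ) (hsurj : Function.Surjective ord)
    (p : ℕ) :
    (powSubgroup G p).index = (powSubgroup G p).relIndex ord.ker * p := by
  have h1 : (powSubgroup G p).relIndex (ord.ker ⊔ powSubgroup G p) *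
      (ord.ker ⊔ powSubgroup G p).index = (powSubgroup G p).index :=
    Subgroup.relIndex_mul_index le_sup_right
  rw [Subgroup.relIndex_sup_right] at h1
  have h2 : ord.ker ⊔ powSubgroup G p =
      (Subgroup.zpowers (Multiplicative.ofAdd (p : ℤ))).comap ord := by
    apply le_antisymm
    · refine sup_le ?_ ?_
      · intro x hx
        rw [Subgroup.mem_comap, MonoidHom.mem_ker.mp hx]
        exact Subgroup.one_mem _
      · rintro _ ⟨y, rfl⟩
        rw [Subgroup.mem_comap, powMonoidHom_apply, map_pow, Subgroup.mem_zpowers_iff]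
        refine ⟨Multiplicative.toAdd (ord y), ?_⟩
        rw [← ofAdd_zsmul, smul_eq_mul, mul_comm, ← nsmul_eq_mul, ofAdd_nsmul]
        rfl
    · intro x hx
      rw [Subgroup.mem_comap, Subgroup.mem_zpowers_iff] at hx
      obtain ⟨k, hk⟩ := hx
      obtain ⟨y, hy⟩ := hsurj (Multiplicative.ofAdd k)
      have : x = (x / y ^ p) * y ^ p := by simp
      rw [this]
      refine Subgroup.mul_mem_sup ?_ ⟨y, rfl⟩
      rw [MonoidHom.mem_ker, map_div, map_pow, hy, ← hk, div_eq_one, ← ofAdd_zsmul, ← ofAdd_nsmul,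
        smul_eq_mul, nsmul_eq_mul, mul_comm]
  have h3 : ((Subgroup.zpowers (Multiplicative.ofAdd (p : ℤ))).comap ord).index = p := by
    rw [Subgroup.index_comap_of_surjective _ hsurj]
    have : (Subgroup.zpowers (Multiplicative.ofAdd (p : ℤ))).index =
        (AddSubgroup.zmultiples (p : ℤ)).index := by
      rw [← AddSubgroup.index_toSubgroup]
      congr 1
    rw [this, Int.index_zmultiples]
    simp
  rw [h2, h3] at h1
  exact h1.symm

theorem powSubgroup_index_congr {H : Type*} [CommGroup H] (e : G ≃* H) (n : ℕ) :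
    (powSubgroup G n).index = (powSubgroup H n).index := by
  rw [← Subgroup.index_map_equiv (powSubgroup G n) e]
  congr 1
  ext y
  rw [Subgroup.mem_map, mem_powSubgroup]
  constructor
  · rintro ⟨x, hx, rfl⟩
    obtain ⟨z, rfl⟩ := mem_powSubgroup.mp hx
    exact ⟨e z, by simp⟩
  · rintro ⟨z, rfl⟩
    refine ⟨e.symm z ^ n, mem_powSubgroup.mpr ⟨_, rfl⟩, by simp⟩

theorem card_ker_pow_congr {H : Type*} [CommGroup H] (e : G ≃* H) (n : ℕ) :
    Nat.card (powMonoidHom n : G →* G).ker = Nat.card (powMonoidHom n : H →* H).ker := by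
  refine Nat.card_congr (e.toEquiv.subtypeEquiv fun x => ?_)
  simp only [MonoidHom.mem_ker, powMonoidHom_apply, MulEquiv.toEquiv_eq_coe, MulEquiv.coe_toEquiv,
    ← map_pow]
  exact (e.map_eq_one_iff).symm

/-- the `n`-torsion of a subgroup containing all `n`-torsion -/
theorem card_ker_pow_subgroup (E : Subgroup G) (n : ℕ)
    (hE : (powMonoidHom n : G →* G).ker ≤ E) :
    Nat.card (powMonoidHom n : E →* E).ker = Nat.card (powMonoidHom n : G →* G).ker := by
  refine Nat.card_congr ⟨fun x => ⟨x.1.1, ?_⟩, fun x => ⟨⟨x.1, hE x.2⟩, ?_⟩, ?_, ?_⟩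
  · have := x.2
    simp only [MonoidHom.mem_ker, powMonoidHom_apply] at this ⊢
    exact_mod_cast congrArg Subtype.val this
  · have := x.2
    simp only [MonoidHom.mem_ker, powMonoidHom_apply] at this ⊢
    exact Subtype.ext this
  · intro x; rfl
  · intro x; rfl

end Group

section Field

variable {F : Type*} [Field F] (𝒪 : ValuationSubring F)

theorem mem_unitGroup_of_pow_mem {p : ℕ} (hp : 0 < p) (x : Fˣ) (hx : x ^ p ∈ 𝒪.unitGroup) :
    x ∈ 𝒪.unitGroup := by
  rw [ValuationSubring.mem_unitGroup_iff] at hx ⊢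
  rw [Units.val_pow_eq_pow_val, map_pow] at hx
  exact (pow_eq_one_iff_of_nonneg zero_le hp.ne').mp hx

variable [IsDiscreteValuationRing 𝒪] [IsAdicComplete (IsLocalRing.maximalIdeal 𝒪) 𝒪]
  [Finite (IsLocalRing.ResidueField 𝒪)]

/-- `(U : U ∩ (Fˣ)^p) = |μ_p(F)| · |𝒪 / p𝒪|` -/
theorem relIndex_pow_unitGroup (p : ℕ) (hp0 : (p : F) ≠ 0) :
    (powSubgroup Fˣ p).relIndex 𝒪.unitGroup =
      Nat.card (powMonoidHom p : Fˣ →* Fˣ).ker * Nat.card (𝒪 ⧸ Ideal.span {(p : 𝒪)}) := by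
  have hp : 0 < p := Nat.pos_of_ne_zero (by rintro rfl; simp at hp0)
  rw [relIndex_powSubgroup_of_saturated _ p (mem_unitGroup_of_pow_mem 𝒪 hp),
    powSubgroup_index_congr 𝒪.unitGroupMulEquiv p, index_pow_units p]
  · congr 1
    rw [← card_ker_pow_congr 𝒪.unitGroupMulEquiv p, card_ker_pow_subgroup]
    intro x hx
    apply mem_unitGroup_of_pow_mem 𝒪 hp
    rw [MonoidHom.mem_ker, powMonoidHom_apply] at hx
    rw [hx]; exact Subgroup.one_mem _
  · intro h
    apply hp0
    have := congrArg (Subtype.val : 𝒪 → F) h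
    simpa using this

/-- `(Fˣ : (Fˣ)^p) = |μ_p(F)| · |𝒪 / p𝒪| · p` -/
theorem index_pow_units_field (p : ℕ) (hp0 : (p : F) ≠ 0) :
    (powSubgroup Fˣ p).index =
      Nat.card (powMonoidHom p : Fˣ →* Fˣ).ker * Nat.card (𝒪 ⧸ Ideal.span {(p : 𝒪)}) * p := by
  rw [index_powSubgroup_of_ord (ordHom 𝒪) (ordHom_surjective 𝒪) p, ker_ordHom,
    relIndex_pow_unitGroup 𝒪 p hp0]

theorem card_ker_pow_of_primitiveRoot {p : ℕ} [NeZero p] {ζ : F} (h : IsPrimitiveRoot ζ p) :
    Nat.card (powMonoidHom p : Fˣ →* Fˣ).ker = p := by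
  have : (powMonoidHom p : Fˣ →* Fˣ).ker = rootsOfUnity p F := by
    ext x
    rw [MonoidHom.mem_ker, powMonoidHom_apply, mem_rootsOfUnity]
  rw [this, h.card_rootsOfUnity]

/-- with `μ_p ⊂ F`: `(Fˣ : (Fˣ)^p) = p² · |𝒪 / p𝒪|` -/
theorem index_pow_units_field_of_primitiveRoot {p : ℕ} [NeZero p] {ζ : F} (h : IsPrimitiveRoot ζ p)
    (hp0 : (p : F) ≠ 0) :
    (powSubgroup Fˣ p).index = p ^ 2 * Nat.card (𝒪 ⧸ Ideal.span {(p : 𝒪)}) := by
  rw [index_pow_units_field 𝒪 p hp0, card_ker_pow_of_primitiveRoot h]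
  ring

/-- with `μ_p ⊂ F` and `p` a unit of `𝒪`: `(U : U ∩ (Fˣ)^p) = p` -/
theorem relIndex_pow_unitGroup_of_isUnit {p : ℕ} [NeZero p] {ζ : F} (h : IsPrimitiveRoot ζ p)
    (hpu : IsUnit (p : 𝒪)) :
    (powSubgroup Fˣ p).relIndex 𝒪.unitGroup = p := by
  have hp0 : (p : F) ≠ 0 := by
    intro h0
    have : (p : 𝒪) = 0 := Subtype.ext (by simpa using h0)
    rw [this] at hpu
    exact not_isUnit_zero hpu
  rw [relIndex_pow_unitGroup 𝒪 p hp0, card_ker_pow_of_primitiveRoot h]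
  have : Ideal.span {(p : 𝒪)} = ⊤ := Ideal.span_singleton_eq_top.mpr hpu
  rw [this]
  have : Nat.card (𝒪 ⧸ (⊤ : Ideal 𝒪)) = 1 := by
    haveI : Subsingleton (𝒪 ⧸ (⊤ : Ideal 𝒪)) := Ideal.Quotient.subsingleton_iff.mpr rfl
    exact Nat.card_unique
  rw [this, mul_one]

end Field

end Fermat.Agent.S55lib.SecondIneq
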