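/-
S55 sprint, block (IV) second inequality (helper1).
The product of the local indices `(F_v^× : F_v^{×p})` over a finite set `S` of places containing
all places above `p`, for a number field `F ⊇ μ_p` with completion data:
`∏_{v ∈ S} (F_v^× : F_v^{×p}) = p ^ (2 |S| + [F : ℚ])`.
-/
import Mathlib
import Fermat.Agent.S55lib.SecondIneq.CompletionData
import Fermat.Agent.S55lib.SecondIneq.LocalFieldPow

set_option autoImplicit false

namespace Fermat.Agent.S55lib.SecondIneq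

open IsDedekindDomain HeightOneSpectrum NumberField IsLocalRing

/-- in a DVR an element of `𝔪 ^ e ∖ 𝔪 ^ (e + 1)` generates `𝔪 ^ e` -/
theorem span_eq_maximalIdeal_pow {R : Type*} [CommRing R] [IsDomain R] [IsDiscreteValuationRing R]
    {x : R} {e : ℕ} (h1 : x ∈ maximalIdeal R ^ e) (h2 : x ∉ maximalIdeal R ^ (e + 1)) :
    Ideal.span {x} = maximalIdeal R ^ e := by
  obtain ⟨ϖ, hϖ⟩ := IsDiscreteValuationRing.exists_irreducible R
  have hm : maximalIdeal R = Ideal.span {ϖ} := hϖ.maximalIdeal_eq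
  rw [hm, Ideal.span_singleton_pow] at h1 h2 ⊢
  rw [Ideal.mem_span_singleton] at h1 h2
  obtain ⟨c, rfl⟩ := h1
  have hcu : IsUnit c := by
    by_contra hnu
    apply h2
    have hcm : c ∈ maximalIdeal R := hnu
    rw [hm, Ideal.mem_span_singleton] at hcm
    obtain ⟨d, rfl⟩ := hcm
    exact ⟨d, by ring⟩
  exact Ideal.span_singleton_eq_span_singleton.mpr
    (Associated.symm ⟨hcu.unit, by simp⟩)

namespace CompletionData

variable {F : Type*} [Field F] [NumberField F] (D : CompletionData F)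

open scoped Classical in
theorem card_quot_span_natCast (v : HeightOneSpectrum (𝓞 F)) (p : ℕ) (hp : p ≠ 0) :
    Nat.card (D.𝒪v v ⧸ Ideal.span {(p : D.𝒪v v)}) =
      Ideal.absNorm (v.maxPowDividing (Ideal.span {(p : 𝓞 F)})) := by
  have hp0 : (p : 𝓞 F) ≠ 0 := Nat.cast_ne_zero.mpr hp
  set e := (Associates.mk v.asIdeal).count (Associates.mk (Ideal.span {(p : 𝓞 F)})).factors with he
  have hval : v.intValuation (p : 𝓞 F) = WithZero.exp (-(e : ℤ)) := v.intValuation_if_neg hp0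
  have h1 : (p : 𝓞 F) ∈ v.asIdeal ^ e := (v.intValuation_le_pow_iff_mem _ e).mp hval.le
  have h2 : (p : 𝓞 F) ∉ v.asIdeal ^ (e + 1) := by
    intro h
    have := (v.intValuation_le_pow_iff_mem _ (e + 1)).mpr h
    rw [hval, WithZero.exp_le_exp] at this
    push_cast at this
    omega
  have hcast : (p : D.𝒪v v) = D.embInt v (p : 𝓞 F) := (map_natCast (D.embInt v) p).symm
  have hspan : Ideal.span {(p : D.𝒪v v)} = maximalIdeal (D.𝒪v v) ^ e := by
    apply span_eq_maximalIdeal_pow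
    · rw [hcast, D.embInt_mem_pow_iff]; exact h1
    · rw [hcast, D.embInt_mem_pow_iff]; exact h2
  rw [hspan, D.card_quot_pow, Ideal.absNorm_apply, Submodule.cardQuot_apply]
  rfl

open scoped Classical in
theorem prod_card_quot_span_natCast (p : ℕ) (hp : p ≠ 0) (S : Finset (HeightOneSpectrum (𝓞 F)))
    (hS : ∀ v : HeightOneSpectrum (𝓞 F), (p : 𝓞 F) ∈ v.asIdeal → v ∈ S) :
    ∏ v ∈ S, Nat.card (D.𝒪v v ⧸ Ideal.span {(p : D.𝒪v v)}) = p ^ Module.finrank ℚ F := by
  have hp0 : (p : 𝓞 F) ≠ 0 := Nat.cast_ne_zero.mpr hp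
  have hI : Ideal.span {(p : 𝓞 F)} ≠ 0 := by
    rw [Ne, Ideal.zero_eq_bot, Ideal.span_singleton_eq_bot]; exact hp0
  rw [Finset.prod_congr rfl fun v _ => D.card_quot_span_natCast v p hp, ← map_prod]
  have hsupp : Function.mulSupport (fun v : HeightOneSpectrum (𝓞 F) =>
      v.maxPowDividing (Ideal.span {(p : 𝓞 F)})) ⊆ ↑S := by
    intro v hv
    rw [Function.mem_mulSupport] at hv
    apply hS v
    by_contra hmem
    apply hv
    have : (Associates.mk v.asIdeal).count (Associates.mk (Ideal.span {(p : 𝓞 F)})).factors = 0 := by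
      by_contra hne
      have hdvd := (Associates.count_ne_zero_iff_dvd hI v.irreducible).mp hne
      apply hmem
      have := Ideal.le_of_dvd hdvd
      exact this (Ideal.mem_span_singleton_self _)
    show v.asIdeal ^ _ = 1
    rw [this, pow_zero]
  rw [← finprod_eq_prod_of_mulSupport_subset _ hsupp,
    Ideal.finprod_heightOneSpectrum_factorization hI, Ideal.absNorm_span_natCast,
    RingOfIntegers.rank]

theorem natCast_emb_ne_zero (v : HeightOneSpectrum (𝓞 F)) (p : ℕ) (hp : p ≠ 0) :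
    (p : D.Fv v) ≠ 0 := by
  rw [← map_natCast (D.emb v), Ne, map_eq_zero]
  exact Nat.cast_ne_zero.mpr hp

/-- **`∏_{v ∈ S} (F_v^× : F_v^{×p}) = p ^ (2 |S| + [F : ℚ])`** for `μ_p ⊂ F`, `S ⊇ {v ∣ p}`. -/
theorem prod_index_pow (p : ℕ) [hp : Fact p.Prime] {ζ : F} (hζ : IsPrimitiveRoot ζ p)
    (S : Finset (HeightOneSpectrum (𝓞 F)))
    (hS : ∀ v : HeightOneSpectrum (𝓞 F), (p : 𝓞 F) ∈ v.asIdeal → v ∈ S) :
    ∏ v ∈ S, (powSubgroup (D.Fv v)ˣ p).index = p ^ (2 * S.card + Module.finrank ℚ F) := by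
  haveI : NeZero p := ⟨hp.out.ne_zero⟩
  have h1 : ∀ v ∈ S, (powSubgroup (D.Fv v)ˣ p).index =
      p ^ 2 * Nat.card (D.𝒪v v ⧸ Ideal.span {(p : D.𝒪v v)}) := by
    intro v _
    exact index_pow_units_field_of_primitiveRoot (D.𝒪v v)
      (hζ.map_of_injective (D.emb v).injective) (D.natCast_emb_ne_zero v p hp.out.ne_zero)
  rw [Finset.prod_congr rfl h1, Finset.prod_mul_distrib, Finset.prod_const,
    D.prod_card_quot_span_natCast p hp.out.ne_zero S hS, ← pow_mul, ← pow_add]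

/-- `(U_v : U_v ∩ F_v^{×p}) = p` for `μ_p ⊂ F` and `v ∤ p`. -/
theorem relIndex_pow_U (p : ℕ) [hp : Fact p.Prime] {ζ : F} (hζ : IsPrimitiveRoot ζ p)
    (v : HeightOneSpectrum (𝓞 F)) (hv : (p : 𝓞 F) ∉ v.asIdeal) :
    (powSubgroup (D.Fv v)ˣ p).relIndex (D.U v) = p := by
  haveI : NeZero p := ⟨hp.out.ne_zero⟩
  apply relIndex_pow_unitGroup_of_isUnit (D.𝒪v v) (hζ.map_of_injective (D.emb v).injective)
  have hcast : (p : D.𝒪v v) = D.embInt v (p : 𝓞 F) := (map_natCast (D.embInt v) p).symm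
  rw [hcast]
  by_contra hnu
  exact hv ((D.embInt_mem_maximalIdeal_iff v _).mp hnu)

end CompletionData

end Fermat.Agent.S55lib.SecondIneq
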