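/-
S55 sprint, block (IV) second inequality (helper1).
ABSTRACT form of the key lemma `E ∩ K^× = (K_{S ∪ T})^p`:
a global element which is a local `p`-th power at all `v ∈ S` and a unit outside `S ∪ T`
is a global `p`-th power, provided the FIRST INEQUALITY holds for the Kummer extension it generates
and the `S`-units surject onto `∏_{v ∈ T} U_v / U_v^p`.
-/
import Mathlib
import Fermat.Agent.S55lib.SecondIneq.Core

set_option autoImplicit false

namespace Fermat.Agent.S55lib.SecondIneq

open scoped Classical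

variable {Kx : Type*} [CommGroup Kx] {ι : Type*} {Kv : ι → Type*} [∀ v, CommGroup (Kv v)]

/-- The abstract key lemma.  `Nrm a v` plays the role of the group of local norms at `v` from the
Kummer extension `K(a^{1/p})`; `FI a` is the first inequality for that extension. -/
theorem key_lemma
    (U : ∀ v, Subgroup (Kv v)) (loc : ∀ v, Kx →* Kv v)
    (hloc : ∀ a : Kx, {v | loc v a ∉ U v}.Finite)
    (p : ℕ) (S T : Finset ι) (hST : Disjoint S T)
    (Nrm : Kx → ∀ v, Subgroup (Kv v))
    -- local facts on norm groups of Kummer extensions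
    (ha : ∀ (a : Kx) (v : ι), loc v a ∈ powSubgroup (Kv v) p → Nrm a v = ⊤)
    (hb : ∀ (a : Kx) (v : ι), powSubgroup (Kv v) p ≤ Nrm a v)
    (hc : ∀ (a : Kx) (v : ι), v ∉ S → loc v a ∈ U v → U v ≤ Nrm a v)
    -- the first inequality (consequence)
    (FI : ∀ a : Kx, a ∉ powSubgroup Kx p →
      ¬ idele U ≤ principal loc ⊔ localCond U (Nrm a))
    -- the class group is generated by S
    (h4 : idele U ≤ principal loc ⊔ ideleS U S)
    -- the S-units surject onto ∏_{v ∈ T} U_v / U_v^p
    (hsurj : ∀ y : ∀ v, Kv v, (∀ v ∈ T, y v ∈ U v) →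
      ∃ u ∈ unitsS U loc S, ∀ v ∈ T, y v / loc v u ∈ powSubgroup (Kv v) p) :
    ∀ a : Kx, (∀ v ∈ S, loc v a ∈ powSubgroup (Kv v) p) →
      (∀ v, v ∉ S → v ∉ T → loc v a ∈ U v) → a ∈ powSubgroup Kx p := by
  intro a haS haU
  by_contra hnot
  apply FI a hnot
  intro y hy
  obtain ⟨x, hx, z, hz, rfl⟩ := Subgroup.mem_sup.mp (h4 hy)
  obtain ⟨c, rfl⟩ := hx
  have hzT : ∀ v ∈ T, z v ∈ U v := fun v hv =>
    hz v (fun hvS => (Finset.disjoint_left.mp hST hvS) hv)
  obtain ⟨u, hu, huT⟩ := hsurj z hzT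
  rw [Subgroup.mem_sup]
  refine ⟨MonoidHom.pi loc (c * u), ⟨c * u, rfl⟩, z / MonoidHom.pi loc u, ?_, ?_⟩
  · rw [mem_localCond]
    refine ⟨?_, fun v => ?_⟩
    · exact Subgroup.div_mem _ (ideleS_le_idele U S hz) (principal_le_idele hloc ⟨u, rfl⟩)
    · by_cases hvS : v ∈ S
      · rw [ha a v (haS v hvS)]; trivial
      · by_cases hvT : v ∈ T
        · exact hb a v (huT v hvT)
        · apply hc a v hvS (haU v hvS hvT)
          simp only [Pi.div_apply, MonoidHom.pi_apply]
          exact Subgroup.div_mem _ (hz v hvS) (hu v hvS)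
  · rw [map_mul]
    simp only [mul_assoc, mul_div_cancel]

end Fermat.Agent.S55lib.SecondIneq
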