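/-
S55 sprint, block (IV) second inequality (helper1).
ABSTRACT separation lemma: for `L = K(a^{1/p})` and an `S`-unit `b` of `K` which is not a `p`-th power
in `L`, there is a place `v ∉ S` of `K` at which `a` is a `p`-th power but `b` is not.
Inputs: the first inequality over `L` (for `L(b^{1/p})/L`), weak approximation for `L` at the places
above `S`, and the local fact that a non-`p`-th-power unit generates `U_v / U_v^p`.
-/
import Mathlib
import Fermat.Agent.S55lib.SecondIneq.Core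

set_option autoImplicit false

namespace Fermat.Agent.S55lib.SecondIneq

open scoped Classical

variable {Kx : Type*} [CommGroup Kx] {ι : Type*} {Kv : ι → Type*} [∀ v, CommGroup (Kv v)]
variable {Lx : Type*} [CommGroup Lx] {κ : Type*} {Lw : κ → Type*} [∀ w, CommGroup (Lw w)]

theorem exists_separating_place
    (U : ∀ v, Subgroup (Kv v)) (loc : ∀ v, Kx →* Kv v)
    (UL : ∀ w, Subgroup (Lw w)) (locL : ∀ w, Lx →* Lw w)
    (hlocL : ∀ a : Lx, {w | locL w a ∉ UL w}.Finite)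
    (incl : Kx →* Lx) (r : κ → ι) (j : ∀ w, Kv (r w) →* Lw w)
    (hj : ∀ (w : κ) (x : Kx), j w (loc (r w) x) = locL w (incl x))
    (p : ℕ) (S : Finset ι) (SL : Finset κ) (hSL : ∀ w, w ∈ SL ↔ r w ∈ S)
    (NrmL : Lx → ∀ w, Subgroup (Lw w))
    (haL : ∀ (b : Lx) (w : κ), locL w b ∈ powSubgroup (Lw w) p → NrmL b w = ⊤)
    (hbL : ∀ (b : Lx) (w : κ), powSubgroup (Lw w) p ≤ NrmL b w)
    (FIL : ∀ b : Lx, b ∉ powSubgroup Lx p →
      ¬ idele UL ≤ principal locL ⊔ localCond UL (NrmL b))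
    (hweak : ∀ y : ∀ w, Lw w, y ∈ idele UL →
      ∃ c : Lx, ∀ w ∈ SL, y w / locL w c ∈ powSubgroup (Lw w) p)
    (hcyc : ∀ v, v ∉ S → ∀ g : Kv v, g ∈ U v → g ∉ powSubgroup (Kv v) p →
      ∀ u ∈ U v, ∃ (n : ℕ) (c : Kv v), u = g ^ n * c ^ p)
    (a b : Kx) (α : Lx) (hα : α ^ p = incl a)
    (haS : a ∈ unitsS U loc S) (hbS : b ∈ unitsS U loc S)
    (hbL' : incl b ∉ powSubgroup Lx p) :
    ∃ v, v ∉ S ∧ loc v a ∈ powSubgroup (Kv v) p ∧ loc v b ∉ powSubgroup (Kv v) p := by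
  -- a place of L outside SL where b is not a p-th power
  have hw : ∃ w, w ∉ SL ∧ locL w (incl b) ∉ powSubgroup (Lw w) p := by
    by_contra hcon
    simp only [not_exists, not_and, not_not] at hcon
    apply FIL (incl b) hbL'
    intro y hy
    obtain ⟨c, hc⟩ := hweak y hy
    rw [Subgroup.mem_sup]
    refine ⟨MonoidHom.pi locL c, ⟨c, rfl⟩, y / MonoidHom.pi locL c, ?_, by simp⟩
    rw [mem_localCond]
    refine ⟨Subgroup.div_mem _ hy (principal_le_idele hlocL ⟨c, rfl⟩), fun w => ?_⟩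
    by_cases hwS : w ∈ SL
    · exact hbL _ w (hc w hwS)
    · rw [haL _ w (hcon w hwS)]; trivial
  obtain ⟨w, hwS, hwb⟩ := hw
  have hvS : r w ∉ S := fun h => hwS ((hSL w).mpr h)
  refine ⟨r w, hvS, ?_, ?_⟩
  · -- a is a local p-th power, otherwise b becomes a p-th power in L_w
    by_contra hna
    obtain ⟨n, c, hnc⟩ := hcyc (r w) hvS (loc (r w) a) (haS (r w) hvS) hna (loc (r w) b) (hbS (r w) hvS)
    apply hwb
    rw [mem_powSubgroup]
    refine ⟨locL w α ^ n * j w c, ?_⟩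
    rw [← hj, hnc, map_mul, map_pow, map_pow, hj, ← hα, map_pow, mul_pow, ← pow_mul, ← pow_mul,
      mul_comm n p]
  · intro hb
    obtain ⟨y, hy⟩ := mem_powSubgroup.mp hb
    apply hwb
    rw [mem_powSubgroup]
    exact ⟨j w y, by rw [← map_pow, hy, hj]⟩

end Fermat.Agent.S55lib.SecondIneq
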