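/-
S55 sprint, block (IV) second inequality (helper1).
ASSEMBLY of the abstract second inequality in the Kummer case:
Core + KeyLemma + Separation + ChooseT.
-/
import Mathlib
import Fermat.Agent.S55lib.SecondIneq.Core
import Fermat.Agent.S55lib.SecondIneq.KeyLemma
import Fermat.Agent.S55lib.SecondIneq.Separation
import Fermat.Agent.S55lib.SecondIneq.ChooseT

set_option autoImplicit false

namespace Fermat.Agent.S55lib.SecondIneq

open scoped Classical

variable {Kx : Type*} [CommGroup Kx] {ι : Type*} {Kv : ι → Type*} [∀ v, CommGroup (Kv v)]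
variable {Lx : Type*} [CommGroup Lx] {κ : Type*} {Lw : κ → Type*} [∀ w, CommGroup (Lw w)]

/-- the character `E_S → U_v / (U_v ∩ K_v^p)` at a place `v ∉ S` -/
noncomputable def unitChar (U : ∀ v, Subgroup (Kv v)) (loc : ∀ v, Kx →* Kv v) (S : Finset ι) (p : ℕ)
    (v : {v : ι // v ∉ S}) :
    (unitsS U loc S) →* (U v.1 ⧸ (powSubgroup (Kv v.1) p).subgroupOf (U v.1)) :=
  (QuotientGroup.mk' _).comp
    { toFun := fun w => ⟨loc v.1 w.1, w.2 v.1 v.2⟩
      map_one' := by ext; simp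
      map_mul' := by intro x y; ext; simp }

theorem unitChar_eq_one_iff (U : ∀ v, Subgroup (Kv v)) (loc : ∀ v, Kx →* Kv v) (S : Finset ι) (p : ℕ)
    (v : {v : ι // v ∉ S}) (w : unitsS U loc S) :
    unitChar U loc S p v w = 1 ↔ loc v.1 w.1 ∈ powSubgroup (Kv v.1) p := by
  rw [unitChar, MonoidHom.comp_apply, QuotientGroup.mk'_apply, QuotientGroup.eq_one_iff,
    Subgroup.mem_subgroupOf]
  rfl

/-- **The abstract second inequality, Kummer case.** -/
theorem second_inequality_abstract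
    (U : ∀ v, Subgroup (Kv v)) (loc : ∀ v, Kx →* Kv v)
    (hloc : ∀ a : Kx, {v | loc v a ∉ U v}.Finite)
    (hinj : Function.Injective (MonoidHom.pi loc))
    (UL : ∀ w, Subgroup (Lw w)) (locL : ∀ w, Lx →* Lw w)
    (hlocL : ∀ a : Lx, {w | locL w a ∉ UL w}.Finite)
    (incl : Kx →* Lx) (r : κ → ι) (j : ∀ w, Kv (r w) →* Lw w)
    (hj : ∀ (w : κ) (x : Kx), j w (loc (r w) x) = locL w (incl x))
    (p : ℕ) [hp : Fact p.Prime] (s : ℕ) (S : Finset ι) (SL : Finset κ) (hSL : ∀ w, w ∈ SL ↔ r w ∈ S)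
    -- local norm groups of Kummer extensions of `K`, first inequality over `K`
    (Nrm : Kx → ∀ v, Subgroup (Kv v))
    (ha : ∀ (a : Kx) (v : ι), loc v a ∈ powSubgroup (Kv v) p → Nrm a v = ⊤)
    (hb : ∀ (a : Kx) (v : ι), powSubgroup (Kv v) p ≤ Nrm a v)
    (hc : ∀ (a : Kx) (v : ι), v ∉ S → loc v a ∈ U v → U v ≤ Nrm a v)
    (FI : ∀ a : Kx, a ∉ powSubgroup Kx p →
      ¬ idele U ≤ principal loc ⊔ localCond U (Nrm a))
    -- the same over `L`
    (NrmL : Lx → ∀ w, Subgroup (Lw w))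
    (haL : ∀ (b : Lx) (w : κ), locL w b ∈ powSubgroup (Lw w) p → NrmL b w = ⊤)
    (hbL : ∀ (b : Lx) (w : κ), powSubgroup (Lw w) p ≤ NrmL b w)
    (FIL : ∀ b : Lx, b ∉ powSubgroup Lx p →
      ¬ idele UL ≤ principal locL ⊔ localCond UL (NrmL b))
    (hweak : ∀ y : ∀ w, Lw w, y ∈ idele UL →
      ∃ c : Lx, ∀ w ∈ SL, y w / locL w c ∈ powSubgroup (Lw w) p)
    -- arithmetic of `K`
    (h4 : idele U ≤ principal loc ⊔ ideleS U S)
    (h5 : ∏ v ∈ S, (powSubgroup (Kv v) p).index = p ^ (2 * s))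
    (hunits : ∀ T : Finset ι, Disjoint S T →
      ((unitsS U loc (S ∪ T)).map (powMonoidHom p)).relIndex (unitsS U loc (S ∪ T))
        = p ^ (s + T.card))
    (h9 : ∀ v, ∀ x : Kv v, x ^ p ∈ U v → x ∈ U v)
    (hUcard : ∀ v, v ∉ S → (powSubgroup (Kv v) p).relIndex (U v) = p)
    -- the Kummer extension
    (a : Kx) (haS : a ∈ unitsS U loc S) (α : Lx) (hα : α ^ p = incl a)
    (ha' : a ∉ powSubgroup Kx p)
    (hkum : ∀ b : Kx, incl b ∈ powSubgroup Lx p → ∃ (n : ℕ) (c : Kx), b = a ^ n * c ^ p) :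
    (principal loc ⊔ localCond U (Nrm a)).relIndex (idele U) ∣ p := by
  have hp0 : 0 < p := hp.out.pos
  -- `hcyc` from the cardinality
  have hcyc : ∀ v, v ∉ S → ∀ g : Kv v, g ∈ U v → g ∉ powSubgroup (Kv v) p →
      ∀ u ∈ U v, ∃ (n : ℕ) (c : Kv v), u = g ^ n * c ^ p := by
    intro v hv g hg hgp u hu
    set Q := U v ⧸ (powSubgroup (Kv v) p).subgroupOf (U v) with hQ
    have hcard : Nat.card Q = p := by
      rw [← Subgroup.index_eq_card]; exact hUcard v hv
    have hgne : (QuotientGroup.mk ⟨g, hg⟩ : Q) ≠ 1 := by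
      rw [Ne, QuotientGroup.eq_one_iff, Subgroup.mem_subgroupOf]
      exact hgp
    have hmem : (QuotientGroup.mk ⟨u, hu⟩ : Q) ∈ Subgroup.zpowers (QuotientGroup.mk ⟨g, hg⟩ : Q) := by
      rw [zpowers_eq_top_of_prime_card hcard hgne]; trivial
    haveI : Finite Q := Nat.finite_of_card_ne_zero (by rw [hcard]; exact hp.out.ne_zero)
    rw [← mem_powers_iff_mem_zpowers] at hmem
    obtain ⟨n, hn⟩ := hmem
    have h1 : (QuotientGroup.mk (⟨g, hg⟩ ^ n) : Q) = QuotientGroup.mk ⟨u, hu⟩ := by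
      rw [QuotientGroup.mk_pow]; exact hn
    rw [QuotientGroup.eq, Subgroup.mem_subgroupOf] at h1
    obtain ⟨c, hc'⟩ := mem_powSubgroup.mp h1
    refine ⟨n, c, ?_⟩
    simp only [Subgroup.coe_mul, Subgroup.coe_inv, Subgroup.coe_pow] at hc'
    rw [hc', mul_inv_cancel_left]
  -- the group of S-units and the characters
  set W := unitsS U loc S with hW
  have hidx : (powSubgroup W p).index = p ^ s := by
    rw [powSubgroup_subtype_index]
    have := hunits ∅ (Finset.disjoint_empty_right S)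
    simpa using this
  have hCcard : ∀ v : {v : ι // v ∉ S},
      Nat.card (U v.1 ⧸ (powSubgroup (Kv v.1) p).subgroupOf (U v.1)) = p := by
    intro v
    rw [← Subgroup.index_eq_card]; exact hUcard v.1 v.2
  have haW : (⟨a, haS⟩ : W) ∉ powSubgroup W p := by
    intro h
    obtain ⟨y, hy⟩ := mem_powSubgroup.mp h
    apply ha'
    exact mem_powSubgroup.mpr ⟨y.1, by simpa using congrArg Subtype.val hy⟩
  have hsep : ∀ b : W, (¬ ∃ (n : ℕ) (c : W), b = ⟨a, haS⟩ ^ n * c ^ p) →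
      ∃ v, unitChar U loc S p v ⟨a, haS⟩ = 1 ∧ unitChar U loc S p v b ≠ 1 := by
    intro b hb
    have hbL' : incl b.1 ∉ powSubgroup Lx p := by
      intro h
      obtain ⟨n, c, hnc⟩ := hkum b.1 h
      apply hb
      have hcW : c ∈ W := by
        intro v hv
        apply h9 v
        rw [← map_pow]
        have : c ^ p = b.1 * (a ^ n)⁻¹ := by rw [hnc]; simp
        rw [this, map_mul, map_inv, map_pow]
        exact (U v).mul_mem (b.2 v hv) ((U v).inv_mem (Subgroup.pow_mem _ (haS v hv) _))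
      exact ⟨n, ⟨c, hcW⟩, Subtype.ext (by simpa using hnc)⟩
    obtain ⟨v, hvS, hva, hvb⟩ := exists_separating_place U loc UL locL hlocL incl r j hj p S SL hSL
      NrmL haL hbL FIL hweak hcyc a b.1 α hα haS b.2 hbL'
    refine ⟨⟨v, hvS⟩, ?_, ?_⟩
    · rw [unitChar_eq_one_iff]; exact hva
    · rw [Ne, unitChar_eq_one_iff]; exact hvb
  obtain ⟨T₀, hT₀card, hT₀a, hT₀surj⟩ :=
    exists_aux_places p s hidx hCcard (unitChar U loc S p) ⟨a, haS⟩ haW hsep
  -- the auxiliary set of places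
  set T : Finset ι := T₀.map (Function.Embedding.subtype _) with hT
  have hTcard : T.card + 1 = s := by rw [hT, Finset.card_map]; exact hT₀card
  have hTmem : ∀ v, v ∈ T ↔ ∃ h : v ∉ S, (⟨v, h⟩ : {v : ι // v ∉ S}) ∈ T₀ := by
    intro v
    rw [hT, Finset.mem_map]
    constructor
    · rintro ⟨w, hw, rfl⟩
      exact ⟨w.2, hw⟩
    · rintro ⟨h, hw⟩
      exact ⟨⟨v, h⟩, hw, rfl⟩
  have hST : Disjoint S T := by
    rw [Finset.disjoint_left]
    intro v hvS hvT
    obtain ⟨h, -⟩ := (hTmem v).mp hvT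
    exact h hvS
  have hTa : ∀ v ∈ T, loc v a ∈ powSubgroup (Kv v) p := by
    intro v hv
    obtain ⟨h, hw⟩ := (hTmem v).mp hv
    have := hT₀a ⟨v, h⟩ hw
    rwa [unitChar_eq_one_iff] at this
  have hsurj : ∀ y : ∀ v, Kv v, (∀ v ∈ T, y v ∈ U v) →
      ∃ u ∈ unitsS U loc S, ∀ v ∈ T, y v / loc v u ∈ powSubgroup (Kv v) p := by
    intro y hy
    obtain ⟨w, hw⟩ := hT₀surj (fun v => if h : v.1 ∈ T then QuotientGroup.mk ⟨y v.1, hy v.1 h⟩ else 1)
    refine ⟨w.1, w.2, fun v hv => ?_⟩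
    obtain ⟨h, hvT₀⟩ := (hTmem v).mp hv
    have h1 := hw ⟨v, h⟩ hvT₀
    simp only [hv, dif_pos] at h1
    rw [unitChar, MonoidHom.comp_apply, QuotientGroup.mk'_apply] at h1
    have h2 := QuotientGroup.eq.mp h1
    rw [Subgroup.mem_subgroupOf] at h2
    simp only [MonoidHom.coe_mk, OneHom.coe_mk, Subgroup.coe_mul, Subgroup.coe_inv] at h2
    have h4' : y v / loc v w.1 = ((loc v w.1)⁻¹ * y v)⁻¹⁻¹ := by
      rw [inv_inv, div_eq_mul_inv, mul_comm]
    rw [h4', inv_inv]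
    exact h2
  -- the key lemma
  have h7 := key_lemma U loc hloc p S T hST Nrm ha hb hc FI h4 hsurj
  have hs1 : 1 ≤ s := by omega
  have h6 : ((unitsS U loc (S ∪ T)).map (powMonoidHom p)).relIndex (unitsS U loc (S ∪ T))
      = p ^ (2 * s - 1) := by
    rw [hunits T hST]
    congr 1
    omega
  exact core_index_dvd U (Nrm a) loc hloc hinj p s hp0 hs1 S T
    (fun v _ => hb a v) (fun v hv => ha a v (hTa v hv))
    (fun v hvS _ => hc a v hvS (haS v hvS)) h4 h5 h6 h7 h9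

end Fermat.Agent.S55lib.SecondIneq
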