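/-
S55 sprint, block (IV) second inequality (helper1).
The EXPLICIT subgroups of local norms used in the count, and the abstract second inequality for them.
`nrmMin S a v`: everything if `a` is a local `p`-th power at `v`; `U_v · K_v^p` if `v ∉ S` and
`a ∈ U_v · K_v^p`; `K_v^p` otherwise.  These are contained in the true norm groups of `K(a^{1/p})/K`.
-/
import Mathlib
import Fermat.Agent.S55lib.SecondIneq.Assembly

set_option autoImplicit false

namespace Fermat.Agent.S55lib.SecondIneq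

open scoped Classical

variable {Kx : Type*} [CommGroup Kx] {ι : Type*} {Kv : ι → Type*} [∀ v, CommGroup (Kv v)]
variable {Lx : Type*} [CommGroup Lx] {κ : Type*} {Lw : κ → Type*} [∀ w, CommGroup (Lw w)]

/-- explicit local "norm groups", with the unramified clause -/
noncomputable def nrmMin (U : ∀ v, Subgroup (Kv v)) (loc : ∀ v, Kx →* Kv v) (p : ℕ) (S : Finset ι)
    (a : Kx) (v : ι) : Subgroup (Kv v) :=
  if loc v a ∈ powSubgroup (Kv v) p then ⊤
  else if v ∉ S ∧ loc v a ∈ U v ⊔ powSubgroup (Kv v) p then U v ⊔ powSubgroup (Kv v) p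
  else powSubgroup (Kv v) p

/-- explicit local "norm groups", without the unramified clause -/
noncomputable def nrmPow (loc : ∀ v, Kx →* Kv v) (p : ℕ) (a : Kx) (v : ι) : Subgroup (Kv v) :=
  if loc v a ∈ powSubgroup (Kv v) p then ⊤ else powSubgroup (Kv v) p

theorem nrmMin_eq_top (U : ∀ v, Subgroup (Kv v)) (loc : ∀ v, Kx →* Kv v) (p : ℕ) (S : Finset ι)
    (a : Kx) (v : ι) (h : loc v a ∈ powSubgroup (Kv v) p) : nrmMin U loc p S a v = ⊤ := by
  rw [nrmMin, if_pos h]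

theorem pow_le_nrmMin (U : ∀ v, Subgroup (Kv v)) (loc : ∀ v, Kx →* Kv v) (p : ℕ) (S : Finset ι)
    (a : Kx) (v : ι) : powSubgroup (Kv v) p ≤ nrmMin U loc p S a v := by
  rw [nrmMin]
  split_ifs
  · exact le_top
  · exact le_sup_right
  · exact le_rfl

theorem units_le_nrmMin (U : ∀ v, Subgroup (Kv v)) (loc : ∀ v, Kx →* Kv v) (p : ℕ) (S : Finset ι)
    (a : Kx) (v : ι) (hv : v ∉ S) (ha : loc v a ∈ U v ⊔ powSubgroup (Kv v) p) :
    U v ≤ nrmMin U loc p S a v := by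
  rw [nrmMin]
  split_ifs with h1 h2
  · exact le_top
  · exact le_sup_left
  · exact absurd ⟨hv, ha⟩ h2

theorem sup_le_nrmMin (U : ∀ v, Subgroup (Kv v)) (loc : ∀ v, Kx →* Kv v) (p : ℕ) (S : Finset ι)
    (a : Kx) (v : ι) (hv : v ∉ S) (ha : loc v a ∈ U v ⊔ powSubgroup (Kv v) p) :
    U v ⊔ powSubgroup (Kv v) p ≤ nrmMin U loc p S a v :=
  sup_le (units_le_nrmMin U loc p S a v hv ha) (pow_le_nrmMin U loc p S a v)

/-- the explicit groups grow when the set of bad places shrinks -/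
theorem nrmMin_mono (U : ∀ v, Subgroup (Kv v)) (loc : ∀ v, Kx →* Kv v) (p : ℕ) {S S' : Finset ι}
    (h : S ⊆ S') (a : Kx) (v : ι) : nrmMin U loc p S' a v ≤ nrmMin U loc p S a v := by
  rw [nrmMin, nrmMin]
  split_ifs with h1 h2 h3 h3
  · exact le_rfl
  · exact le_rfl
  · exact absurd ⟨fun hv => h2.1 (h hv), h2.2⟩ h3
  · exact le_sup_right
  · exact le_rfl

theorem nrmMin_le_sup (U : ∀ v, Subgroup (Kv v)) (loc : ∀ v, Kx →* Kv v) (p : ℕ) (S : Finset ι)
    (a : Kx) (v : ι) (h : loc v a ∉ powSubgroup (Kv v) p) :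
    nrmMin U loc p S a v ≤ U v ⊔ powSubgroup (Kv v) p := by
  rw [nrmMin, if_neg h]
  split_ifs
  · exact le_rfl
  · exact le_sup_right

theorem nrmPow_eq_top (loc : ∀ v, Kx →* Kv v) (p : ℕ) (a : Kx) (v : ι)
    (h : loc v a ∈ powSubgroup (Kv v) p) : nrmPow loc p a v = ⊤ := by
  rw [nrmPow, if_pos h]

theorem pow_le_nrmPow (loc : ∀ v, Kx →* Kv v) (p : ℕ) (a : Kx) (v : ι) :
    powSubgroup (Kv v) p ≤ nrmPow loc p a v := by
  rw [nrmPow]
  split_ifs
  · exact le_top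
  · exact le_rfl

/-- **The abstract second inequality for the explicit groups.** -/
theorem second_inequality_nrmMin
    (U : ∀ v, Subgroup (Kv v)) (loc : ∀ v, Kx →* Kv v)
    (hloc : ∀ a : Kx, {v | loc v a ∉ U v}.Finite)
    (hinj : Function.Injective (MonoidHom.pi loc))
    (UL : ∀ w, Subgroup (Lw w)) (locL : ∀ w, Lx →* Lw w)
    (hlocL : ∀ a : Lx, {w | locL w a ∉ UL w}.Finite)
    (incl : Kx →* Lx) (r : κ → ι) (j : ∀ w, Kv (r w) →* Lw w)
    (hj : ∀ (w : κ) (x : Kx), j w (loc (r w) x) = locL w (incl x))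
    (p : ℕ) [hp : Fact p.Prime] (s : ℕ) (S : Finset ι) (SL : Finset κ) (hSL : ∀ w, w ∈ SL ↔ r w ∈ S)
    (FI : ∀ a : Kx, a ∉ powSubgroup Kx p →
      ¬ idele U ≤ principal loc ⊔ localCond U (nrmMin U loc p S a))
    (FIL : ∀ b : Lx, b ∉ powSubgroup Lx p →
      ¬ idele UL ≤ principal locL ⊔ localCond UL (nrmPow locL p b))
    (hweak : ∀ y : ∀ w, Lw w, y ∈ idele UL →
      ∃ c : Lx, ∀ w ∈ SL, y w / locL w c ∈ powSubgroup (Lw w) p)
    (h4 : idele U ≤ principal loc ⊔ ideleS U S)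
    (h5 : ∏ v ∈ S, (powSubgroup (Kv v) p).index = p ^ (2 * s))
    (hunits : ∀ T : Finset ι, Disjoint S T →
      ((unitsS U loc (S ∪ T)).map (powMonoidHom p)).relIndex (unitsS U loc (S ∪ T))
        = p ^ (s + T.card))
    (h9 : ∀ v, ∀ x : Kv v, x ^ p ∈ U v → x ∈ U v)
    (hUcard : ∀ v, v ∉ S → (powSubgroup (Kv v) p).relIndex (U v) = p)
    (a : Kx) (haS : a ∈ unitsS U loc S) (α : Lx) (hα : α ^ p = incl a)
    (ha' : a ∉ powSubgroup Kx p)
    (hkum : ∀ b : Kx, incl b ∈ powSubgroup Lx p → ∃ (n : ℕ) (c : Kx), b = a ^ n * c ^ p) :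
    (principal loc ⊔ localCond U (nrmMin U loc p S a)).relIndex (idele U) ∣ p :=
  second_inequality_abstract U loc hloc hinj UL locL hlocL incl r j hj p s S SL hSL
    (nrmMin U loc p S) (nrmMin_eq_top U loc p S) (pow_le_nrmMin U loc p S)
    (fun a v hv ha => units_le_nrmMin U loc p S a v hv (le_sup_left (a := U v) ha)) FI
    (nrmPow locL p) (nrmPow_eq_top locL p) (pow_le_nrmPow locL p) FIL hweak h4 h5 hunits h9 hUcard
    a haS α hα ha' hkum

end Fermat.Agent.S55lib.SecondIneq
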