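/-
S55 sprint, block (IV) second inequality (helper1).
WEAK APPROXIMATION modulo `p`-th powers: for a number field `F` with completion data, a finite set `S`
of places and local units `y v ∈ F_v^×`, there is a global `c ∈ F^×` with `y v / c ∈ F_v^{×p}` for
all `v ∈ S` (hypothesis `hweak` of the abstract count).
-/
import Mathlib
import Fermat.Agent.S55lib.LocalH.Ord
import Fermat.Agent.S55lib.SecondIneq.CompletionData
import Fermat.Agent.S55lib.SecondIneq.LocalUnitsPow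

set_option autoImplicit false

namespace Fermat.Agent.S55lib.SecondIneq

open IsDedekindDomain HeightOneSpectrum NumberField IsLocalRing nonZeroDivisors
open Fermat.Agent.S55lib.LocalH

section Global

variable {F : Type*} [Field F] [NumberField F]

open scoped Classical in
/-- global weak approximation, multiplicative form -/
theorem exists_forall_valuation_div_sub_one_le (S : Finset (HeightOneSpectrum (𝓞 F)))
    (c : HeightOneSpectrum (𝓞 F) → Fˣ) (N : ℕ) :
    ∃ x : Fˣ, ∀ v ∈ S, v.valuation F ((x : F) / (c v : F) - 1) ≤ WithZero.exp (-(N : ℤ)) := by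
  -- common denominator
  obtain ⟨d, hd⟩ := IsLocalization.exist_integer_multiples (𝓞 F)⁰ S (fun v => ((c v : Fˣ) : F))
  choose! a ha using hd
  have hd0 : (d : 𝓞 F) ≠ 0 := nonZeroDivisors.ne_zero d.2
  have hdF : algebraMap (𝓞 F) F (d : 𝓞 F) ≠ 0 := by
    rw [Ne, map_eq_zero_iff _ (IsFractionRing.injective (𝓞 F) F)]; exact hd0
  have haeq : ∀ v ∈ S, algebraMap (𝓞 F) F (a v) = algebraMap (𝓞 F) F (d : 𝓞 F) * (c v : F) := by
    intro v hv
    rw [ha v hv, Algebra.smul_def]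
  have ha0 : ∀ v ∈ S, a v ≠ 0 := by
    intro v hv h0
    have := haeq v hv
    rw [h0, map_zero] at this
    exact mul_ne_zero hdF (c v).ne_zero this.symm
  -- multiplicities
  set m : HeightOneSpectrum (𝓞 F) → ℕ := fun v =>
    (Associates.mk v.asIdeal).count (Associates.mk (Ideal.span {a v})).factors with hm
  have hval : ∀ v ∈ S, v.intValuation (a v) = WithZero.exp (-(m v : ℤ)) := fun v hv =>
    v.intValuation_if_neg (ha0 v hv)
  -- CRT
  obtain ⟨b, hb⟩ := IsDedekindDomain.exists_forall_sub_mem_ideal (s := S)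
    (fun v : HeightOneSpectrum (𝓞 F) => v.asIdeal) (fun v => N + m v + 1)
    (fun v _ => v.prime) (fun v _ w _ hvw h => hvw (HeightOneSpectrum.ext h))
    (fun v => a v.1)
  have hbv : ∀ v ∈ S, v.intValuation (b - a v) ≤ WithZero.exp (-((N + m v + 1 : ℕ) : ℤ)) :=
    fun v hv => (v.intValuation_le_pow_iff_mem _ _).mpr (hb v hv)
  rcases S.eq_empty_or_nonempty with hS | ⟨v₀, hv₀⟩
  · exact ⟨1, by simp [hS]⟩
  have hb0 : b ≠ 0 := by
    rintro rfl
    have h1 := hbv v₀ hv₀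
    rw [zero_sub, Valuation.map_neg, hval v₀ hv₀, WithZero.exp_le_exp] at h1
    push_cast at h1
    omega
  have hbF : algebraMap (𝓞 F) F b ≠ 0 := by
    rw [Ne, map_eq_zero_iff _ (IsFractionRing.injective (𝓞 F) F)]; exact hb0
  refine ⟨Units.mk0 (algebraMap (𝓞 F) F b / algebraMap (𝓞 F) F (d : 𝓞 F))
    (div_ne_zero hbF hdF), fun v hv => ?_⟩
  have hav : algebraMap (𝓞 F) F (a v) ≠ 0 := by
    rw [Ne, map_eq_zero_iff _ (IsFractionRing.injective (𝓞 F) F)]; exact ha0 v hv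
  have hcv : ((c v : Fˣ) : F) = algebraMap (𝓞 F) F (a v) / algebraMap (𝓞 F) F (d : 𝓞 F) := by
    rw [haeq v hv]; field_simp
  have hquot : (algebraMap (𝓞 F) F b / algebraMap (𝓞 F) F (d : 𝓞 F)) / ((c v : Fˣ) : F) - 1 =
      algebraMap (𝓞 F) F (b - a v) / algebraMap (𝓞 F) F (a v) := by
    rw [hcv, map_sub]; field_simp
  rw [Units.val_mk0, hquot, map_div₀, v.valuation_of_algebraMap, v.valuation_of_algebraMap,
    hval v hv]
  rw [div_le_iff₀ (zero_lt_iff.mpr WithZero.exp_ne_zero), ← WithZero.exp_add]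
  refine (hbv v hv).trans ?_
  rw [WithZero.exp_le_exp]
  push_cast
  omega

end Global

namespace CompletionData

variable {F : Type*} [Field F] [NumberField F] (D : CompletionData F)

/-- elements of small valuation land in a high power of the maximal ideal -/
theorem emb_mem_pow_of_valuation_le (v : HeightOneSpectrum (𝓞 F)) (t : F) (n : ℕ)
    (h : v.valuation F t ≤ WithZero.exp (-(n : ℤ))) :
    ∃ h' : D.emb v t ∈ D.𝒪v v, (⟨D.emb v t, h'⟩ : D.𝒪v v) ∈ maximalIdeal (D.𝒪v v) ^ n := by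
  obtain ⟨π, hπ⟩ := v.valuation_exists_uniformizer F
  obtain ⟨hmem, hirr⟩ := D.irreducible_emb_uniformizer v π hπ
  have hm : maximalIdeal (D.𝒪v v) = Ideal.span {(⟨D.emb v π, hmem⟩ : D.𝒪v v)} := hirr.maximalIdeal_eq
  have hπ0 : π ≠ 0 := by
    intro h; rw [h, map_zero] at hπ; exact WithZero.exp_ne_zero.symm hπ
  have hπn : D.emb v π ^ n ≠ 0 := pow_ne_zero _ ((map_ne_zero _).mpr hπ0)
  have hval : v.valuation F (t / π ^ n) ≤ 1 := by
    rw [map_div₀, map_pow, hπ, ← WithZero.exp_nsmul, smul_neg, nsmul_one]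
    exact div_le_one_of_le₀ h zero_le
  have hcm : D.emb v (t / π ^ n) ∈ D.𝒪v v := (D.emb_mem_iff v _).mpr hval
  have hfac : D.emb v t = D.emb v π ^ n * D.emb v (t / π ^ n) := by
    rw [map_div₀, map_pow, mul_div_cancel₀ _ hπn]
  have ht : D.emb v t ∈ D.𝒪v v := by
    rw [hfac]; exact mul_mem (pow_mem hmem n) hcm
  refine ⟨ht, ?_⟩
  rw [hm, Ideal.span_singleton_pow, Ideal.mem_span_singleton]
  exact ⟨⟨_, hcm⟩, Subtype.ext hfac⟩

/-- the principal units of level `N` inside `F_v^×` -/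
noncomputable def princ (v : HeightOneSpectrum (𝓞 F)) (N : ℕ) : Subgroup (D.Fv v)ˣ :=
  (princUnits (maximalIdeal (D.𝒪v v)) N).map (Units.map (D.𝒪v v).subtype.toMonoidHom)

theorem mem_princ_iff (v : HeightOneSpectrum (𝓞 F)) (N : ℕ) (x : (D.Fv v)ˣ) :
    x ∈ D.princ v N ↔ ∃ w : (D.𝒪v v)ˣ, ((w : D.𝒪v v) : D.Fv v) = (x : D.Fv v) ∧
      (w : D.𝒪v v) - 1 ∈ maximalIdeal (D.𝒪v v) ^ N := by
  rw [princ, Subgroup.mem_map]
  constructor
  · rintro ⟨w, hw, rfl⟩
    exact ⟨w, rfl, hw⟩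
  · rintro ⟨w, hwx, hw⟩
    exact ⟨w, hw, Units.ext hwx⟩

/-- a global unit close to `1` is a local principal unit -/
theorem loc_mem_princ (v : HeightOneSpectrum (𝓞 F)) (N : ℕ) (hN : 1 ≤ N) (x : Fˣ)
    (hx : v.valuation F ((x : F) - 1) ≤ WithZero.exp (-(N : ℤ))) : D.loc v x ∈ D.princ v N := by
  obtain ⟨ht, htN⟩ := D.emb_mem_pow_of_valuation_le v ((x : F) - 1) N hx
  set t : D.𝒪v v := ⟨_, ht⟩ with htdef
  have htm : t ∈ maximalIdeal (D.𝒪v v) := Ideal.pow_le_self (by omega) htN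
  obtain ⟨w, hw⟩ := isUnit_of_sub_one_mem_maximalIdeal (1 + t) (by simpa using htm)
  rw [mem_princ_iff]
  refine ⟨w, ?_, ?_⟩
  · rw [hw]
    show (1 : D.Fv v) + D.emb v ((x : F) - 1) = D.emb v (x : F)
    rw [map_sub, map_one]; ring
  · rw [hw]; simpa using htN

/-- principal units of high level are `p`-th powers -/
theorem exists_princ_le_pow (v : HeightOneSpectrum (𝓞 F)) (p : ℕ) (hp : p ≠ 0) :
    ∃ N : ℕ, 1 ≤ N ∧ D.princ v N ≤ powSubgroup (D.Fv v)ˣ p := by
  have hp0 : (p : D.𝒪v v) ≠ 0 := by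
    intro h
    have := congrArg (Subtype.val : D.𝒪v v → D.Fv v) h
    have h2 : (p : D.Fv v) = 0 := by simpa using this
    rw [← map_natCast (D.emb v), map_eq_zero] at h2
    exact hp (by exact_mod_cast h2)
  obtain ⟨N, hN⟩ := exists_princUnits_le_pow (R := D.𝒪v v) p hp0
  refine ⟨N + 1, by omega, ?_⟩
  rintro _ ⟨w, hw, rfl⟩
  obtain ⟨x, hx⟩ := hN w (princUnits_anti _ (Nat.le_succ N) hw)
  rw [mem_powSubgroup]
  exact ⟨Units.map (D.𝒪v v).subtype.toMonoidHom x, by rw [← map_pow, hx]⟩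

/-- local approximation of a unit of `F_v` by a global unit, multiplicatively -/
theorem exists_div_loc_mem_princ (v : HeightOneSpectrum (𝓞 F)) (y : (D.Fv v)ˣ) (N : ℕ) :
    ∃ c : Fˣ, y / D.loc v c ∈ D.princ v N := by
  obtain ⟨π, hπ⟩ := v.valuation_exists_uniformizer F
  obtain ⟨hmem, hirr⟩ := D.irreducible_emb_uniformizer v π hπ
  have hπ0 : π ≠ 0 := by
    intro h; rw [h, map_zero] at hπ; exact WithZero.exp_ne_zero.symm hπ
  obtain ⟨m, w, hw⟩ := exists_unit_mul_zpow hirr y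
  -- approximate the unit `w`
  obtain ⟨x₀, z, hz, hxz⟩ := D.dense v (w : D.𝒪v v) (N + 1)
  have hzm : z ∈ maximalIdeal (D.𝒪v v) := Ideal.pow_le_self (by omega) hz
  have hx₀eq : D.embInt v x₀ = (w : D.𝒪v v) - z := by
    apply Subtype.ext
    show D.emb v (x₀ : F) = ((w : D.𝒪v v) : D.Fv v) - (z : D.Fv v)
    rw [hxz]; ring
  have hx₀u : IsUnit (D.embInt v x₀) := by
    rw [hx₀eq]
    by_contra hnu
    have h1 : (w : D.𝒪v v) - z ∈ maximalIdeal (D.𝒪v v) := hnu
    have h2 : (w : D.𝒪v v) ∈ maximalIdeal (D.𝒪v v) := by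
      have : (w : D.𝒪v v) = ((w : D.𝒪v v) - z) + z := by ring
      rw [this]; exact Ideal.add_mem _ h1 hzm
    exact (mem_nonunits_iff.mp ((mem_maximalIdeal _).mp h2)) w.isUnit
  obtain ⟨w₀, hw₀⟩ := hx₀u
  have hx₀0 : (x₀ : F) ≠ 0 := by
    intro h0
    have : D.embInt v x₀ = 0 := Subtype.ext (by simp [h0])
    rw [← hw₀] at this
    exact w₀.ne_zero this
  refine ⟨Units.mk0 ((x₀ : F) * π ^ m) (mul_ne_zero hx₀0 (zpow_ne_zero _ hπ0)), ?_⟩
  rw [mem_princ_iff]
  refine ⟨w * w₀⁻¹, ?_, ?_⟩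
  · have h1 : ((w₀ : D.𝒪v v) : D.Fv v) = D.emb v (x₀ : F) := by rw [hw₀]; rfl
    have h1' : ((w₀ : D.𝒪v v) : D.Fv v) ≠ 0 := by rw [h1]; exact (map_ne_zero _).mpr hx₀0
    have hπm : D.emb v π ^ m ≠ 0 := zpow_ne_zero _ ((map_ne_zero _).mpr hπ0)
    rw [Units.val_div_eq_div_val, coe_loc, Units.val_mk0, hw, map_mul, map_zpow₀, ← h1,
      Units.val_mul, MulMemClass.coe_mul, coe_units_inv]
    show _ = _ * (D.emb v π) ^ m / _
    field_simp
  · have h2 : ((w * w₀⁻¹ : (D.𝒪v v)ˣ) : D.𝒪v v) - 1 = ((w₀⁻¹ : (D.𝒪v v)ˣ) : D.𝒪v v) * z := by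
      have h3 : ((w₀⁻¹ : (D.𝒪v v)ˣ) : D.𝒪v v) * (w₀ : D.𝒪v v) = 1 := by
        rw [← Units.val_mul]; simp
      have h4 : (w₀ : D.𝒪v v) = (w : D.𝒪v v) - z := by rw [hw₀, hx₀eq]
      rw [Units.val_mul]
      rw [h4] at h3
      linear_combination h3
    rw [h2]
    exact Ideal.mul_mem_left _ _ (Ideal.pow_le_pow_right (Nat.le_succ N) hz)

open scoped Classical in
/-- **weak approximation modulo `p`-th powers** -/
theorem exists_global_div_mem_pow (p : ℕ) (hp : p ≠ 0) (S : Finset (HeightOneSpectrum (𝓞 F)))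
    (y : ∀ v, (D.Fv v)ˣ) :
    ∃ c : Fˣ, ∀ v ∈ S, y v / D.loc v c ∈ powSubgroup (D.Fv v)ˣ p := by
  choose Nv hNv1 hNv using fun v => D.exists_princ_le_pow v p hp
  -- a common level
  set N := S.sup Nv + 1 with hN
  have hNle : ∀ v ∈ S, Nv v ≤ N := fun v hv => (Finset.le_sup hv).trans (Nat.le_succ _)
  choose cv hcv using fun v => D.exists_div_loc_mem_princ v (y v) N
  obtain ⟨x, hx⟩ := exists_forall_valuation_div_sub_one_le S cv N
  refine ⟨x, fun v hv => ?_⟩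
  have hanti : D.princ v N ≤ D.princ v (Nv v) := by
    rintro _ ⟨w, hw, rfl⟩
    exact ⟨w, princUnits_anti _ (hNle v hv) hw, rfl⟩
  apply hNv v
  apply hanti
  have h1 : D.loc v (x / cv v) ∈ D.princ v N := by
    apply D.loc_mem_princ v N (by omega)
    rw [Units.val_div_eq_div_val]
    exact hx v hv
  have h2 : y v / D.loc v x = (y v / D.loc v (cv v)) * (D.loc v (x / cv v))⁻¹ := by
    rw [map_div, inv_div, div_mul_div_cancel]
  rw [h2]
  exact Subgroup.mul_mem _ (hcv v) (Subgroup.inv_mem _ h1)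

end CompletionData

end Fermat.Agent.S55lib.SecondIneq
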