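/-
S55 sprint, block (IV) second inequality (helper1).
**The second inequality for Kummer extensions of number fields**, against `CompletionData`:
`K ⊇ μ_p` a number field, `L = K(α)`, `α ^ p = a ∈ K`, `Gal(L/K) = ⟨σ⟩`.  Then
`[J_K : K^× · (ideles that lie in the explicit local groups nrmMin everywhere)]` divides `p`.
REMAINING INPUTS (hypotheses): the first inequality over `K` and `L` (helper2) in the explicit form,
and the `S`-unit index `(E_{S ∪ T} : E_{S ∪ T}^p) = p ^ (|S| + r₂ + |T|)` (helper2).
-/
import Mathlib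
import Fermat.Agent.S55lib.SecondIneq.NrmMin
import Fermat.Agent.S55lib.SecondIneq.LocalGlobalIndex
import Fermat.Agent.S55lib.SecondIneq.ClassGroupS
import Fermat.Agent.S55lib.SecondIneq.WeakApprox
import Fermat.Agent.S55lib.SecondIneq.KummerInter

set_option autoImplicit false

namespace Fermat.Agent.S55lib.SecondIneq

open IsDedekindDomain HeightOneSpectrum NumberField IsLocalRing

namespace CompletionData

variable {K : Type*} [Field K] [NumberField K] (D : CompletionData K)

theorem nonempty_places : Nonempty (HeightOneSpectrum (𝓞 K)) := by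
  obtain ⟨P, hP0, hP⟩ := Ring.not_isField_iff_exists_prime.mp (RingOfIntegers.not_isField K)
  exact ⟨⟨P, hP, hP0⟩⟩

theorem loc_pi_injective : Function.Injective (MonoidHom.pi D.loc) := by
  obtain ⟨v⟩ := nonempty_places (K := K)
  intro x y hxy
  have h := congrFun hxy v
  simp only [MonoidHom.pi_apply] at h
  apply Units.ext
  apply (D.emb v).injective
  have := congrArg Units.val h
  simpa using this

end CompletionData

open scoped Classical in
theorem second_inequality_kummer
    {K L : Type*} [Field K] [NumberField K] [Field L] [NumberField L] [Algebra K L]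
    (DK : CompletionData K) (DL : CompletionData L)
    -- the place below and the local embeddings
    (r : HeightOneSpectrum (𝓞 L) → HeightOneSpectrum (𝓞 K))
    (hrfin : ∀ v, {w | r w = v}.Finite)
    (j : ∀ w, DK.Fv (r w) →+* DL.Fv w)
    (hj : ∀ w (x : K), j w (DK.emb (r w) x) = DL.emb w (algebraMap K L x))
    (p : ℕ) [hp : Fact p.Prime] {ζ : K} (hζ : IsPrimitiveRoot ζ p)
    (r₂ : ℕ) (hr₂ : Module.finrank ℚ K = 2 * r₂)
    (S : Finset (HeightOneSpectrum (𝓞 K)))
    (hS4 : idele DK.U ≤ principal DK.loc ⊔ ideleS DK.U S)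
    (hSp : ∀ v : HeightOneSpectrum (𝓞 K), (p : 𝓞 K) ∈ v.asIdeal → v ∈ S)
    -- S-unit theorem (helper2)
    (hunits : ∀ T : Finset (HeightOneSpectrum (𝓞 K)), Disjoint S T →
      ((unitsS DK.U DK.loc (S ∪ T)).map (powMonoidHom p)).relIndex (unitsS DK.U DK.loc (S ∪ T))
        = p ^ (S.card + r₂ + T.card))
    -- first inequality over K and L (helper2 + local norm facts)
    (FI : ∀ x : Kˣ, x ∉ powSubgroup Kˣ p →
      ¬ idele DK.U ≤ principal DK.loc ⊔ localCond DK.U (nrmMin DK.U DK.loc p S x))
    (FIL : ∀ b : Lˣ, b ∉ powSubgroup Lˣ p →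
      ¬ idele DL.U ≤ principal DL.loc ⊔ localCond DL.U (nrmPow DL.loc p b))
    -- the Kummer extension
    (σ : L ≃ₐ[K] L) (hfix : ∀ x : L, σ x = x → ∃ c : K, algebraMap K L c = x)
    (a : Kˣ) (haS : a ∈ unitsS DK.U DK.loc S) (α : Lˣ)
    (hα : α ^ p = Units.map (algebraMap K L : K →* L) a)
    (hσα : σ (α : L) = algebraMap K L ζ * (α : L))
    (ha' : a ∉ powSubgroup Kˣ p) :
    (principal DK.loc ⊔ localCond DK.U (nrmMin DK.U DK.loc p S a)).relIndex (idele DK.U) ∣ p := by
  have hp0 : 0 < p := hp.out.pos
  set SL : Finset (HeightOneSpectrum (𝓞 L)) := S.biUnion fun v => (hrfin v).toFinset with hSLdef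
  have hSL : ∀ w, w ∈ SL ↔ r w ∈ S := by
    intro w
    rw [hSLdef, Finset.mem_biUnion]
    constructor
    · rintro ⟨v, hv, hw⟩
      rw [Set.Finite.mem_toFinset] at hw
      rw [show r w = v from hw]; exact hv
    · intro h
      exact ⟨r w, h, (Set.Finite.mem_toFinset _).mpr rfl⟩
  refine second_inequality_nrmMin DK.U DK.loc DK.finite_loc_not_mem_U DK.loc_pi_injective
    DL.U DL.loc DL.finite_loc_not_mem_U (Units.map (algebraMap K L : K →* L)) r
    (fun w => Units.map (j w : DK.Fv (r w) →* DL.Fv w)) ?_ p (S.card + r₂) S SL hSL FI FIL ?_ hS4 ?_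
    ?_ ?_ ?_ a haS α hα ha' ?_
  · -- compatibility
    intro w x
    apply Units.ext
    simp only [Units.coe_map, MonoidHom.coe_coe, CompletionData.coe_loc]
    exact hj w (x : K)
  · -- weak approximation
    intro y _
    exact DL.exists_global_div_mem_pow p hp.out.ne_zero SL y
  · -- local indices
    rw [DK.prod_index_pow p hζ S hSp, hr₂]
    congr 1
    ring
  · -- S-units
    intro T hT
    exact hunits T hT
  · -- saturation of the units
    intro v x hx
    exact mem_unitGroup_of_pow_mem (DK.𝒪v v) hp0 x hx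
  · -- units modulo p-th powers outside S
    intro v hv
    exact DK.relIndex_pow_U p hζ v (fun h => hv (hSp v h))
  · -- Kummer theory
    intro b hb
    exact kummer_inter_units p hp0 hζ σ hfix hσα hα b hb

end Fermat.Agent.S55lib.SecondIneq
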