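/-
S55 sprint, block (IV) second inequality, glue to the Layers model (helper1).
**Norm containment and the second inequality in the intrinsic model.**
`M/F` a Kummer extension of number fields (`M = F(α)`, `α ^ p = a`, `σ α = ζ α`).
* Theorem A: an idele `x ∈ Dev.Idele F` whose image under lead's `Places.toIdele` lies in
  `principal ⊔ localCond (nrmMin a)` lies in `Dev.principal F ⊔ range (ideleNorm F M)`.
* Theorem B: `(Dev.principal F ⊔ range (ideleNorm F M)).index ∣ p`, from `second_inequality_kummer`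
  (inputs: `S`-unit index, first inequality over `F` and `M` in explicit form).
-/
import Mathlib
import Fermat.Agent.S55lib.SecondIneq.KummerLocal
import Fermat.Agent.S55lib.SecondIneq.NumberFieldKummer
import Fermat.Agent.S55lib.Places.Ext
import Fermat.Agent.S55lib.Places.Below

set_option autoImplicit false
set_option linter.unusedSectionVars false

namespace Fermat.Agent.S55lib.SecondIneq

open NumberField IsDedekindDomain Fermat.Agent.S55lib Fermat.Agent.S55lib.Places
  Fermat.Agent.S55lib.Dev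

section Local

variable {F : Type} [Field F] [NumberField F]

/-- the value in `ℚ̄_q` of a unit of the local field at `v` -/
noncomputable def cv (v : HeightOneSpectrum (𝓞 F)) : ((completionData F).Fv v)ˣ →* (PadicAlgCl (qOf v))ˣ :=
  unitCoe (localField (qOf v) F (embOf v))

theorem cv_mem (v : HeightOneSpectrum (𝓞 F)) (y : ((completionData F).Fv v)ˣ) :
    ((cv v y : (PadicAlgCl (qOf v))ˣ) : PadicAlgCl (qOf v)) ∈ localField (qOf v) F (embOf v) :=
  unitCoe_mem _ _

theorem cv_loc (v : HeightOneSpectrum (𝓞 F)) (a : Fˣ) :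
    ((cv v ((completionData F).loc v a) : (PadicAlgCl (qOf v))ˣ) : PadicAlgCl (qOf v)) =
      embOf v (a : F) := rfl

theorem cv_toIdele (x : ∀ q : Nat.Primes, Jq (q : ℕ) F) (v : HeightOneSpectrum (𝓞 F)) :
    cv v (toIdele F x v) = (x (qPrimeOf F v)).1 (embOf v) := Units.ext rfl

theorem mem_U_iff_norm_cv (v : HeightOneSpectrum (𝓞 F)) (y : ((completionData F).Fv v)ˣ) :
    y ∈ (completionData F).U v ↔
      ‖((cv v y : (PadicAlgCl (qOf v))ˣ) : PadicAlgCl (qOf v))‖ = 1 :=
  mem_unitGroup_normedIntegers_iff (L := localField (qOf v) F (embOf v)) y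

theorem exists_cv_pow_eq (p : ℕ) (v : HeightOneSpectrum (𝓞 F)) {y : ((completionData F).Fv v)ˣ}
    (hy : y ∈ powSubgroup ((completionData F).Fv v)ˣ p) :
    ∃ c ∈ localField (qOf v) F (embOf v),
      c ^ p = ((cv v y : (PadicAlgCl (qOf v))ˣ) : PadicAlgCl (qOf v)) := by
  obtain ⟨c, rfl⟩ := mem_powSubgroup.mp hy
  exact ⟨_, cv_mem v c, by rw [map_pow, Units.val_pow_eq_pow_val]⟩

theorem exists_cv_unit_mul_pow_eq (p : ℕ) (v : HeightOneSpectrum (𝓞 F))
    {y : ((completionData F).Fv v)ˣ}
    (hy : y ∈ (completionData F).U v ⊔ powSubgroup ((completionData F).Fv v)ˣ p) :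
    ∃ u ∈ localField (qOf v) F (embOf v), ∃ t ∈ localField (qOf v) F (embOf v), ‖u‖ = 1 ∧
      ((cv v y : (PadicAlgCl (qOf v))ˣ) : PadicAlgCl (qOf v)) = u * t ^ p := by
  obtain ⟨u, hu, t', ht', rfl⟩ := Subgroup.mem_sup.mp hy
  obtain ⟨t, rfl⟩ := mem_powSubgroup.mp ht'
  refine ⟨_, cv_mem v u, _, cv_mem v t, (mem_U_iff_norm_cv v u).mp hu, ?_⟩
  rw [map_mul, map_pow, Units.val_mul, Units.val_pow_eq_pow_val]

/-- **the explicit local groups `nrmMin` give the local condition `KumCond`** -/
theorem kumCond_of_mem_nrmMin (p : ℕ) [Fact p.Prime] (S : Finset (HeightOneSpectrum (𝓞 F)))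
    (hSp : ∀ v : HeightOneSpectrum (𝓞 F), (p : 𝓞 F) ∈ v.asIdeal → v ∈ S) (a : Fˣ)
    (x : ∀ q : Nat.Primes, Jq (q : ℕ) F) (v : HeightOneSpectrum (𝓞 F))
    (h : toIdele F x v ∈ nrmMin (completionData F).U (completionData F).loc p S a v) :
    KumCond p (a : F) (embOf v) ((x (qPrimeOf F v)).1 (embOf v)) := by
  classical
  rw [← cv_toIdele]
  rw [nrmMin] at h
  split_ifs at h with h1 h2
  · -- `a` is a local `p`-th power
    left
    obtain ⟨c, hc, hca⟩ := exists_cv_pow_eq p v h1
    exact ⟨c, hc, by rw [hca, cv_loc]⟩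
  · -- unramified
    right; right
    have hqp : qOf v ≠ p := by
      intro hq
      apply h2.1
      apply hSp
      have := qOf_mem v
      rw [hq] at this
      exact this
    obtain ⟨u₀, hu₀, c₀, hc₀, hu₀1, ha⟩ := exists_cv_unit_mul_pow_eq p v h2.2
    obtain ⟨u, hu, t, ht, hu1, hz⟩ := exists_cv_unit_mul_pow_eq p v h
    refine ⟨hqp, ⟨c₀, hc₀, ?_⟩, u, hu, t, ht, hu1, hz⟩
    rw [← cv_loc, ha, norm_mul, hu₀1, one_mul, norm_pow]
  · -- `p`-th power
    right; left
    exact exists_cv_pow_eq p v h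

/-- transport of the local condition from the chosen embeddings to all embeddings -/
theorem kumCond_transport (p : ℕ) (a : F) (x : ∀ q : Nat.Primes, Jq (q : ℕ) F)
    {q₁ q₂ : Nat.Primes} (h : q₁ = q₂) (κ₁ : Emb (q₁ : ℕ) F) (κ₂ : Emb (q₂ : ℕ) F)
    (hκ : primeOf κ₁ = primeOf κ₂) (h1 : KumCond p a κ₁ ((x q₁).1 κ₁)) :
    KumCond p a κ₂ ((x q₂).1 κ₂) := by
  subst h
  obtain ⟨d, rfl⟩ := (primeOf_eq_iff κ₁ κ₂).mp hκ
  have h2 := h1.smul d
  rw [← Jq.apply_smul] at h2
  exact h2

theorem kumCond_of_forall_mem_nrmMin (p : ℕ) [Fact p.Prime]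
    (S : Finset (HeightOneSpectrum (𝓞 F)))
    (hSp : ∀ v : HeightOneSpectrum (𝓞 F), (p : 𝓞 F) ∈ v.asIdeal → v ∈ S) (a : Fˣ)
    (x : ∀ q : Nat.Primes, Jq (q : ℕ) F)
    (h : ∀ v, toIdele F x v ∈ nrmMin (completionData F).U (completionData F).loc p S a v)
    (q : Nat.Primes) (κ : Emb (q : ℕ) F) : KumCond p (a : F) κ ((x q).1 κ) :=
  kumCond_transport p (a : F) x (qPrimeOf_primeOf q κ) (embOf (primeOf κ)) κ (primeOf_embOf _)
    (kumCond_of_mem_nrmMin p S hSp a x (primeOf κ) (h (primeOf κ)))

end Local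

section Global

variable {F M : Type} [Field F] [NumberField F] [Field M] [NumberField M] [Algebra F M]
  [IsScalarTower ℚ F M] [IsGalois F M]

variable (p : ℕ) [hp : Fact p.Prime] (σ : M ≃ₐ[F] M)
  (hσ : ∀ γ : M ≃ₐ[F] M, γ ∈ Subgroup.zpowers σ) (hord : orderOf σ = p)
  {ζ : F} (hζ : IsPrimitiveRoot ζ p) (a : Fˣ) {α : M}
  (hα : α ^ p = algebraMap F M (a : F)) (hσα : σ α = algebraMap F M ζ * α)
  (hgen : IntermediateField.adjoin F {α} = ⊤)

/-- the comparison map on `Dev.Idele F` -/
noncomputable def ideleToLocal (F : Type) [Field F] [NumberField F] :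
    Dev.Idele F →* ∀ v : HeightOneSpectrum (𝓞 F), ((completionData F).Fv v)ˣ :=
  (toIdele F).comp (Dev.Idele F).subtype

theorem ideleToLocal_apply (x : Dev.Idele F) : ideleToLocal F x = toIdele F x.1 := rfl

theorem ideleToLocal_diagI (c : Fˣ) :
    ideleToLocal F (diagI F c) = MonoidHom.pi (completionData F).loc c := by
  rw [ideleToLocal_apply]
  exact toIdele_diag c

theorem ideleToLocal_mem_idele (x : Dev.Idele F) :
    ideleToLocal F x ∈ idele (completionData F).U :=
  (toIdele_mem_idele_iff x.1).mpr x.2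

theorem range_ideleToLocal : (ideleToLocal F).range = idele (completionData F).U := by
  apply le_antisymm
  · rintro _ ⟨x, rfl⟩
    exact ideleToLocal_mem_idele x
  · intro y hy
    obtain ⟨x, hx⟩ := exists_idele_toIdele_eq y hy
    exact ⟨x, hx⟩

include hσ hord hζ hα hσα hgen in
/-- **Theorem A (norm containment).** -/
theorem mem_principal_sup_range_ideleNorm (S : Finset (HeightOneSpectrum (𝓞 F)))
    (hSp : ∀ v : HeightOneSpectrum (𝓞 F), (p : 𝓞 F) ∈ v.asIdeal → v ∈ S) (x : Dev.Idele F)
    (hx : ideleToLocal F x ∈ principal (completionData F).loc ⊔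
      localCond (completionData F).U
        (nrmMin (completionData F).U (completionData F).loc p S a)) :
    x ∈ Dev.principal F ⊔ (ideleNorm F M).range := by
  obtain ⟨y₀, ⟨c, rfl⟩, n, hn, hyn⟩ := Subgroup.mem_sup.mp hx
  set x' : Dev.Idele F := (diagI F c)⁻¹ * x with hx'
  have hx'n : ideleToLocal F x' = n := by
    rw [hx', map_mul, map_inv, ideleToLocal_diagI, ← hyn, inv_mul_cancel_left]
  have hloc : ∀ v, toIdele F x'.1 v ∈
      nrmMin (completionData F).U (completionData F).loc p S a v := by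
    intro v
    have := (mem_localCond.mp hn).2 v
    rw [← hx'n] at this
    exact this
  have hrange : x' ∈ (ideleNorm F M).range := by
    apply mem_range_ideleNorm p hp.out σ hσ hord x'
    intro q ι
    exact isLocNorm_of_kumCond p σ hσ hord hζ a.ne_zero hα hσα hgen ι
      (kumCond_of_forall_mem_nrmMin p S hSp a x'.1 hloc q (resF F ι))
  have hx_eq : x = diagI F c * x' := by rw [hx', mul_inv_cancel_left]
  rw [hx_eq]
  exact Subgroup.mul_mem_sup ⟨c, rfl⟩ hrange

include hσ hord hζ hα hσα hgen in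
/-- **Theorem B: the second inequality for Kummer extensions in the intrinsic model.** -/
theorem index_principal_sup_range_ideleNorm_dvd (ha' : a ∉ powSubgroup Fˣ p)
    (r₂ : ℕ) (hr₂ : Module.finrank ℚ F = 2 * r₂)
    (hunits : ∀ S' : Finset (HeightOneSpectrum (𝓞 F)),
      (∀ v : HeightOneSpectrum (𝓞 F), (p : 𝓞 F) ∈ v.asIdeal → v ∈ S') →
      ((unitsS (completionData F).U (completionData F).loc S').map (powMonoidHom p)).relIndex
        (unitsS (completionData F).U (completionData F).loc S') = p ^ (S'.card + r₂))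
    (FI : ∀ S' : Finset (HeightOneSpectrum (𝓞 F)),
      (∀ v : HeightOneSpectrum (𝓞 F), (p : 𝓞 F) ∈ v.asIdeal → v ∈ S') →
      ∀ x : Fˣ, x ∉ powSubgroup Fˣ p →
      ¬ idele (completionData F).U ≤ principal (completionData F).loc ⊔
        localCond (completionData F).U
          (nrmMin (completionData F).U (completionData F).loc p S' x))
    (FIL : ∀ b : Mˣ, b ∉ powSubgroup Mˣ p →
      ¬ idele (completionData M).U ≤ principal (completionData M).loc ⊔
        localCond (completionData M).U (nrmPow (completionData M).loc p b)) :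
    (Dev.principal F ⊔ (ideleNorm F M).range).index ∣ p := by
  classical
  -- the set `S`
  obtain ⟨S₀, hS₀⟩ := (completionData F).exists_finset_idele_le
  have hpfin : {v : HeightOneSpectrum (𝓞 F) | (p : 𝓞 F) ∈ v.asIdeal}.Finite := by
    have hp0 : (Ideal.span {((p : ℕ) : 𝓞 F)}) ≠ 0 := by
      rw [Ne, Ideal.zero_eq_bot, Ideal.span_singleton_eq_bot]
      exact_mod_cast hp.out.ne_zero
    refine (Ideal.finite_factors hp0).subset ?_
    intro v hv
    rw [Set.mem_ofPred_eq] at hv ⊢
    rw [Ideal.dvd_span_singleton]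
    exact hv
  set S : Finset (HeightOneSpectrum (𝓞 F)) :=
    S₀ ∪ hpfin.toFinset ∪ ((completionData F).finite_loc_not_mem_U a).toFinset with hS
  have hSp : ∀ v : HeightOneSpectrum (𝓞 F), (p : 𝓞 F) ∈ v.asIdeal → v ∈ S := by
    intro v hv
    rw [hS]
    apply Finset.mem_union_left
    apply Finset.mem_union_right
    exact (Set.Finite.mem_toFinset _).mpr hv
  have hS4 := hS₀ S (by
    rw [hS]
    exact Finset.subset_union_left.trans Finset.subset_union_left)
  have haS : a ∈ unitsS (completionData F).U (completionData F).loc S := by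
    intro v hv
    by_contra hcon
    apply hv
    rw [hS]
    apply Finset.mem_union_right
    exact (Set.Finite.mem_toFinset _).mpr hcon
  -- the unit `α`
  have hα0 : α ≠ 0 := by
    rintro rfl
    rw [zero_pow hp.out.ne_zero] at hα
    exact (map_ne_zero _).mpr a.ne_zero hα.symm
  have hαu : (Units.mk0 α hα0) ^ p = Units.map (algebraMap F M : F →* M) a := by
    apply Units.ext
    rw [Units.val_pow_eq_pow_val, Units.val_mk0, hα]
    rfl
  have hfix : ∀ x : M, σ x = x → ∃ c : F, algebraMap F M c = x := by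
    intro x hx
    have : x ∈ Set.range (algebraMap F M) := by
      rw [IsGalois.mem_range_algebraMap_iff_fixed]
      intro γ
      obtain ⟨k, rfl⟩ := Subgroup.mem_zpowers_iff.mp (hσ γ)
      have hstab : σ ∈ MulAction.stabilizer (M ≃ₐ[F] M) x := MulAction.mem_stabilizer_iff.mpr hx
      exact MulAction.mem_stabilizer_iff.mp (Subgroup.zpow_mem _ hstab k)
    exact this
  have hmain := second_inequality_kummer (completionData F) (completionData M) (placeBelow F)
    finite_setOf_placeBelow_eq (localEmb F M) localEmb_emb p hζ r₂ hr₂ S hS4 hSp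
    (fun T hT => by
      rw [hunits (S ∪ T) (fun v hv => Finset.mem_union_left T (hSp v hv)),
        Finset.card_union_of_disjoint hT]
      congr 1
      ring)
    (FI S hSp) FIL σ hfix a haS (Units.mk0 α hα0) hαu hσα ha'
  -- transport
  set H := principal (completionData F).loc ⊔ localCond (completionData F).U
    (nrmMin (completionData F).U (completionData F).loc p S a) with hH
  have hcomap : (H.comap (ideleToLocal F)).index ∣ p := by
    rw [Subgroup.index_comap, range_ideleToLocal]
    exact hmain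
  have hle : H.comap (ideleToLocal F) ≤ Dev.principal F ⊔ (ideleNorm F M).range := by
    intro x hx
    exact mem_principal_sup_range_ideleNorm p σ hσ hord hζ a hα hσα hgen S hSp x hx
  exact (Subgroup.index_dvd_of_le hle).trans hcomap

end Global

end Fermat.Agent.S55lib.SecondIneq
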