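/-
S55 sprint, block (IV) second inequality (helper1).
Kummer generators: a cyclic Galois extension `M/F` of prime degree `p` with generator `σ` and
`ζ_p ∈ F` is `F(α)` with `α ^ p = a ∈ Fˣ`, `σ α = ζ α`, `a` not a `p`-th power.
-/
import Mathlib
import Fermat.Agent.S55lib.SecondIneq.Core

set_option autoImplicit false

namespace Fermat.Agent.S55lib.SecondIneq

open Polynomial IntermediateField

/-- **Kummer generator adapted to a given generator `σ` of the Galois group.** -/
theorem exists_kummer_generator {F M : Type*} [Field F] [Field M] [Algebra F M]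
    [FiniteDimensional F M] [IsGalois F M] (p : ℕ) [hp : Fact p.Prime] (σ : M ≃ₐ[F] M)
    (hσ : ∀ γ : M ≃ₐ[F] M, γ ∈ Subgroup.zpowers σ) (hcard : Nat.card (M ≃ₐ[F] M) = p)
    {ζ : F} (hζ : IsPrimitiveRoot ζ p) :
    orderOf σ = p ∧ ∃ (a : Fˣ) (α : M), α ^ p = algebraMap F M (a : F) ∧
      σ α = algebraMap F M ζ * α ∧ IntermediateField.adjoin F {α} = ⊤ ∧
      a ∉ powSubgroup Fˣ p := by
  have hord : orderOf σ = p := by
    rw [orderOf_eq_card_of_forall_mem_zpowers hσ, hcard]
  refine ⟨hord, ?_⟩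
  -- eigenvector
  have hroot : IsRoot (minpoly F σ.toLinearMap) ζ := by
    simpa [minpoly_algEquiv_toLinearMap σ (isOfFinOrder_of_finite σ), hord,
      sub_eq_zero] using hζ.pow_eq_one
  obtain ⟨v, hv⟩ := (Module.End.hasEigenvalue_of_isRoot hroot).exists_hasEigenvector
  have hv0 : v ≠ 0 := hv.2
  have hσv : σ v = algebraMap F M ζ * v := by
    have := hv.apply_eq_smul
    rw [AlgEquiv.toLinearMap_apply] at this
    rw [this, Algebra.smul_def]
  have hζ1 : ζ ≠ 1 := hζ.ne_one hp.out.one_lt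
  -- `v ∉ F`
  have hvF : v ∉ Set.range (algebraMap F M) := by
    rintro ⟨c, rfl⟩
    rw [AlgEquiv.commutes] at hσv
    have h1 : algebraMap F M ζ = 1 := by
      have := mul_right_cancel₀ hv0 (show algebraMap F M ζ * algebraMap F M c =
        1 * algebraMap F M c by rw [one_mul]; exact hσv.symm)
      exact this
    apply hζ1
    apply (algebraMap F M).injective
    rw [h1, map_one]
  -- `v ^ p ∈ F`
  have hvp : v ^ p ∈ Set.range (algebraMap F M) := by
    rw [IsGalois.mem_range_algebraMap_iff_fixed]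
    intro γ
    obtain ⟨k, rfl⟩ := Subgroup.mem_zpowers_iff.mp (hσ γ)
    have hfix : σ (v ^ p) = v ^ p := by
      rw [map_pow, hσv, mul_pow, ← map_pow, hζ.pow_eq_one, map_one, one_mul]
    have hstab : σ ∈ MulAction.stabilizer (M ≃ₐ[F] M) (v ^ p) :=
      MulAction.mem_stabilizer_iff.mpr hfix
    exact MulAction.mem_stabilizer_iff.mp (Subgroup.zpow_mem _ hstab k)
  obtain ⟨a₀, ha₀⟩ := hvp
  have ha₀0 : a₀ ≠ 0 := by
    rintro rfl
    rw [map_zero] at ha₀
    exact hv0 (pow_eq_zero_iff hp.out.ne_zero |>.mp ha₀.symm)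
  refine ⟨Units.mk0 a₀ ha₀0, v, ?_, hσv, ?_, ?_⟩
  · rw [Units.val_mk0, ha₀]
  · -- degree `p` is prime
    have hfin : Module.finrank F M = p := by
      rw [← IsGalois.card_aut_eq_finrank, hcard]
    have hprime : (Module.finrank F M).Prime := by rw [hfin]; exact hp.out
    have := IntermediateField.isSimpleOrder_of_finrank_prime F M hprime
    rcases eq_bot_or_eq_top (IntermediateField.adjoin F {v}) with h | h
    · exfalso
      apply hvF
      have hmem : v ∈ IntermediateField.adjoin F {v} :=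
        IntermediateField.mem_adjoin_simple_self F v
      rw [h, IntermediateField.mem_bot] at hmem
      exact hmem
    · exact h
  · rintro ⟨b, hb⟩
    -- `v ^ p = b ^ p`, so `v = ζ^i b ∈ F`
    have hb' : (b : F) ^ p = a₀ := by
      have := congrArg (fun u : Fˣ => (u : F)) hb
      simpa using this
    have hbM : algebraMap F M (b : F) ≠ 0 := (_root_.map_ne_zero _).mpr b.ne_zero
    have h1 : (v / algebraMap F M (b : F)) ^ p = 1 := by
      rw [div_pow, ← map_pow, hb', ha₀, div_self]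
      exact pow_ne_zero _ hv0
    have hζM : IsPrimitiveRoot (algebraMap F M ζ) p :=
      hζ.map_of_injective (algebraMap F M).injective
    obtain ⟨i, _, hi⟩ := hζM.eq_pow_of_pow_eq_one h1
    apply hvF
    refine ⟨ζ ^ i * b, ?_⟩
    rw [map_mul, map_pow, hi, div_mul_cancel₀ _ hbM]

/-- **Kummer data from a `p`-th root**: if `M/F` is cyclic Galois of prime degree `p` with generator
`σ`, `ζ_p ∈ F`, and `α ∈ M` with `α ^ p = a ∈ Fˣ ∖ Fˣᵖ`, then `σ α = ζ' α` for a primitive `p`-th
root of unity `ζ' ∈ F`, and `M = F(α)`. -/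
theorem exists_primitiveRoot_apply_eq {F M : Type*} [Field F] [Field M] [Algebra F M]
    [FiniteDimensional F M] [IsGalois F M] (p : ℕ) [hp : Fact p.Prime] (σ : M ≃ₐ[F] M)
    (hσ : ∀ γ : M ≃ₐ[F] M, γ ∈ Subgroup.zpowers σ) (hcard : Nat.card (M ≃ₐ[F] M) = p)
    {ζ : F} (hζ : IsPrimitiveRoot ζ p) (a : Fˣ) (ha' : a ∉ powSubgroup Fˣ p) {α : M}
    (hα : α ^ p = algebraMap F M (a : F)) :
    ∃ ζ' : F, IsPrimitiveRoot ζ' p ∧ σ α = algebraMap F M ζ' * α ∧
      IntermediateField.adjoin F {α} = ⊤ := by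
  haveI : NeZero p := ⟨hp.out.ne_zero⟩
  have hα0 : α ≠ 0 := by
    rintro rfl
    rw [zero_pow hp.out.ne_zero] at hα
    exact (_root_.map_ne_zero _).mpr a.ne_zero hα.symm
  -- `α ∉ F`
  have hαF : α ∉ Set.range (algebraMap F M) := by
    rintro ⟨c, rfl⟩
    apply ha'
    have hc0 : c ≠ 0 := by
      rintro rfl
      exact hα0 (map_zero _)
    refine ⟨Units.mk0 c hc0, ?_⟩
    apply Units.ext
    apply (algebraMap F M).injective
    rw [← hα]
    simp
  have h1 : (σ α / α) ^ p = 1 := by
    rw [div_pow, ← map_pow, hα, AlgEquiv.commutes, div_self]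
    rw [← hα]; exact pow_ne_zero _ hα0
  have hζM : IsPrimitiveRoot (algebraMap F M ζ) p :=
    hζ.map_of_injective (algebraMap F M).injective
  obtain ⟨i, hi, hiζ⟩ := hζM.eq_pow_of_pow_eq_one h1
  have hσα : σ α = algebraMap F M (ζ ^ i) * α := by
    rw [map_pow, hiζ, div_mul_cancel₀ _ hα0]
  have hpi : ¬ p ∣ i := by
    intro hdvd
    have hi0 : i = 0 := Nat.eq_zero_of_dvd_of_lt hdvd hi
    apply hαF
    rw [IsGalois.mem_range_algebraMap_iff_fixed]
    intro γ
    obtain ⟨k, rfl⟩ := Subgroup.mem_zpowers_iff.mp (hσ γ)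
    have hfix : σ α = α := by rw [hσα, hi0, pow_zero, map_one, one_mul]
    have hstab : σ ∈ MulAction.stabilizer (M ≃ₐ[F] M) α := MulAction.mem_stabilizer_iff.mpr hfix
    exact MulAction.mem_stabilizer_iff.mp (Subgroup.zpow_mem _ hstab k)
  have hcop : i.Coprime p := ((Nat.Prime.coprime_iff_not_dvd hp.out).mpr hpi).symm
  refine ⟨ζ ^ i, hζ.pow_of_coprime i hcop, hσα, ?_⟩
  have hfin : Module.finrank F M = p := by
    rw [← IsGalois.card_aut_eq_finrank, hcard]
  have hprime : (Module.finrank F M).Prime := by rw [hfin]; exact hp.out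
  have := IntermediateField.isSimpleOrder_of_finrank_prime F M hprime
  rcases eq_bot_or_eq_top (IntermediateField.adjoin F {α}) with h | h
  · exfalso
    apply hαF
    have hmem : α ∈ IntermediateField.adjoin F {α} :=
      IntermediateField.mem_adjoin_simple_self F α
    rw [h, IntermediateField.mem_bot] at hmem
    exact hmem
  · exact h

end Fermat.Agent.S55lib.SecondIneq
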