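/-
S55 sprint, block (IV) second inequality (helper1).
**Theorem C**: the inputs `FI` / `FIL` of the counting argument from the first inequality.
For `x ∈ Fˣ` not a `p`-th power the auxiliary Kummer extension `F[X]/(X^p - x)` is a number field,
cyclic of degree `p` over `F`; by Theorem A every idele in `Fˣ · ∏ nrmMin` is a norm from it (up to
a principal idele), so `idele ≤ principal ⊔ localCond nrmMin` would make the norm index `1`,
contradicting the first inequality (norm index `≠ 1`).
-/
import Mathlib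
import Fermat.Agent.S55lib.SecondIneq.IdeleBridge
import Fermat.Agent.S55lib.SecondIneq.KummerGen
import Fermat.Agent.S55lib.Dev.LayerIndex

set_option autoImplicit false

namespace Fermat.Agent.S55lib.SecondIneq

open Polynomial IsDedekindDomain NumberField Fermat.Agent.S55lib Fermat.Agent.S55lib.Dev
  Fermat.Agent.S55lib.Places

/-- **the first inequality in the weak form used here**: the norm index of a Kummer layer is
not `1`. -/
def NormIndexStatement (p : ℕ) : Prop :=
  ∀ (F M : Type) [Field F] [Field M] [NumberField F] [NumberField M] [Algebra F M] [IsGalois F M]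
    (σ : M ≃ₐ[F] M), IsKummerLayer p F M σ →
    Dev.principal F ⊔ (Idele.norm (IsScalarTower.toAlgHom ℚ F M)).range ≠ ⊤

/-- the first inequality (in helper5's shape) gives the weak form -/
theorem normIndexStatement_of_firstIneq {p : ℕ} (hp : p ≠ 1) (h : FirstIneqStatement p) :
    NormIndexStatement p := by
  intro F M _ _ _ _ _ _ σ hσ htop
  have h1 := h F M σ hσ
  rw [relIndex_nrmHom_difHom_eq_index F M σ p hσ.gen hσ.card, htop, Subgroup.index_top] at h1
  exact hp (Nat.eq_one_of_mul_eq_one_right h1.symm)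

/-- my idele norm is helper5's -/
theorem ideleNorm_eq (F M : Type*) [Field F] [Field M] [Algebra ℚ F] [Algebra ℚ M]
    [Algebra F M] [IsScalarTower ℚ F M] [FiniteDimensional ℚ M] :
    ideleNorm F M = Idele.norm (IsScalarTower.toAlgHom ℚ F M) := rfl

section Aux

variable {F : Type} [Field F] [NumberField F]

/-- `F[X]/(f)` is a number field -/
theorem numberField_adjoinRoot (f : F[X]) [hf : Fact (Irreducible f)] :
    NumberField (AdjoinRoot f) := by
  have : CharZero (AdjoinRoot f) :=
    charZero_of_injective_algebraMap (algebraMap F (AdjoinRoot f)).injective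
  have : FiniteDimensional F (AdjoinRoot f) := (AdjoinRoot.powerBasis hf.out.ne_zero).finite
  have : FiniteDimensional ℚ (AdjoinRoot f) := FiniteDimensional.trans ℚ F (AdjoinRoot f)
  exact ⟨⟩

theorem nrmPow_le_nrmMin {Kx : Type*} [CommGroup Kx] {ι : Type*} {Kv : ι → Type*}
    [∀ v, CommGroup (Kv v)] (U : ∀ v, Subgroup (Kv v)) (loc : ∀ v, Kx →* Kv v) (p : ℕ)
    (S : Finset ι) (a : Kx) (v : ι) : nrmPow loc p a v ≤ nrmMin U loc p S a v := by
  rw [nrmPow]
  split_ifs with h
  · rw [nrmMin_eq_top U loc p S a v h]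
  · exact pow_le_nrmMin U loc p S a v

theorem localCond_mono {ι : Type*} {Kv : ι → Type*} [∀ v, CommGroup (Kv v)]
    (U : ∀ v, Subgroup (Kv v)) {N N' : ∀ v, Subgroup (Kv v)} (h : ∀ v, N v ≤ N' v) :
    localCond U N ≤ localCond U N' := by
  intro x hx
  rw [mem_localCond] at hx ⊢
  exact ⟨hx.1, fun v => h v (hx.2 v)⟩

/-- the places above `p` form a finite set -/
theorem exists_finset_above (F : Type) [Field F] [NumberField F] (p : ℕ) (hp : p ≠ 0) :
    ∃ S : Finset (HeightOneSpectrum (𝓞 F)),
      ∀ v : HeightOneSpectrum (𝓞 F), (p : 𝓞 F) ∈ v.asIdeal → v ∈ S := by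
  have hpfin : {v : HeightOneSpectrum (𝓞 F) | (p : 𝓞 F) ∈ v.asIdeal}.Finite := by
    have hp0 : (Ideal.span {((p : ℕ) : 𝓞 F)}) ≠ 0 := by
      rw [Ne, Ideal.zero_eq_bot, Ideal.span_singleton_eq_bot]
      exact_mod_cast hp
    refine (Ideal.finite_factors hp0).subset ?_
    intro v hv
    rw [Set.mem_ofPred_eq] at hv ⊢
    rw [Ideal.dvd_span_singleton]
    exact hv
  exact ⟨hpfin.toFinset, fun v hv => (Set.Finite.mem_toFinset _).mpr hv⟩

variable (p : ℕ) [hp : Fact p.Prime] {ζ : F} (hζ : IsPrimitiveRoot ζ p)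

include hζ in
/-- **the auxiliary Kummer extension** `F[X]/(X^p - x)` of a number field `F ∋ ζ_p`, for `x` not a
`p`-th power: a number field, Galois over `F` with group of order `p` generated by `σ`,
`σ α = ζ α`, `α ^ p = x`, `F(α)` everything. -/
theorem exists_aux_kummer (x : Fˣ) (hx : x ∉ powSubgroup Fˣ p) :
    ∃ (L : Type) (_ : Field L) (_ : NumberField L) (_ : Algebra F L) (_ : IsGalois F L)
      (σ : L ≃ₐ[F] L) (α : L), (∀ γ : L ≃ₐ[F] L, γ ∈ Subgroup.zpowers σ) ∧
      Nat.card (L ≃ₐ[F] L) = p ∧ orderOf σ = p ∧ α ^ p = algebraMap F L (x : F) ∧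
      σ α = algebraMap F L ζ * α ∧ IntermediateField.adjoin F {α} = ⊤ := by
  have hirr : Irreducible (X ^ p - C (x : F)) := by
    apply X_pow_sub_C_irreducible_of_prime hp.out
    intro b hb
    apply hx
    have hb0 : b ≠ 0 := by
      rintro rfl
      rw [zero_pow hp.out.ne_zero] at hb
      exact x.ne_zero hb.symm
    refine ⟨Units.mk0 b hb0, ?_⟩
    apply Units.ext
    simpa using hb
  have hprim : (primitiveRoots p F).Nonempty :=
    ⟨ζ, (mem_primitiveRoots hp.out.pos).mpr hζ⟩
  haveI : Fact (Irreducible (X ^ p - C (x : F))) := ⟨hirr⟩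
  haveI : NeZero p := ⟨hp.out.ne_zero⟩
  haveI : NumberField (AdjoinRoot (X ^ p - C (x : F))) := numberField_adjoinRoot _
  haveI : IsSplittingField F (AdjoinRoot (X ^ p - C (x : F))) (X ^ p - C (x : F)) :=
    isSplittingField_AdjoinRoot_X_pow_sub_C hprim hirr
  haveI : IsGalois F (AdjoinRoot (X ^ p - C (x : F))) :=
    isGalois_of_isSplittingField_X_pow_sub_C hprim hirr _
  have hfin : Module.finrank F (AdjoinRoot (X ^ p - C (x : F))) = p :=
    finrank_of_isSplittingField_X_pow_sub_C hprim hirr _
  have hcard : Nat.card (AdjoinRoot (X ^ p - C (x : F)) ≃ₐ[F] AdjoinRoot (X ^ p - C (x : F))) = p := by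
    rw [IsGalois.card_aut_eq_finrank, hfin]
  -- the generator
  have hζu : ζ ^ p = 1 := hζ.pow_eq_one
  set η : rootsOfUnity p F := rootsOfUnity.mkOfPowEq ζ hζu with hη
  set σ := autAdjoinRootXPowSubC p (x : F) η with hσdef
  have hσroot : σ (AdjoinRoot.root _) =
      algebraMap F _ ζ * AdjoinRoot.root (X ^ p - C (x : F)) := by
    rw [hσdef, autAdjoinRootXPowSubC_root, Algebra.smul_def, hη, rootsOfUnity.coe_mkOfPowEq]
  have hrootpow : (AdjoinRoot.root (X ^ p - C (x : F))) ^ p = algebraMap F _ (x : F) := by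
    have := AdjoinRoot.eval₂_root (X ^ p - C (x : F))
    simpa [sub_eq_zero] using this
  have hσ1 : σ ≠ 1 := by
    intro h1
    have h2 := hσroot
    rw [h1, AlgEquiv.one_apply] at h2
    have hr0 : AdjoinRoot.root (X ^ p - C (x : F)) ≠ 0 := by
      intro h0
      have h3 := hrootpow
      rw [h0, zero_pow hp.out.ne_zero] at h3
      exact (_root_.map_ne_zero _).mpr x.ne_zero h3.symm
    have h4 : algebraMap F (AdjoinRoot (X ^ p - C (x : F))) ζ = 1 := by
      have := mul_right_cancel₀ hr0 (show algebraMap F _ ζ * AdjoinRoot.root (X ^ p - C (x : F)) =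
        1 * AdjoinRoot.root (X ^ p - C (x : F)) by rw [one_mul]; exact h2.symm)
      exact this
    apply hζ.ne_one hp.out.one_lt
    apply (algebraMap F (AdjoinRoot (X ^ p - C (x : F)))).injective
    rw [h4, map_one]
  have hgenσ : ∀ γ : AdjoinRoot (X ^ p - C (x : F)) ≃ₐ[F] AdjoinRoot (X ^ p - C (x : F)),
      γ ∈ Subgroup.zpowers σ := fun γ => mem_zpowers_of_prime_card hcard hσ1
  have hord : orderOf σ = p := by
    rw [orderOf_eq_card_of_forall_mem_zpowers hgenσ, hcard]
  have hadj : IntermediateField.adjoin F {AdjoinRoot.root (X ^ p - C (x : F))} = ⊤ :=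
    IntermediateField.adjoin_eq_top_of_algebra F _ AdjoinRoot.adjoinRoot_eq_top
  exact ⟨AdjoinRoot (X ^ p - C (x : F)), inferInstance, inferInstance, inferInstance, inferInstance,
    σ, AdjoinRoot.root _, hgenσ, hcard, hord, hrootpow, hσroot, hadj⟩

include hζ in
/-- **Theorem C (`FI`).** -/
theorem not_idele_le_of_normIndex (hK6 : NormIndexStatement p)
    (S : Finset (HeightOneSpectrum (𝓞 F)))
    (hSp : ∀ v : HeightOneSpectrum (𝓞 F), (p : 𝓞 F) ∈ v.asIdeal → v ∈ S)
    (x : Fˣ) (hx : x ∉ powSubgroup Fˣ p) :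
    ¬ idele (completionData F).U ≤ principal (completionData F).loc ⊔
      localCond (completionData F).U
        (nrmMin (completionData F).U (completionData F).loc p S x) := by
  intro hle
  obtain ⟨L, _, _, _, _, σ, α, hgenσ, hcard, hord, hα, hσα, hadj⟩ := exists_aux_kummer p hζ x hx
  apply hK6 F L σ ⟨hgenσ, hcard, ζ, hζ⟩
  rw [eq_top_iff]
  intro y _
  rw [← ideleNorm_eq]
  exact mem_principal_sup_range_ideleNorm p σ hgenσ hord hζ x hα hσα hadj S hSp y
    (hle (ideleToLocal_mem_idele y))

include hζ in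
/-- **Theorem C (`FIL`)**: the form without the unramified clause. -/
theorem not_idele_le_nrmPow (hK6 : NormIndexStatement p) (b : Fˣ) (hb : b ∉ powSubgroup Fˣ p) :
    ¬ idele (completionData F).U ≤ principal (completionData F).loc ⊔
      localCond (completionData F).U (nrmPow (completionData F).loc p b) := by
  intro hle
  obtain ⟨S, hS⟩ := exists_finset_above F p hp.out.ne_zero
  refine not_idele_le_of_normIndex p hζ hK6 S hS b hb (hle.trans ?_)
  exact sup_le_sup_left (localCond_mono (completionData F).U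
    (fun v => nrmPow_le_nrmMin (completionData F).U (completionData F).loc p S b v)) _

end Aux

end Fermat.Agent.S55lib.SecondIneq
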