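/-
S55 sprint, block (IV) second inequality (helper1).
**K7 in the shape consumed by `Dev/LayerIndex`/`Dev/K8`**: for a Kummer layer `M/F` of odd prime
degree `p` of number fields, `[I(F) : Fˣ · N I(M)] ∣ p`, hence `SecondIneqStatement p`;
from the first inequality (`FirstIneqStatement p`, used through `NormIndexStatement p`) and
the `S`-unit count (`UnitsPowStatement p`).
-/
import Mathlib
import Fermat.Agent.S55lib.SecondIneq.AuxKummer

set_option autoImplicit false

namespace Fermat.Agent.S55lib.SecondIneq

open Polynomial IsDedekindDomain NumberField Fermat.Agent.S55lib Fermat.Agent.S55lib.Dev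
  Fermat.Agent.S55lib.Places

/-- **(U)**: `[E_S : E_S^p] = p ^ (|S| + r₂)` for the `S`-units of a number field containing
`ζ_p`, `p` odd (Dirichlet's `S`-unit theorem). -/
def UnitsPowStatement (p : ℕ) : Prop :=
  ∀ (F : Type) [Field F] [NumberField F], (∃ ζ : F, IsPrimitiveRoot ζ p) →
    ∀ S : Finset (HeightOneSpectrum (𝓞 F)),
      ((unitsS (completionData F).U (completionData F).loc S).map (powMonoidHom p)).relIndex
        (unitsS (completionData F).U (completionData F).loc S) =
          p ^ (S.card + InfinitePlace.nrComplexPlaces F)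

/-- **K7, idele form**: the norm index of a Kummer layer of odd prime degree divides `p`. -/
theorem index_norm_dvd_of_isKummerLayer (p : ℕ) [hp : Fact p.Prime] (hp2 : p ≠ 2)
    (hU : UnitsPowStatement p) (hK6 : NormIndexStatement p)
    (F M : Type) [Field F] [Field M] [NumberField F] [NumberField M] [Algebra F M] [IsGalois F M]
    (σ : M ≃ₐ[F] M) (h : IsKummerLayer p F M σ) :
    (Dev.principal F ⊔ (Idele.norm (IsScalarTower.toAlgHom ℚ F M)).range).index ∣ p := by
  obtain ⟨ζ, hζ⟩ := h.root
  haveI : FiniteDimensional F M := Module.Finite.of_restrictScalars_finite ℚ F M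
  obtain ⟨hord, a, α, hα, hσα, hgen, ha⟩ := exists_kummer_generator p σ h.gen h.card hζ
  have hp3 : 2 < p := lt_of_le_of_ne hp.out.two_le (Ne.symm hp2)
  have hr₂ : Module.finrank ℚ F = 2 * InfinitePlace.nrComplexPlaces F := by
    rw [← InfinitePlace.card_add_two_mul_card_eq_rank,
      NumberField.InfinitePlace.IsPrimitiveRoot.nrRealPlaces_eq_zero_of_two_lt hp3 hζ, zero_add]
  have hζM : IsPrimitiveRoot (algebraMap F M ζ) p :=
    hζ.map_of_injective (algebraMap F M).injective
  rw [← ideleNorm_eq]
  exact index_principal_sup_range_ideleNorm_dvd p σ h.gen hord hζ a hα hσα hgen ha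
    (InfinitePlace.nrComplexPlaces F) hr₂ (fun S' _ => hU F ⟨ζ, hζ⟩ S')
    (fun S' hS' x hx => not_idele_le_of_normIndex p hζ hK6 S' hS' x hx)
    (fun b hb => not_idele_le_nrmPow p hζM hK6 b hb)

/-- **K7**: the second inequality statement, from the first inequality and the `S`-unit count. -/
theorem secondIneqStatement_of_firstIneq (p : ℕ) [hp : Fact p.Prime] (hp2 : p ≠ 2)
    (hU : UnitsPowStatement p) (h1 : FirstIneqStatement p) : SecondIneqStatement p :=
  secondIneqStatement_of_index p (fun F M _ _ _ _ _ _ σ hσ =>
    index_norm_dvd_of_isKummerLayer p hp2 hU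
      (normIndexStatement_of_firstIneq hp.out.ne_one h1) F M σ hσ)

end Fermat.Agent.S55lib.SecondIneq
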