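/-
S55 sprint, block (IV) second inequality, glue to the Layers model (helper1).
EXTENSION BY EQUIVARIANCE along one `G_q`-orbit of embeddings: an element `y` of the local field
`ℚ_q(ι₀ M)` defines the element of `J_q(M)` with value `d y` at `d • ι₀` and `1` off the orbit of `ι₀`.
-/
import Mathlib
import Fermat.Agent.S55lib.Iface.Layers

set_option autoImplicit false

namespace Fermat.Agent.S55lib.SecondIneq

open Fermat.Agent.S55lib

variable {q : ℕ} [Fact q.Prime] {M : Type*} [Field M] [Algebra ℚ M]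

/-- the action of `G_q` on the units of `ℚ̄_q` -/
noncomputable def galU (d : GalQq q) : (PadicAlgCl q)ˣ →* (PadicAlgCl q)ˣ :=
  Units.map (MonoidHomClass.toMonoidHom d)

@[simp] theorem coe_galU (d : GalQq q) (y : (PadicAlgCl q)ˣ) :
    ((galU d y : (PadicAlgCl q)ˣ) : PadicAlgCl q) = d (y : PadicAlgCl q) := rfl

theorem galU_mul (d e : GalQq q) (y : (PadicAlgCl q)ˣ) : galU (d * e) y = galU d (galU e y) :=
  Units.ext rfl

theorem mem_Jq_iff_galU (f : Emb q M → (PadicAlgCl q)ˣ) :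
    f ∈ Jq q M ↔ ∀ (d : GalQq q) (ι : Emb q M), f (d • ι) = galU d (f ι) := by
  rw [mem_Jq_iff]
  exact ⟨fun h d ι => Units.ext (h d ι), fun h d ι => congrArg Units.val (h d ι)⟩

theorem Jq.apply_smul (f : Jq q M) (d : GalQq q) (ι : Emb q M) : f.1 (d • ι) = galU d (f.1 ι) :=
  (mem_Jq_iff_galU f.1).mp f.2 d ι

/-- elements of the local field are fixed by the stabiliser -/
theorem galU_eq_of_smul_eq {ι₀ : Emb q M} {y : (PadicAlgCl q)ˣ}
    (hy : (y : PadicAlgCl q) ∈ localField q M ι₀) {d d' : GalQq q} (h : d • ι₀ = d' • ι₀) :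
    galU d y = galU d' y := by
  have h1 : (d'⁻¹ * d) • ι₀ = ι₀ := by rw [mul_smul, h, inv_smul_smul]
  have h2 := (Emb.smul_eq_self_iff (d'⁻¹ * d) ι₀).mp h1
  rw [IntermediateField.mem_fixingSubgroup_iff] at h2
  have h3 := h2 _ hy
  apply Units.ext
  rw [coe_galU, coe_galU]
  have h4 : d' ((d'⁻¹ * d) (y : PadicAlgCl q)) = d' (y : PadicAlgCl q) := by rw [h3]
  rw [← h4]
  show d (y : PadicAlgCl q) = (d' * (d'⁻¹ * d)) (y : PadicAlgCl q)
  rw [mul_inv_cancel_left]

open Classical in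
/-- **extension by equivariance along the orbit of `ι₀`** -/
theorem exists_Jq_eq_on_orbit (ι₀ : Emb q M) (y : (PadicAlgCl q)ˣ)
    (hy : (y : PadicAlgCl q) ∈ localField q M ι₀) :
    ∃ g : Jq q M, (∀ d : GalQq q, g.1 (d • ι₀) = galU d y) ∧
      ∀ ι : Emb q M, (¬ ∃ d : GalQq q, d • ι₀ = ι) → g.1 ι = 1 := by
  set G : Emb q M → (PadicAlgCl q)ˣ := fun ι =>
    if h : ∃ d : GalQq q, d • ι₀ = ι then galU h.choose y else 1 with hG
  have hGorb : ∀ d : GalQq q, G (d • ι₀) = galU d y := by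
    intro d
    have h : ∃ d' : GalQq q, d' • ι₀ = d • ι₀ := ⟨d, rfl⟩
    simp only [hG, dif_pos h]
    exact galU_eq_of_smul_eq hy h.choose_spec
  have hGoff : ∀ ι : Emb q M, (¬ ∃ d : GalQq q, d • ι₀ = ι) → G ι = 1 := by
    intro ι h
    simp only [hG, dif_neg h]
  have hmem : G ∈ Jq q M := by
    rw [mem_Jq_iff_galU]
    intro e ι
    by_cases h : ∃ d : GalQq q, d • ι₀ = ι
    · obtain ⟨d, rfl⟩ := h
      rw [← mul_smul, hGorb, hGorb, galU_mul]
    · have h' : ¬ ∃ d : GalQq q, d • ι₀ = e • ι := by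
        rintro ⟨d, hd⟩
        apply h
        refine ⟨e⁻¹ * d, ?_⟩
        rw [mul_smul, hd, inv_smul_smul]
      rw [hGoff _ h, hGoff _ h', map_one]
  exact ⟨⟨G, hmem⟩, hGorb, hGoff⟩

/-- the value at `ι₀` itself -/
theorem galU_one (y : (PadicAlgCl q)ˣ) : galU (1 : GalQq q) y = y := Units.ext rfl

end Fermat.Agent.S55lib.SecondIneq
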