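/-
S55 sprint, block (IV) second inequality, glue to the Layers model (helper1).
For a cyclic extension `M/F` with generator `σ` of order `p`:
the fibres of `Emb q M → Emb q F` are the `⟨σ⟩`-orbits; the norm `J_q(M) → J_q(F)` is the product over
`i < p` of the translates by `σ^i`; every embedding is either SPLIT (`ℚ_q(ι M) = ℚ_q(ι F)`) or there is
`τ ∈ G_q` with `τ • ι = ι ∘ σ`; the norm of the orbit extension in both cases.
-/
import Mathlib
import Fermat.Agent.S55lib.SecondIneq.OrbitExt

set_option autoImplicit false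

namespace Fermat.Agent.S55lib.SecondIneq

open Fermat.Agent.S55lib

variable {q : ℕ} [Fact q.Prime] {F M : Type*} [Field F] [Field M] [Algebra ℚ F] [Algebra ℚ M]
  [Algebra F M] [IsScalarTower ℚ F M]

variable (F) in
/-- restriction of an embedding of `M` to `F` -/
noncomputable abbrev resF (ι : Emb q M) : Emb q F := Emb.res (IsScalarTower.toAlgHom ℚ F M) ι

/-- translation of an embedding by an automorphism of `M/F` -/
noncomputable def compA (ι : Emb q M) (γ : M ≃ₐ[F] M) : Emb q M :=
  ι.comp ((autToQ F γ : M ≃ₐ[ℚ] M) : M →ₐ[ℚ] M)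

@[simp] theorem compA_apply (ι : Emb q M) (γ : M ≃ₐ[F] M) (x : M) : compA ι γ x = ι (γ x) := rfl

theorem compA_one (ι : Emb q M) : compA ι (1 : M ≃ₐ[F] M) = ι := by
  ext x; rfl

theorem compA_mul (ι : Emb q M) (γ γ' : M ≃ₐ[F] M) : compA (compA ι γ) γ' = compA ι (γ * γ') := by
  ext x; rfl

theorem resF_compA (ι : Emb q M) (γ : M ≃ₐ[F] M) : resF F (compA ι γ) = resF F ι := by
  ext x
  simp [Emb.res_apply]

theorem smul_compA (d : GalQq q) (ι : Emb q M) (γ : M ≃ₐ[F] M) :
    d • compA ι γ = compA (d • ι) γ := by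
  ext x; rfl

theorem compA_injective (ι : Emb q M) : Function.Injective (compA (F := F) ι) := by
  intro γ γ' h
  ext x
  have := congrArg (fun κ : Emb q M => κ x) h
  exact ι.injective this

theorem exists_compA_eq_of_resF_eq [Normal F M] (ι ι' : Emb q M) (h : resF F ι = resF F ι') :
    ∃ γ : M ≃ₐ[F] M, ι' = compA ι γ :=
  Emb.exists_aut_of_res_eq ι ι' h

theorem localField_resF_le (ι : Emb q M) : localField q F (resF F ι) ≤ localField q M ι := by
  unfold localField
  apply IntermediateField.adjoin.mono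
  rintro _ ⟨x, rfl⟩
  exact ⟨algebraMap F M x, rfl⟩

theorem localField_compA (ι : Emb q M) (γ : M ≃ₐ[F] M) :
    localField q M (compA ι γ) = localField q M ι := by
  unfold localField
  congr 1
  ext y
  constructor
  · rintro ⟨x, rfl⟩
    exact ⟨γ x, rfl⟩
  · rintro ⟨x, rfl⟩
    exact ⟨γ.symm x, by simp⟩

theorem localField_smul (d : GalQq q) (ι : Emb q M) (y : PadicAlgCl q)
    (hy : y ∈ localField q M ι) : d y ∈ localField q M (d • ι) := by
  unfold localField at hy ⊢
  have h : (d : PadicAlgCl q →ₐ[ℚ_[q]] PadicAlgCl q) y ∈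
      (IntermediateField.adjoin ℚ_[q] (Set.range ι)).map (d : PadicAlgCl q →ₐ[ℚ_[q]] PadicAlgCl q) :=
    (IntermediateField.mem_map _).mpr ⟨y, hy, rfl⟩
  rw [IntermediateField.adjoin_map] at h
  have hset : (d : PadicAlgCl q →ₐ[ℚ_[q]] PadicAlgCl q) '' Set.range ι = Set.range (d • ι) := by
    ext z
    constructor
    · rintro ⟨_, ⟨x, rfl⟩, rfl⟩
      exact ⟨x, rfl⟩
    · rintro ⟨x, rfl⟩
      exact ⟨ι x, ⟨x, rfl⟩, rfl⟩
  rw [hset] at h
  exact h

section Cyclic

variable [Normal F M] (p : ℕ) (σ : M ≃ₐ[F] M) (hσ : ∀ γ : M ≃ₐ[F] M, γ ∈ Subgroup.zpowers σ)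
  (hord : orderOf σ = p)

include hσ hord in
theorem exists_pow_of_resF_eq (hp : 0 < p) (ι ι' : Emb q M) (h : resF F ι = resF F ι') :
    ∃ i ∈ Finset.range p, ι' = compA ι (σ ^ i) := by
  obtain ⟨γ, rfl⟩ := exists_compA_eq_of_resF_eq ι ι' h
  have hfin : IsOfFinOrder σ := by
    rw [← orderOf_pos_iff, hord]; exact hp
  have hmem := hσ γ
  rw [← hfin.mem_powers_iff_mem_zpowers] at hmem
  obtain ⟨n, rfl⟩ := hmem
  refine ⟨n % p, Finset.mem_range.mpr (Nat.mod_lt _ hp), ?_⟩
  rw [← hord, pow_mod_orderOf]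

omit [Normal F M] in
include hord in
theorem compA_pow_injOn (ι : Emb q M) :
    Set.InjOn (fun i : ℕ => compA ι (σ ^ i)) (Finset.range p : Set ℕ) := by
  intro i hi j hj hij
  have h1 := compA_injective ι hij
  have hi' : i < orderOf σ := by rw [hord]; exact Finset.mem_range.mp hi
  have hj' : j < orderOf σ := by rw [hord]; exact Finset.mem_range.mp hj
  exact pow_injOn_Iio_orderOf hi' hj' h1

variable [FiniteDimensional ℚ M]

include hσ hord in
open Classical in
/-- the norm is the product over the translates -/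
theorem norm_apply_resF (hp : 0 < p) (g : Jq q M) (ι : Emb q M) :
    (Jq.norm (IsScalarTower.toAlgHom ℚ F M) g).1 (resF F ι) =
      ∏ i ∈ Finset.range p, g.1 (compA ι (σ ^ i)) := by
  rw [Jq.norm_apply]
  have himg : Finset.univ.filter (fun ι' : Emb q M =>
      Emb.res (IsScalarTower.toAlgHom ℚ F M) ι' = resF F ι) =
      (Finset.range p).image (fun i : ℕ => compA ι (σ ^ i)) := by
    ext ι'
    simp only [Finset.mem_filter, Finset.mem_univ, true_and, Finset.mem_image]
    constructor
    · intro h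
      obtain ⟨i, hi, rfl⟩ := exists_pow_of_resF_eq p σ hσ hord hp ι ι' h.symm
      exact ⟨i, hi, rfl⟩
    · rintro ⟨i, -, rfl⟩
      exact resF_compA ι (σ ^ i)
  rw [himg, Finset.prod_image (compA_pow_injOn p σ hord ι)]

omit [Normal F M] [FiniteDimensional ℚ M] in
/-- iterating `τ • ι = ι ∘ σ` -/
theorem pow_smul_eq_compA_pow (ι : Emb q M) (τ : GalQq q) (hτ : τ • ι = compA ι σ) (i : ℕ) :
    (τ ^ i) • ι = compA ι (σ ^ i) := by
  induction i with
  | zero => rw [pow_zero, pow_zero, one_smul, compA_one]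
  | succ i ih =>
    rw [pow_succ, mul_smul, hτ, smul_compA, ih, compA_mul, ← pow_succ]

omit [FiniteDimensional ℚ M] in
include hσ hord in
/-- **dichotomy**: an embedding is split or its decomposition group maps onto `⟨σ⟩`. -/
theorem split_or_exists_smul_eq (hp : p.Prime) (ι : Emb q M) :
    localField q M ι = localField q F (resF F ι) ∨ ∃ τ : GalQq q, τ • ι = compA ι σ := by
  by_cases hsplit : localField q M ι = localField q F (resF F ι)
  · exact Or.inl hsplit
  right
  -- some element of the stabiliser of `resF ι` moves `ι`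
  have hex : ∃ d : GalQq q, d • resF F ι = resF F ι ∧ d • ι ≠ ι := by
    by_contra hcon
    simp only [not_exists, not_and, not_not] at hcon
    apply hsplit
    apply le_antisymm _ (localField_resF_le ι)
    rw [← InfiniteGalois.fixedField_fixingSubgroup (localField q M ι),
      ← InfiniteGalois.fixedField_fixingSubgroup (localField q F (resF F ι))]
    apply IntermediateField.fixedField_antitone
    intro d hd
    rw [← Emb.smul_eq_self_iff] at hd ⊢
    exact hcon d hd
  obtain ⟨d, hd1, hd2⟩ := hex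
  have hres : resF F ι = resF F (d • ι) := by rw [← hd1]; rfl
  obtain ⟨i, hi, hdi⟩ := exists_pow_of_resF_eq p σ hσ hord hp.pos ι (d • ι) hres
  have hi0 : i ≠ 0 := by
    rintro rfl
    rw [pow_zero, compA_one] at hdi
    exact hd2 hdi
  have hcop : Nat.Coprime i p := by
    rw [Nat.coprime_comm, hp.coprime_iff_not_dvd]
    intro hdvd
    have := Nat.le_of_dvd (Nat.pos_of_ne_zero hi0) hdvd
    exact absurd (Finset.mem_range.mp hi) (not_lt.mpr this)
  obtain ⟨j, -, hj⟩ := Nat.exists_mul_mod_eq_one_of_coprime hcop hp.one_lt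
  refine ⟨d ^ j, ?_⟩
  have h1 : d • ι = compA ι (σ ^ i) := hdi
  rw [pow_smul_eq_compA_pow (σ ^ i) ι d h1 j, ← pow_mul]
  congr 1
  rw [← pow_mod_orderOf, hord, hj, pow_one]

end Cyclic

end Fermat.Agent.S55lib.SecondIneq
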