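/-
S55 sprint, block (IV) second inequality, glue to the Layers model (helper1).
NORMS IN THE SEMILOCAL MODEL, `M/F` cyclic with generator `σ` of prime order `p`.
`IsLocNorm σ p ι z`: the value `z` at `resF ι` is a local norm (split case, or `z = ∏_{i<p} τ^i y` with
`τ • ι = ι ∘ σ`).  If all values of `f ∈ J_q(F)` are local norms then `f = N g`, `g ∈ J_q(M)`,
with `g` a unit if `f` is.  Globally: `ideleNorm`, and an idele all of whose components are local
norms is a norm.
-/
import Mathlib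
import Fermat.Agent.S55lib.SecondIneq.CyclicFibre
import Fermat.Agent.S55lib.Places.Basic
import Fermat.Agent.S55lib.Dev.Idele

set_option autoImplicit false

namespace Fermat.Agent.S55lib.SecondIneq

open Fermat.Agent.S55lib

variable {q : ℕ} [Fact q.Prime] {F M : Type*} [Field F] [Field M] [Algebra ℚ F] [Algebra ℚ M]
  [Algebra F M] [IsScalarTower ℚ F M]

theorem norm_galU (d : GalQq q) (y : (PadicAlgCl q)ˣ) :
    ‖((galU d y : (PadicAlgCl q)ˣ) : PadicAlgCl q)‖ = ‖(y : PadicAlgCl q)‖ :=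
  Places.norm_algEquiv d _

/-- the value `z` (at `resF ι`) is a local norm from the place of `M` given by `ι` -/
def IsLocNorm (σ : M ≃ₐ[F] M) (p : ℕ) (ι : Emb q M) (z : (PadicAlgCl q)ˣ) : Prop :=
  localField q M ι = localField q F (resF F ι) ∨
    ∃ (τ : GalQq q) (y : (PadicAlgCl q)ˣ), τ • ι = compA ι σ ∧
      (y : PadicAlgCl q) ∈ localField q M ι ∧ ∏ i ∈ Finset.range p, galU (τ ^ i) y = z ∧
      (‖(z : PadicAlgCl q)‖ = 1 → ‖(y : PadicAlgCl q)‖ = 1)

section Cyclic

variable [Normal F M] [FiniteDimensional ℚ M] (p : ℕ) (σ : M ≃ₐ[F] M)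
  (hσ : ∀ γ : M ≃ₐ[F] M, γ ∈ Subgroup.zpowers σ) (hord : orderOf σ = p)

omit [Normal F M] in
/-- the norm of a unit is a unit -/
theorem Jq.norm_mem_Uq {g : Jq q M} (hg : g ∈ Uq q M) :
    Jq.norm (IsScalarTower.toAlgHom ℚ F M) g ∈ Uq q F := by
  classical
  intro κ
  rw [Jq.norm_apply, Units.coe_prod, norm_prod]
  exact Finset.prod_eq_one fun ι _ => hg ι

include hσ hord in
/-- off the orbit of `resF ι₀` the norm of an orbit extension along `ι₀` is trivial -/
theorem norm_eq_one_of_off_orbit (hp : 0 < p) (ι₀ : Emb q M) (g : Jq q M)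
    (hoff : ∀ ι : Emb q M, (¬ ∃ d : GalQq q, d • ι₀ = ι) → g.1 ι = 1) (κ : Emb q F)
    (hκ : ¬ ∃ d : GalQq q, d • resF F ι₀ = κ) :
    (Jq.norm (IsScalarTower.toAlgHom ℚ F M) g).1 κ = 1 := by
  obtain ⟨ι, rfl⟩ := Emb.res_surjective (q := q) (IsScalarTower.toAlgHom ℚ F M) κ
  change (Jq.norm (IsScalarTower.toAlgHom ℚ F M) g).1 (resF F ι) = 1
  rw [norm_apply_resF p σ hσ hord hp]
  refine Finset.prod_eq_one fun i _ => hoff _ ?_
  rintro ⟨d, hd⟩
  apply hκ
  refine ⟨d, ?_⟩
  have := congrArg (resF F) hd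
  rw [resF_compA] at this
  exact this

include hσ hord in
/-- **per orbit**: a local norm at `ι₀` is the value at `resF ι₀` of the norm of an element of `J_q(M)`
which is trivial off the orbit -/
theorem exists_norm_eq_on_orbit (hp : p.Prime) (f : Jq q F) (ι₀ : Emb q M)
    (h : IsLocNorm σ p ι₀ (f.1 (resF F ι₀))) :
    ∃ g : Jq q M, (Jq.norm (IsScalarTower.toAlgHom ℚ F M) g).1 (resF F ι₀) = f.1 (resF F ι₀) ∧
      (∀ κ : Emb q F, (¬ ∃ d : GalQq q, d • resF F ι₀ = κ) →
        (Jq.norm (IsScalarTower.toAlgHom ℚ F M) g).1 κ = 1) ∧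
      (‖((f.1 (resF F ι₀) : (PadicAlgCl q)ˣ) : PadicAlgCl q)‖ = 1 → g ∈ Uq q M) := by
  classical
  rcases h with hsplit | ⟨τ, y, hτ, hy, hprod, hunit⟩
  · -- split case
    have hy : ((f.1 (resF F ι₀) : (PadicAlgCl q)ˣ) : PadicAlgCl q) ∈ localField q M ι₀ :=
      localField_resF_le ι₀ (Jq.val_mem_localField f.2 _)
    obtain ⟨g, hgorb, hgoff⟩ := exists_Jq_eq_on_orbit ι₀ (f.1 (resF F ι₀)) hy
    refine ⟨g, ?_, norm_eq_one_of_off_orbit p σ hσ hord hp.pos ι₀ g hgoff, ?_⟩
    · rw [norm_apply_resF p σ hσ hord hp.pos, Finset.prod_eq_single 0]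
      · rw [pow_zero, compA_one]
        have := hgorb 1
        rwa [one_smul, galU_one] at this
      · intro i hi hi0
        apply hgoff
        rintro ⟨e, he⟩
        -- `e` stabilises `resF ι₀`, hence `ι₀` (split), hence `σ ^ i = 1`
        have h1 : e • resF F ι₀ = resF F ι₀ := by
          have := congrArg (resF F) he
          rw [resF_compA] at this
          exact this
        have h2 : e • ι₀ = ι₀ := by
          rw [Emb.smul_eq_self_iff] at h1 ⊢
          rw [hsplit]; exact h1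
        rw [h2] at he
        have h3 : σ ^ i = 1 := by
          apply compA_injective ι₀
          rw [← he, compA_one]
        have h4 := orderOf_dvd_of_pow_eq_one h3
        rw [hord] at h4
        have := Nat.le_of_dvd (Nat.pos_of_ne_zero hi0) h4
        exact absurd (Finset.mem_range.mp hi) (not_lt.mpr this)
      · intro h0
        exact absurd (Finset.mem_range.mpr hp.pos) h0
    · intro hnorm ι
      by_cases hι : ∃ d : GalQq q, d • ι₀ = ι
      · obtain ⟨d, rfl⟩ := hι
        rw [hgorb, norm_galU]; exact hnorm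
      · rw [hgoff ι hι]; simp
  · -- non-split case
    obtain ⟨g, hgorb, hgoff⟩ := exists_Jq_eq_on_orbit ι₀ y hy
    refine ⟨g, ?_, norm_eq_one_of_off_orbit p σ hσ hord hp.pos ι₀ g hgoff, ?_⟩
    · rw [norm_apply_resF p σ hσ hord hp.pos, ← hprod]
      refine Finset.prod_congr rfl fun i _ => ?_
      rw [← pow_smul_eq_compA_pow σ ι₀ τ hτ i, hgorb]
    · intro hnorm ι
      by_cases hι : ∃ d : GalQq q, d • ι₀ = ι
      · obtain ⟨d, rfl⟩ := hι
        rw [hgorb, norm_galU]; exact hunit hnorm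
      · rw [hgoff ι hι]; simp

include hσ hord in
open Classical in
/-- **semilocal norm theorem**: if all values of `f` are local norms, `f` is a norm. -/
theorem exists_norm_eq_of_isLocNorm [FiniteDimensional ℚ F] (hp : p.Prime) (f : Jq q F)
    (h : ∀ ι : Emb q M, IsLocNorm σ p ι (f.1 (resF F ι))) :
    ∃ g : Jq q M, Jq.norm (IsScalarTower.toAlgHom ℚ F M) g = f ∧ (f ∈ Uq q F → g ∈ Uq q M) := by
  haveI : Finite (Emb q F) := inferInstance
  set Q := MulAction.orbitRel.Quotient (GalQq q) (Emb q F) with hQ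
  haveI : Fintype Q := Fintype.ofFinite Q
  have hsurj := Emb.res_surjective (q := q) (M := M) (IsScalarTower.toAlgHom ℚ F M)
  -- representatives
  have hrep : ∀ c : Q, ∃ ι₀ : Emb q M, (Quotient.mk'' (resF F ι₀) : Q) = c := by
    intro c
    obtain ⟨ι₀, hι₀⟩ := hsurj c.out
    refine ⟨ι₀, ?_⟩
    change (Quotient.mk'' (Emb.res (IsScalarTower.toAlgHom ℚ F M) ι₀) : Q) = c
    rw [hι₀]
    exact Quotient.out_eq' c
  choose rep hrepc using hrep
  have hmk : ∀ (κ : Emb q F) (c : Q), (Quotient.mk'' κ : Q) = c ↔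
      ∃ d : GalQq q, d • resF F (rep c) = κ := by
    intro κ c
    rw [← hrepc c, Quotient.eq'', MulAction.orbitRel_apply, MulAction.mem_orbit_iff, hrepc c]
  choose g hg1 hg2 hg3 using fun c : Q =>
    exists_norm_eq_on_orbit p σ hσ hord hp f (rep c) (h (rep c))
  refine ⟨∏ c : Q, g c, ?_, ?_⟩
  · apply Subtype.ext
    funext κ
    rw [map_prod]
    have hcoe : ((∏ c : Q, Jq.norm (IsScalarTower.toAlgHom ℚ F M) (g c) : Jq q F) :
        Emb q F → (PadicAlgCl q)ˣ) κ =
        ∏ c : Q, (Jq.norm (IsScalarTower.toAlgHom ℚ F M) (g c)).1 κ := by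
      rw [Subgroup.val_finsetProd, Finset.prod_apply]
    have key : ∀ (c : Q) (d : GalQq q),
        (Jq.norm (IsScalarTower.toAlgHom ℚ F M) (g c)).1 (d • resF F (rep c)) =
          f.1 (d • resF F (rep c)) := by
      intro c d
      rw [Jq.apply_smul, Jq.apply_smul, hg1]
    rw [hcoe, Finset.prod_eq_single (Quotient.mk'' κ : Q)]
    · obtain ⟨d, hd⟩ := (hmk κ _).mp rfl
      have := key (Quotient.mk'' κ) d
      rw [hd] at this
      exact this
    · intro c _ hc
      apply hg2 c κ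
      intro hd
      exact hc ((hmk κ c).mpr hd).symm
    · intro h0
      exact absurd (Finset.mem_univ _) h0
  · intro hf
    refine Subgroup.prod_mem _ fun c _ => hg3 c (hf _)

end Cyclic

end Fermat.Agent.S55lib.SecondIneq
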