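/-
S55 sprint, block (IV) second inequality, glue to the Layers model (helper1).
The norm map on finite ideles `Idele M → Idele F` (componentwise `Jq.norm`), and:
an idele of `F` all of whose components are local norms (`IsLocNorm`) is a norm from `M`
(`M/F` cyclic of prime degree).
-/
import Mathlib
import Fermat.Agent.S55lib.SecondIneq.SemilocalNorm

set_option autoImplicit false

namespace Fermat.Agent.S55lib.SecondIneq

open Fermat.Agent.S55lib Fermat.Agent.S55lib.Dev

variable (F M : Type*) [Field F] [Field M] [Algebra ℚ F] [Algebra ℚ M]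
  [Algebra F M] [IsScalarTower ℚ F M] [FiniteDimensional ℚ M]

/-- the norm on finite ideles -/
noncomputable def ideleNorm : Idele M →* Idele F where
  toFun x := ⟨fun q => Jq.norm (IsScalarTower.toAlgHom ℚ F M) (x.1 q), by
    rw [mem_Idele_iff]
    refine x.2.subset ?_
    intro q hq hx
    exact hq (Jq.norm_mem_Uq hx)⟩
  map_one' := by
    apply Idele.ext
    intro q
    exact map_one _
  map_mul' x y := by
    apply Idele.ext
    intro q
    exact map_mul _ _ _

variable {F M}

@[simp] theorem ideleNorm_apply (x : Idele M) (q : Nat.Primes) :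
    (ideleNorm F M x).1 q = Jq.norm (IsScalarTower.toAlgHom ℚ F M) (x.1 q) := rfl

/-- **an idele whose components are local norms everywhere is a norm** -/
theorem mem_range_ideleNorm [Normal F M] [FiniteDimensional ℚ F] (p : ℕ) (hp : p.Prime)
    (σ : M ≃ₐ[F] M) (hσ : ∀ γ : M ≃ₐ[F] M, γ ∈ Subgroup.zpowers σ) (hord : orderOf σ = p)
    (x : Idele F)
    (h : ∀ (q : Nat.Primes) (ι : Emb (q : ℕ) M), IsLocNorm σ p ι ((x.1 q).1 (resF F ι))) :
    x ∈ (ideleNorm F M).range := by
  choose g hg1 hg2 using fun q : Nat.Primes =>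
    exists_norm_eq_of_isLocNorm p σ hσ hord hp (x.1 q) (h q)
  refine ⟨⟨g, ?_⟩, ?_⟩
  · rw [mem_Idele_iff]
    refine x.2.subset ?_
    intro q hq hx
    exact hq (hg2 q hx)
  · apply Idele.ext
    intro q
    exact hg1 q

end Fermat.Agent.S55lib.SecondIneq
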