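/-
S55 sprint, block (IV) second inequality (helper1).
Abstract index lemma: for subgroups `B ≤ A` and `P` of a commutative group,
`(A P : B P) * (A ∩ P : B ∩ P) = (A : B)`.
-/
import Mathlib

set_option autoImplicit false

namespace Fermat.Agent.S55lib.SecondIneq

variable {G : Type*} [CommGroup G]

/-- `(A ⊔ P : B ⊔ P) * (A ⊓ P : B ⊓ P) = (A : B)` for `B ≤ A` in a commutative group. -/
theorem relIndex_sup_mul_relIndex_inf (A B P : Subgroup G) (hBA : B ≤ A) :
    (B ⊔ P).relIndex (A ⊔ P) * (B ⊓ P).relIndex (A ⊓ P) = B.relIndex A := by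
  set C : Subgroup G := B ⊔ (A ⊓ P) with hC
  have hBC : B ≤ C := le_sup_left
  have hCA : C ≤ A := sup_le hBA inf_le_left
  -- (1) (A : B) = (C : B) * (A : C)
  have h1 : B.relIndex A = B.relIndex C * C.relIndex A :=
    (Subgroup.relIndex_mul_relIndex B C A hBC hCA).symm
  -- (2) (C : B) = (A ⊓ P : B ⊓ P)
  have h2 : B.relIndex C = (B ⊓ P).relIndex (A ⊓ P) := by
    rw [hC, Subgroup.relIndex_sup_left, ← Subgroup.inf_relIndex_right B (A ⊓ P)]
    congr 1
    rw [← inf_assoc, inf_eq_left.mpr hBA]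
  -- (3) (A : C) = (A ⊔ P : B ⊔ P)
  have h3 : C.relIndex A = (B ⊔ P).relIndex (A ⊔ P) := by
    have hsup : A ⊔ P = A ⊔ (B ⊔ P) := by
      rw [← sup_assoc, sup_eq_left.mpr hBA]
    rw [hsup, Subgroup.relIndex_sup_right, ← Subgroup.inf_relIndex_right (B ⊔ P) A]
    congr 1
    -- modular law
    rw [hC, inf_comm A P]
    exact (sup_inf_assoc_of_le P hBA).symm
  rw [h1, h2, h3, mul_comm]

/-- Variant: if `A ⊔ P = ⊤`, then `(G : B ⊔ P) * (A ⊓ P : B ⊓ P) = (A : B)`. -/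
theorem index_sup_mul_relIndex_inf (A B P : Subgroup G) (hBA : B ≤ A) (hAP : A ⊔ P = ⊤) :
    (B ⊔ P).index * (B ⊓ P).relIndex (A ⊓ P) = B.relIndex A := by
  rw [← relIndex_sup_mul_relIndex_inf A B P hBA, hAP, Subgroup.relIndex_top_right]

end Fermat.Agent.S55lib.SecondIneq
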